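/-
S43lib / LGC / D / Cyc  (helper8)

Facts on helper9's cyclotomic character `cycU N : G_ℚ → (ℤ/N)ˣ` (`Igusa/NodeAct.lean`) used by the
assembly of LGC-D:

* `cycU_apply_of_pow_eq_one` : `σ μ = μ ^ (cycU N σ)` for every `N`-th root of unity `μ`;
* `cycU_coe_of_isFrobeniusAt` : `cycU N (Frob_ℓ) = ℓ` for `ℓ ∤ N`;
* `exists_finiteDimensional_cycU` : `cycU N` factors through a finite level;
* `unitsMap_cycU_eq` : the component of `cycU N σ` at a divisor `v ∣ N` is THE `c` with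
  `σ μ = μ ^ c` on `μ_v`.
-/
import Mathlib
import Fermat.Agent.S43lib.Igusa.NodeAct
import Fermat.Agent.S43lib.B3.Arith.Det

set_option autoImplicit false
set_option linter.unusedSectionVars false
set_option linter.style.haveILetI false

noncomputable section

namespace Fermat.Agent.S43lib.LGC.D

open Fermat.Agent.S43lib.Igusa Fermat.Agent.S48lib.X1

local notation "Qb" => AlgebraicClosure ℚ
local notation "GQ" => (AlgebraicClosure ℚ ≃ₐ[ℚ] AlgebraicClosure ℚ)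

section Cyc

variable (N : ℕ) [NeZero N]

/-- `σ μ = μ ^ (cycU N σ)` for every `N`-th root of unity `μ` -/
theorem cycU_apply_of_pow_eq_one (σ : GQ) {μ : Qb} (hμ : μ ^ N = 1) :
    σ μ = μ ^ (cycU N σ : ZMod N).val := by
  have hz : IsPrimitiveRoot ((zbar N : Qbˣ) : Qb) N :=
    IsPrimitiveRoot.coe_units_iff.mpr (zbar_spec N)
  obtain ⟨i, _, rfl⟩ := hz.eq_pow_of_pow_eq_one hμ
  have h1 := congrArg (fun u : Qbˣ => (u : Qb)) (cycU_spec N σ)
  simp only [Units.coe_map, Units.val_pow_eq_pow_val] at h1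
  have h2 : σ ((zbar N : Qbˣ) : Qb) = ((zbar N : Qbˣ) : Qb) ^ (cycU N σ : ZMod N).val := h1
  rw [map_pow, h2, ← pow_mul, ← pow_mul, mul_comm]

/-- two exponents giving the same power of every `N`-th root of unity agree mod `N` -/
theorem natCast_eq_of_forall_pow_eq {a b : ℕ}
    (h : ∀ μ : Qb, μ ^ N = 1 → μ ^ a = μ ^ b) : (a : ZMod N) = (b : ZMod N) := by
  have hz : IsPrimitiveRoot ((zbar N : Qbˣ) : Qb) N :=
    IsPrimitiveRoot.coe_units_iff.mpr (zbar_spec N)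
  have h1 := h _ hz.pow_eq_one
  have hN : ((zbar N : Qbˣ) : Qb) ^ N = 1 := hz.pow_eq_one
  have hmod : ∀ a : ℕ, ((zbar N : Qbˣ) : Qb) ^ a = ((zbar N : Qbˣ) : Qb) ^ (a % N) := by
    intro a
    conv_lhs => rw [← Nat.mod_add_div a N, pow_add, pow_mul, hN, one_pow, mul_one]
  rw [hmod a, hmod b] at h1
  have h2 := hz.pow_inj (Nat.mod_lt _ (NeZero.pos N)) (Nat.mod_lt _ (NeZero.pos N)) h1
  rw [ZMod.natCast_eq_natCast_iff]
  exact h2

/-- `cycU N (Frob_ℓ) = ℓ` for `ℓ ∤ N` -/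
theorem cycU_coe_of_isFrobeniusAt {A : ValuationSubring Qb} {ℓ : ℕ} (hA : A.LiesOverPrime ℓ)
    (hcop : Nat.Coprime N ℓ) {φ : GQ} (hφ : A.IsFrobeniusAt φ ℓ) :
    ((cycU N φ : (ZMod N)ˣ) : ZMod N) = (ℓ : ZMod N) := by
  have h : ∀ μ : Qb, μ ^ N = 1 → μ ^ (cycU N φ : ZMod N).val = μ ^ ℓ := by
    intro μ hμ
    rw [← cycU_apply_of_pow_eq_one N φ hμ]
    exact Fermat.Agent.S43lib.B3.frobenius_apply_rootOfUnity hA (NeZero.pos N) hcop hμ hφ
  have := natCast_eq_of_forall_pow_eq N h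
  rwa [ZMod.natCast_zmod_val] at this

/-- an automorphism fixing `ζ_N` has trivial cyclotomic character mod `N` -/
theorem cycU_eq_one_of_fixes (σ : GQ) (h : σ ((zbar N : Qbˣ) : Qb) = ((zbar N : Qbˣ) : Qb)) :
    cycU N σ = 1 := by
  have h1 : σ = σ * 1 := (mul_one σ).symm
  apply cycU_eq_of_spec
  apply Units.ext
  rw [Units.coe_map, Units.val_pow_eq_pow_val]
  show σ ((zbar N : Qbˣ) : Qb) = _
  rw [h]
  rcases Nat.lt_or_ge 1 N with h1N | h1N
  · haveI : Fact (1 < N) := ⟨h1N⟩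
    rw [Units.val_one, ZMod.val_one, pow_one]
  · have hN1 : N = 1 := le_antisymm h1N (NeZero.pos N)
    have hz : ((zbar N : Qbˣ) : Qb) ^ N = 1 :=
      (IsPrimitiveRoot.coe_units_iff.mpr (zbar_spec N)).pow_eq_one
    have hz1 : ((zbar N : Qbˣ) : Qb) = 1 := by
      have h2 : ((zbar N : Qbˣ) : Qb) ^ 1 = 1 := by
        rw [← hz]
        exact congrArg (fun n => ((zbar N : Qbˣ) : Qb) ^ n) hN1.symm
      rwa [pow_one] at h2
    rw [hz1, one_pow]

/-- `cycU N` factors through a finite level -/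
theorem exists_finiteDimensional_cycU :
    ∃ L : IntermediateField ℚ Qb, FiniteDimensional ℚ L ∧
      ∀ σ : GQ, (∀ x ∈ L, σ x = x) → cycU N σ = 1 := by
  have hz : IsPrimitiveRoot ((zbar N : Qbˣ) : Qb) N :=
    IsPrimitiveRoot.coe_units_iff.mpr (zbar_spec N)
  have hint : IsIntegral ℚ ((zbar N : Qbˣ) : Qb) :=
    (hz.isIntegral (NeZero.pos N)).tower_top
  refine ⟨IntermediateField.adjoin ℚ {((zbar N : Qbˣ) : Qb)},
    IntermediateField.adjoin.finiteDimensional hint, fun σ hσ => ?_⟩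
  exact cycU_eq_one_of_fixes N σ
    (hσ _ (IntermediateField.subset_adjoin ℚ _ (Set.mem_singleton _)))

/-- the component of `cycU N σ` at `v ∣ N` is the exponent of `σ` on `μ_v` -/
theorem unitsMap_cycU_eq {v : ℕ} [NeZero v] (hv : v ∣ N) (σ : GQ) (c : (ZMod v)ˣ)
    (hc : ∀ μ : Qb, μ ^ v = 1 → σ μ = μ ^ (c : ZMod v).val) :
    ZMod.unitsMap hv (cycU N σ) = c := by
  apply Units.ext
  rw [ZMod.unitsMap_def, Units.coe_map]
  show ZMod.castHom hv (ZMod v) ((cycU N σ : (ZMod N)ˣ) : ZMod N) = _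
  have h : ∀ μ : Qb, μ ^ v = 1 → μ ^ (cycU N σ : ZMod N).val = μ ^ (c : ZMod v).val := by
    intro μ hμ
    have hμN : μ ^ N = 1 := by
      obtain ⟨k, rfl⟩ := hv
      rw [pow_mul, hμ, one_pow]
    rw [← cycU_apply_of_pow_eq_one N σ hμN, hc μ hμ]
  have h1 := natCast_eq_of_forall_pow_eq v h
  rw [ZMod.natCast_zmod_val] at h1
  rw [← h1]
  conv_lhs => rw [← ZMod.natCast_zmod_val ((cycU N σ : (ZMod N)ˣ) : ZMod N)]
  rw [map_natCast]

end Cyc

end Fermat.Agent.S43lib.LGC.D
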