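/-
Project H (S43) / LGC / D / Annihilator   (helper2)

**A Carayol-type annihilator lemma** (Mathlib only).  `R` a commutative ring, `G` a group,
`ρ : G →* M₂(R)`, `V` an `R`-module with an `R`-linear action `π : G →* End_R V` such that

* (H1) every `g : G` satisfies on `V` the Cayley–Hamilton relation of `ρ g`:
  `π g ^ 2 - tr (ρ g) • π g + det (ρ g) • 1 = 0`;
* (H2) there is `g₀` with `tr ρ g₀ = α + β`, `det ρ g₀ = α β`, `α - β` a unit;
* (H3) the `R`-algebra map `R[G] → M₂(R)` induced by `ρ` is surjective.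

Then for every `w ∈ R[G]` acting by `0` on `V`, every entry of `ρ(w)` annihilates `V`
(`entry_smul_eq_zero_of_group`).

The proof uses no structure theory: (H1) polarizes (with `g, h, h g⁻¹`) to
`xy + yx - T(x) y - T(y) x + T(x) T(y) - T(xy) = 0` on `V` for all `x y ∈ R[G]` (`T = tr ∘ ρ`);
`e = (g₀ - β)/(α - β)` and `1 - e` are idempotent on `V` and in `M₂(R)` with `T = 1`, so the corners
`e R[G] e` act through `T(·) e`; `Σ_{ij} (1-e) E_{ji} e · e E_{ij} (1-e)` acts as `1 - e`.
-/
import Mathlib

set_option autoImplicit false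

namespace Fermat.Agent.S43lib.LGC.D

open Matrix

/-! ### `2 × 2` matrices -/

section Mat

variable {R : Type*} [CommRing R]

/-- Cayley–Hamilton for `2 × 2` matrices -/
theorem matrix_two_ch (m : Matrix (Fin 2) (Fin 2) R) :
    m * m - m.trace • m + m.det • (1 : Matrix (Fin 2) (Fin 2) R) = 0 := by
  ext i j
  fin_cases i <;> fin_cases j <;>
    simp [Matrix.mul_apply, Fin.sum_univ_two, Matrix.trace_fin_two, Matrix.det_fin_two] <;> ring

theorem sum_single_mul_mul_single (P : Matrix (Fin 2) (Fin 2) R) :
    ∑ i : Fin 2, ∑ j : Fin 2, Matrix.single j i (1 : R) * P * Matrix.single i j (1 : R) =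
      P.trace • (1 : Matrix (Fin 2) (Fin 2) R) := by
  ext a b
  fin_cases a <;> fin_cases b <;>
    simp [Fin.sum_univ_two, Matrix.trace_fin_two, Matrix.sum_apply]

theorem trace_mul_single_one (P : Matrix (Fin 2) (Fin 2) R) (i j : Fin 2) :
    (P * Matrix.single j i (1 : R)).trace = P i j := by
  fin_cases i <;> fin_cases j <;>
    simp [Matrix.mul_apply, Matrix.trace_fin_two, Matrix.single_apply]

end Mat

/-! ### the abstract statement -/

section Abstract

variable {R 𝔸 V : Type*} [CommRing R] [Ring 𝔸] [Algebra R 𝔸] [AddCommGroup V] [Module R V]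
variable (ρA : 𝔸 →ₐ[R] Matrix (Fin 2) (Fin 2) R) (πA : 𝔸 →ₐ[R] Module.End R V)

/-- the polarized Cayley–Hamilton identity of `ρA`, on `V` -/
def Polarized : Prop :=
  ∀ x y : 𝔸, πA x * πA y + πA y * πA x - (ρA x).trace • πA y - (ρA y).trace • πA x +
    ((ρA x).trace * (ρA y).trace - (ρA (x * y)).trace) • (1 : Module.End R V) = 0

/-- a "rank one idempotent" of `𝔸`, as seen by `ρA` and `πA` -/
structure IsRankOne (e : 𝔸) : Prop where
  trace : (ρA e).trace = 1
  idemρ : ρA e * ρA e = ρA e
  idemπ : πA e * πA e = πA e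

variable {ρA πA}

theorem IsRankOne.one_sub {e : 𝔸} (he : IsRankOne ρA πA e) : IsRankOne ρA πA (1 - e) := by
  refine ⟨?_, ?_, ?_⟩
  · rw [map_sub, map_one, Matrix.trace_sub, Matrix.trace_one, he.trace]
    simp
    norm_num
  · rw [map_sub, map_one, mul_sub, sub_mul, sub_mul, he.idemρ]
    simp
  · rw [map_sub, map_one, mul_sub, sub_mul, sub_mul, he.idemπ]
    simp

/-- the corner `e 𝔸 e` acts on `V` through `T(·) e` -/
theorem corner (hP : Polarized ρA πA) {e : 𝔸} (he : IsRankOne ρA πA e) (x : 𝔸) :
    πA (e * x * e) = (ρA (e * x * e)).trace • πA e := by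
  have h := hP (e * x * e) e
  have h1 : πA (e * x * e) * πA e = πA (e * x * e) := by
    simp only [map_mul, mul_assoc, he.idemπ]
  have h2 : πA e * πA (e * x * e) = πA (e * x * e) := by
    simp only [map_mul, ← mul_assoc, he.idemπ]
  have h3 : (ρA (e * x * e * e)).trace = (ρA (e * x * e)).trace := by
    simp only [map_mul, mul_assoc, he.idemρ]
  rw [h1, h2, h3, he.trace] at h
  linear_combination (norm := module) h

/-- the key step: `T(e w e)` kills `V` when `w` does -/
theorem corner_trace_smul_eq_zero (hP : Polarized ρA πA) (hsurj : Function.Surjective ρA) {e : 𝔸}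
    (he : IsRankOne ρA πA e) {w : 𝔸} (hw : πA w = 0) :
    (ρA (e * w * e)).trace • (1 : Module.End R V) = 0 := by
  have he' := he.one_sub
  set a : R := (ρA (e * w * e)).trace with ha
  -- `a • e = 0` on `V`
  have h1 : a • πA e = 0 := by
    rw [ha, ← corner hP he w, map_mul, map_mul, hw, mul_zero, zero_mul]
  -- matrix units
  choose zz hzz using fun i j : Fin 2 => hsurj (Matrix.single i j (1 : R))
  -- `1 - e = Σ (1-e) E_{ji} e · e E_{ij} (1-e)` on `V`
  have h2 : ∑ i : Fin 2, ∑ j : Fin 2,
      πA ((1 - e) * (zz j i * e * e * zz i j) * (1 - e)) = πA (1 - e) := by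
    have h3 : ∀ i j : Fin 2, πA ((1 - e) * (zz j i * e * e * zz i j) * (1 - e)) =
        (ρA ((1 - e) * (zz j i * e * e * zz i j) * (1 - e))).trace • πA (1 - e) :=
      fun i j => corner hP he' _
    simp only [h3]
    rw [← Finset.sum_congr rfl fun i _ => Finset.sum_smul, ← Finset.sum_smul]
    have h4 : ∑ i : Fin 2, ∑ j : Fin 2,
        (ρA ((1 - e) * (zz j i * e * e * zz i j) * (1 - e))).trace = 1 := by
      have h5 : ∀ i j : Fin 2, (ρA ((1 - e) * (zz j i * e * e * zz i j) * (1 - e))).trace =
          (ρA (1 - e) * (Matrix.single j i (1 : R) * ρA e * Matrix.single i j (1 : R))).trace := by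
        intro i j
        simp only [map_mul, hzz]
        rw [Matrix.trace_mul_comm, ← mul_assoc, he'.idemρ]
        simp only [mul_assoc, he.idemρ]
      simp only [h5]
      simp only [← Matrix.trace_sum, ← Finset.mul_sum]
      rw [sum_single_mul_mul_single, he.trace, one_smul, mul_one, he'.trace]
    rw [h4, one_smul]
  -- `a • (1 - e) = 0` on `V`
  have h6 : a • πA (1 - e) = 0 := by
    rw [← h2, Finset.smul_sum]
    refine Finset.sum_eq_zero fun i _ => ?_
    rw [Finset.smul_sum]
    refine Finset.sum_eq_zero fun j _ => ?_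
    have : πA ((1 - e) * (zz j i * e * e * zz i j) * (1 - e)) =
        πA ((1 - e) * zz j i) * πA e * πA (e * zz i j * (1 - e)) := by
      simp only [map_mul, mul_assoc]
    rw [this, mul_assoc, ← mul_smul_comm, ← smul_mul_assoc, h1, zero_mul, mul_zero]
  have h7 : (1 : Module.End R V) = πA e + πA (1 - e) := by
    rw [map_sub, map_one]
    abel
  rw [h7, smul_add, h1, h6, add_zero]

/-- `T(w)` kills `V` when `w` does -/
theorem trace_smul_eq_zero (hP : Polarized ρA πA) (hsurj : Function.Surjective ρA) {e : 𝔸}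
    (he : IsRankOne ρA πA e) {w : 𝔸} (hw : πA w = 0) :
    (ρA w).trace • (1 : Module.End R V) = 0 := by
  have he' := he.one_sub
  have h1 := corner_trace_smul_eq_zero hP hsurj he hw
  have h2 := corner_trace_smul_eq_zero hP hsurj he' hw
  have h3 : (ρA w).trace = (ρA (e * w * e)).trace + (ρA ((1 - e) * w * (1 - e))).trace := by
    have e1 : (ρA (e * w * e)).trace = (ρA w * ρA e).trace := by
      rw [map_mul, map_mul, Matrix.trace_mul_comm, ← mul_assoc, he.idemρ, Matrix.trace_mul_comm]
    have e2 : (ρA ((1 - e) * w * (1 - e))).trace = (ρA w * ρA (1 - e)).trace := by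
      rw [map_mul, map_mul, Matrix.trace_mul_comm, ← mul_assoc, he'.idemρ, Matrix.trace_mul_comm]
    rw [e1, e2, ← Matrix.trace_add, ← mul_add, map_sub, map_one, add_sub_cancel, mul_one]
  rw [h3, add_smul, h1, h2, add_zero]

/-- **the annihilator lemma, abstract form**: the entries of `ρA w` kill `V` when `w` does -/
theorem entry_smul_eq_zero (hP : Polarized ρA πA) (hsurj : Function.Surjective ρA) {e : 𝔸}
    (he : IsRankOne ρA πA e) {w : 𝔸} (hw : πA w = 0) (i j : Fin 2) :
    (ρA w i j) • (1 : Module.End R V) = 0 := by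
  obtain ⟨x, hx⟩ := hsurj (Matrix.single j i (1 : R))
  have h : πA (w * x) = 0 := by rw [map_mul, hw, zero_mul]
  have := trace_smul_eq_zero hP hsurj he h
  rwa [map_mul, hx, trace_mul_single_one] at this

end Abstract

/-! ### the group version -/

section Group

variable {R G V : Type*} [CommRing R] [Group G] [AddCommGroup V] [Module R V]
variable (ρ : G →* Matrix (Fin 2) (Fin 2) R) (π : G →* Module.End R V)

/-- **(H1)**: every group element satisfies on `V` the Cayley–Hamilton relation of its image under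
`ρ`. -/
def GroupCH : Prop :=
  ∀ g : G, π g * π g - (ρ g).trace • π g + (ρ g).det • (1 : Module.End R V) = 0

/-- the algebra map `R[G] → M₂(R)` -/
noncomputable abbrev rhoA : MonoidAlgebra R G →ₐ[R] Matrix (Fin 2) (Fin 2) R :=
  MonoidAlgebra.lift R _ G ρ

/-- the algebra map `R[G] → End_R V` -/
noncomputable abbrev piA : MonoidAlgebra R G →ₐ[R] Module.End R V :=
  MonoidAlgebra.lift R _ G π

variable {ρ π}

theorem det_smul_pi_inv (h1 : GroupCH ρ π) (g : G) :
    (ρ g).det • π g⁻¹ = (ρ g).trace • (1 : Module.End R V) - π g := by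
  have hB : π g * π g⁻¹ = 1 := by rw [← map_mul, mul_inv_cancel, map_one]
  have := congrArg (· * π g⁻¹) (h1 g)
  simp only [add_mul, sub_mul, smul_mul_assoc, mul_assoc, hB, mul_one, one_mul, zero_mul] at this
  linear_combination (norm := module) this

theorem det_smul_rho_inv (g : G) :
    (ρ g).det • ρ g⁻¹ = (ρ g).trace • (1 : Matrix (Fin 2) (Fin 2) R) - ρ g := by
  have hB : ρ g * ρ g⁻¹ = 1 := by rw [← map_mul, mul_inv_cancel, map_one]
  have := congrArg (· * ρ g⁻¹) (matrix_two_ch (ρ g))
  simp only [add_mul, sub_mul, smul_mul_assoc, mul_assoc, hB, mul_one, one_mul, zero_mul] at this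
  linear_combination (norm := module) this

/-- the polarized identity on group elements (from `g`, `h`, `h g⁻¹`) -/
theorem polarized_group (h1 : GroupCH ρ π) (g h : G) :
    π g * π h + π h * π g - (ρ g).trace • π h - (ρ h).trace • π g +
      ((ρ g).trace * (ρ h).trace - (ρ (g * h)).trace) • (1 : Module.End R V) = 0 := by
  have Ag := det_smul_pi_inv h1 g
  have Ah := det_smul_pi_inv h1 h
  have Ak := det_smul_pi_inv h1 (h * g⁻¹)
  have Bg := det_smul_rho_inv (ρ := ρ) g
  have hdd : (ρ g).det * (ρ g⁻¹).det = 1 := by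
    rw [← Matrix.det_mul, ← map_mul, mul_inv_cancel, map_one, Matrix.det_one]
  rw [_root_.mul_inv_rev, inv_inv] at Ak
  simp only [map_mul, Matrix.det_mul] at Ak
  -- scale by `det ρ g`
  have hs : (ρ g).det * ((ρ h).det * (ρ g⁻¹).det) = (ρ h).det := by
    rw [mul_comm (ρ h).det, ← mul_assoc, hdd, one_mul]
  have key := congrArg (fun X => (ρ g).det • X) Ak
  simp only [smul_smul, hs, smul_sub] at key
  -- the scalar
  have hsc : (ρ g).det * (ρ h * ρ g⁻¹).trace =
      (ρ g).trace * (ρ h).trace - (ρ h * ρ g).trace := by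
    rw [← smul_eq_mul, ← Matrix.trace_smul, ← mul_smul_comm, Bg, mul_sub, mul_smul_comm, mul_one,
      Matrix.trace_sub, Matrix.trace_smul, smul_eq_mul]
  rw [hsc] at key
  -- substitute
  have e1 : (ρ h).det • (π g * π h⁻¹) = π g * ((ρ h).trace • (1 : Module.End R V) - π h) := by
    rw [← Ah, mul_smul_comm]
  have e2 : (ρ g).det • (π h * π g⁻¹) = π h * ((ρ g).trace • (1 : Module.End R V) - π g) := by
    rw [← Ag, mul_smul_comm]
  rw [e1, e2] at key
  simp only [mul_sub, mul_smul_comm, mul_one] at key
  rw [map_mul, Matrix.trace_mul_comm]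
  linear_combination (norm := module) (-1 : R) • key

/-- the polarized identity on `R[G]` -/
theorem polarized_of_groupCH (h1 : GroupCH ρ π) : Polarized (rhoA ρ) (piA π) := by
  have step1 : ∀ (g : G) (y : MonoidAlgebra R G),
      piA π (MonoidAlgebra.of R G g) * piA π y + piA π y * piA π (MonoidAlgebra.of R G g) -
        (rhoA ρ (MonoidAlgebra.of R G g)).trace • piA π y -
        (rhoA ρ y).trace • piA π (MonoidAlgebra.of R G g) +
        ((rhoA ρ (MonoidAlgebra.of R G g)).trace * (rhoA ρ y).trace -
          (rhoA ρ (MonoidAlgebra.of R G g * y)).trace) • (1 : Module.End R V) = 0 := by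
    intro g y
    induction y using MonoidAlgebra.induction_on with
    | of h =>
      have := polarized_group h1 g h
      simp only [map_mul, MonoidAlgebra.lift_of] at this ⊢
      exact this
    | add x y hx hy =>
      simp only [map_add, add_mul, mul_add, Matrix.trace_add] at hx hy ⊢
      linear_combination (norm := module) hx + hy
    | smul r x hx =>
      simp only [map_smul, smul_mul_assoc, mul_smul_comm, Matrix.trace_smul, smul_eq_mul] at hx ⊢
      linear_combination (norm := module) r • hx
  intro x y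
  induction x using MonoidAlgebra.induction_on with
  | of g => exact step1 g y
  | add x x' hx hx' =>
    simp only [map_add, add_mul, mul_add, Matrix.trace_add] at hx hx' ⊢
    linear_combination (norm := module) hx + hx'
  | smul r x hx =>
    simp only [map_smul, smul_mul_assoc, mul_smul_comm, Matrix.trace_smul, smul_eq_mul] at hx ⊢
    linear_combination (norm := module) r • hx

/-- **(H2)** gives a rank one idempotent -/
theorem isRankOne_of_split (h1 : GroupCH ρ π) {g₀ : G} {α β v : R}
    (htr : (ρ g₀).trace = α + β) (hdet : (ρ g₀).det = α * β) (hv : v * (α - β) = 1) :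
    IsRankOne (rhoA ρ) (piA π)
      (v • (MonoidAlgebra.of R G g₀ - β • (1 : MonoidAlgebra R G))) := by
  have hch := matrix_two_ch (ρ g₀)
  have hch' := h1 g₀
  rw [htr, hdet] at hch hch'
  refine ⟨?_, ?_, ?_⟩
  · simp only [map_smul, map_sub, map_one, MonoidAlgebra.lift_of, Matrix.trace_smul,
      Matrix.trace_sub, Matrix.trace_one, htr, smul_eq_mul, Fintype.card_fin]
    linear_combination hv
  · simp only [map_smul, map_sub, map_one, MonoidAlgebra.lift_of, smul_mul_assoc, mul_smul_comm,
      mul_sub, sub_mul, mul_one, one_mul, smul_sub, smul_smul]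
    linear_combination (norm := module) (v * v) • hch +
      (v * hv) • (ρ g₀ - β • (1 : Matrix (Fin 2) (Fin 2) R))
  · simp only [map_smul, map_sub, map_one, MonoidAlgebra.lift_of, smul_mul_assoc, mul_smul_comm,
      mul_sub, sub_mul, mul_one, one_mul, smul_sub, smul_smul]
    linear_combination (norm := module) (v * v) • hch' +
      (v * hv) • (π g₀ - β • (1 : Module.End R V))

/-- **the annihilator lemma**: if every `g : G` satisfies on `V` the Cayley–Hamilton relation of
`ρ g`, some `ρ g₀` has characteristic polynomial `(X - α)(X - β)` with `α - β` a unit, and `ρ` spans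
`M₂(R)`, then for every `w ∈ R[G]` acting by `0` on `V`, all entries of `ρ(w)` annihilate `V`. -/
theorem entry_smul_eq_zero_of_group (h1 : GroupCH ρ π) {g₀ : G} {α β : R}
    (htr : (ρ g₀).trace = α + β) (hdet : (ρ g₀).det = α * β) (hu : IsUnit (α - β))
    (hsurj : Function.Surjective (rhoA ρ)) {w : MonoidAlgebra R G} (hw : piA π w = 0)
    (i j : Fin 2) (x : V) : (rhoA ρ w i j) • x = 0 := by
  obtain ⟨u, hu⟩ := hu
  have hv : (↑u⁻¹ : R) * (α - β) = 1 := by rw [← hu, Units.inv_mul]
  have := entry_smul_eq_zero (polarized_of_groupCH h1) hsurj (isRankOne_of_split h1 htr hdet hv)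
    hw i j
  have h2 := congrArg (fun f : Module.End R V => f x) this
  simpa using h2

/-- (H3) from the span of the image of `ρ` -/
theorem surjective_rhoA_of_span (h : Submodule.span R (Set.range ρ) = ⊤) :
    Function.Surjective (rhoA ρ) := by
  intro m
  have hm : m ∈ Submodule.span R (Set.range ρ) := by rw [h]; exact Submodule.mem_top
  induction hm using Submodule.span_induction with
  | mem x hx =>
    obtain ⟨g, rfl⟩ := hx
    exact ⟨MonoidAlgebra.of R G g, MonoidAlgebra.lift_of _ _⟩
  | zero => exact ⟨0, map_zero _⟩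
  | add x y _ _ hx hy =>
    obtain ⟨a, rfl⟩ := hx
    obtain ⟨b, rfl⟩ := hy
    exact ⟨a + b, map_add _ _ _⟩
  | smul r x _ hx =>
    obtain ⟨a, rfl⟩ := hx
    exact ⟨r • a, map_smul _ _ _⟩

end Group

end Fermat.Agent.S43lib.LGC.D
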