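/-
Project H (S43) / LGC / D / Family   (helper2)

**LGC-D, the abstract transfer** (Mathlib + `Annihilator.lean` + helper9's `LGC/Stmt.lean` only).

`R` a domain with `⋂ ϖ^k R = 0`, `ρ : G →* M₂(R)` with (H2), (H3) of `Annihilator.lean`.  Suppose that
for every `k` there is an `R[G]`-module `V k` on which every `g` satisfies the Cayley–Hamilton
relation of `ρ g`, containing an element `e k` whose annihilator is contained in `ϖ^k R`, and that
`c • w`, `c ≠ 0`, `w ∈ R[G]`, acts by `0` on every `V k`.  Then `ρ(w) = 0`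
(`rhoA_eq_zero_of_family`).

Applied to `w_t = (t - 1)² (t - χ t)`, `t` in a subgroup `I` with `det ρ t = χ t`, this gives
`tr ρ t = 1 + χ t` on `I` (`traceStmt_of_family`), by the `2 × 2` lemma `trace_eq_of_cubic`.
-/
import Mathlib
import Fermat.Agent.S43lib.LGC.D.Annihilator
import Fermat.Agent.S43lib.LGC.Stmt

set_option autoImplicit false
set_option linter.unusedSectionVars false

namespace Fermat.Agent.S43lib.LGC.D

open Matrix

/-! ### the limit argument -/

section Family

variable {R : Type*} [CommRing R] [IsDomain R] {G : Type*} [Group G]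

/-- **the transfer**: a word which kills (up to a non-zero constant) a family of `R[G]`-modules
satisfying the Cayley–Hamilton relations of `ρ` and containing elements of arbitrarily small
annihilator, is killed by `ρ`. -/
theorem rhoA_eq_zero_of_family (ρ : G →* Matrix (Fin 2) (Fin 2) R) {ϖ : R}
    (hϖ : ∀ r : R, (∀ k : ℕ, ϖ ^ k ∣ r) → r = 0)
    {g₀ : G} {α β : R} (htr : (ρ g₀).trace = α + β) (hdet : (ρ g₀).det = α * β)
    (hu : IsUnit (α - β)) (hsurj : Function.Surjective (rhoA ρ))
    (w : MonoidAlgebra R G) {c : R} (hc : c ≠ 0)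
    (V : ℕ → Type*) [∀ k, AddCommGroup (V k)] [∀ k, Module R (V k)]
    (π : ∀ k, G →* Module.End R (V k)) (e : ∀ k, V k)
    (hCH : ∀ k, GroupCH ρ (π k)) (hexact : ∀ (k : ℕ) (r : R), r • e k = 0 → ϖ ^ k ∣ r)
    (hw : ∀ k, piA (π k) (c • w) = 0) : rhoA ρ w = 0 := by
  ext i j
  have h1 : c * rhoA ρ w i j = 0 := by
    apply hϖ
    intro k
    apply hexact k
    have := entry_smul_eq_zero_of_group (hCH k) htr hdet hu hsurj (hw k) i j (e k)
    rwa [map_smul, Matrix.smul_apply, smul_eq_mul] at this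
  rw [Matrix.zero_apply]
  exact (mul_eq_zero.mp h1).resolve_left hc

end Family

/-! ### the `2 × 2` lemma -/

section Cubic

variable {R : Type*} [CommRing R] [IsDomain R]

/-- over a domain: `(m - 1)² (m - x) = 0`, `det m = x ≠ 0` imply `tr m = 1 + x`. -/
theorem trace_eq_of_cubic (m : Matrix (Fin 2) (Fin 2) R) (x : R) (hx : x ≠ 0) (hdet : m.det = x)
    (h : (m - 1) * (m - 1) * (m - x • (1 : Matrix (Fin 2) (Fin 2) R)) = 0) :
    m.trace = 1 + x := by
  rw [Matrix.det_fin_two] at hdet
  rw [Matrix.trace_fin_two]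
  set a := m 0 0 with ha
  set b := m 0 1 with hb
  set c := m 1 0 with hc
  set d := m 1 1 with hd
  -- the four entries of the cubic relation
  have h00 := congrFun (congrFun h 0) 0
  have h01 := congrFun (congrFun h 0) 1
  have h10 := congrFun (congrFun h 1) 0
  have h11 := congrFun (congrFun h 1) 1
  simp only [Matrix.mul_apply, Fin.sum_univ_two, Matrix.sub_apply, Matrix.smul_apply,
    Matrix.one_apply_eq, Matrix.one_apply_ne (show (0 : Fin 2) ≠ 1 by decide),
    Matrix.one_apply_ne (show (1 : Fin 2) ≠ 0 by decide), Matrix.zero_apply, smul_eq_mul,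
    mul_one, mul_zero, sub_zero, ← ha, ← hb, ← hc, ← hd] at h00 h01 h10 h11
  -- `s * ((τ - 1) m - x) = 0`, `s = τ - 1 - x`
  set s := a + d - (1 + x) with hs
  have e00 : s * ((a + d - 1) * a - x) = 0 := by
    rw [hs]; linear_combination h00 + (a + (a + d) - 2 - x) * hdet
  have e01 : s * ((a + d - 1) * b) = 0 := by
    rw [hs]; linear_combination h01 + b * hdet
  have e10 : s * ((a + d - 1) * c) = 0 := by
    rw [hs]; linear_combination h10 + c * hdet
  have e11 : s * ((a + d - 1) * d - x) = 0 := by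
    rw [hs]; linear_combination h11 + (d + (a + d) - 2 - x) * hdet
  by_cases hs0 : s = 0
  · rw [hs] at hs0
    linear_combination hs0
  · have f00 := (mul_eq_zero.mp e00).resolve_left hs0
    have f01 := (mul_eq_zero.mp e01).resolve_left hs0
    have f10 := (mul_eq_zero.mp e10).resolve_left hs0
    have f11 := (mul_eq_zero.mp e11).resolve_left hs0
    -- `τ - 1 ≠ 0`
    have ht : a + d - 1 ≠ 0 := by
      intro h0
      rw [h0, zero_mul, zero_sub, neg_eq_zero] at f00
      exact hx f00
    have hb0 : b = 0 := (mul_eq_zero.mp f01).resolve_left ht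
    have hc0 : c = 0 := (mul_eq_zero.mp f10).resolve_left ht
    have had : a = d := by
      have : (a + d - 1) * (a - d) = 0 := by linear_combination f00 - f11
      exact sub_eq_zero.mp ((mul_eq_zero.mp this).resolve_left ht)
    rw [hb0, zero_mul, sub_zero, ← had] at hdet
    -- `a (a - 1) = 0`
    have h2 : a * (a - 1) = 0 := by
      rw [← had] at f00
      linear_combination f00 - hdet
    have ha0 : a ≠ 0 := by
      intro h0
      rw [h0, zero_mul] at hdet
      exact hx hdet.symm
    have ha1 : a = 1 := sub_eq_zero.mp ((mul_eq_zero.mp h2).resolve_left ha0)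
    rw [← had, ← hdet, ha1]
    norm_num

end Cubic

/-! ### the trace statement -/

section Trace

variable {R : Type*} [CommRing R] [IsDomain R] {G : Type*} [Group G]

/-- the word `(t - 1)² (t - x)` of `R[G]` -/
noncomputable def cubicWord (t : G) (x : R) : MonoidAlgebra R G :=
  (MonoidAlgebra.of R G t - 1) * (MonoidAlgebra.of R G t - 1) *
    (MonoidAlgebra.of R G t - x • (1 : MonoidAlgebra R G))

theorem rhoA_cubicWord (ρ : G →* Matrix (Fin 2) (Fin 2) R) (t : G) (x : R) :
    rhoA ρ (cubicWord t x) =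
      (ρ t - 1) * (ρ t - 1) * (ρ t - x • (1 : Matrix (Fin 2) (Fin 2) R)) := by
  simp only [cubicWord, map_mul, map_sub, map_one, map_smul, MonoidAlgebra.lift_of]

theorem piA_cubicWord {V : Type*} [AddCommGroup V] [Module R V] (π : G →* Module.End R V) (t : G)
    (x : R) :
    piA π (cubicWord t x) = (π t - 1) * (π t - 1) * (π t - x • (1 : Module.End R V)) := by
  simp only [cubicWord, map_mul, map_sub, map_one, map_smul, MonoidAlgebra.lift_of]

/-- **LGC-D, abstract form**: `tr ρ t = 1 + χ t` on `I`, from the cubic words on a family of torsion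
modules. -/
theorem traceStmt_of_family (ρ : G →* Matrix (Fin 2) (Fin 2) R) (I : Subgroup G) (χ : G → R)
    {ϖ : R} (hϖ : ∀ r : R, (∀ k : ℕ, ϖ ^ k ∣ r) → r = 0)
    {g₀ : G} {α β : R} (htr : (ρ g₀).trace = α + β) (hdet₀ : (ρ g₀).det = α * β)
    (hu : IsUnit (α - β)) (hsurj : Function.Surjective (rhoA ρ)) {c : R} (hc : c ≠ 0)
    (hdet : ∀ t ∈ I, (ρ t).det = χ t)
    (V : ℕ → Type*) [∀ k, AddCommGroup (V k)] [∀ k, Module R (V k)]
    (π : ∀ k, G →* Module.End R (V k)) (e : ∀ k, V k)
    (hCH : ∀ k, GroupCH ρ (π k)) (hexact : ∀ (k : ℕ) (r : R), r • e k = 0 → ϖ ^ k ∣ r)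
    (hw : ∀ (k : ℕ), ∀ t ∈ I,
      c • ((π k t - 1) * (π k t - 1) * (π k t - χ t • (1 : Module.End R (V k)))) = 0) :
    TraceStmt I ρ χ := by
  intro t ht
  have h0 : rhoA ρ (cubicWord t (χ t)) = 0 :=
    rhoA_eq_zero_of_family ρ hϖ htr hdet₀ hu hsurj _ hc V π e hCH hexact fun k => by
      rw [map_smul, piA_cubicWord]
      exact hw k t ht
  rw [rhoA_cubicWord] at h0
  have hx : χ t ≠ 0 := by
    intro hx0
    have h1 : (ρ t).det * (ρ t⁻¹).det = 1 := by
      rw [← Matrix.det_mul, ← map_mul, mul_inv_cancel, map_one, Matrix.det_one]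
    rw [hdet t ht, hx0, zero_mul] at h1
    exact zero_ne_one h1
  exact trace_eq_of_cubic (ρ t) (χ t) hx (hdet t ht) h0

end Trace

end Fermat.Agent.S43lib.LGC.D
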