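/-
S43lib / LGC / D / Prim  (helper8)

**Primitive rescaling** of a nonzero additive character `φ : Γ → K = Frac 𝒪` of a finitely generated
group, `𝒪` a discrete valuation ring: there is `c ≠ 0` in `K` with `c φ` valued in `𝒪` and taking
a unit value.
-/
import Mathlib

set_option autoImplicit false

namespace Fermat.Agent.S43lib.LGC.D

section Prim

variable {𝒪 : Type*} [CommRing 𝒪] [IsDomain 𝒪] [IsDiscreteValuationRing 𝒪]

/-- a nonzero additive character with values in a DVR is a nonzero constant times a character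
taking a unit value -/
theorem exists_primitive_hom_int {A : Type*} [AddZeroClass A] (φ : A →+ 𝒪) (hφ : φ ≠ 0) :
    ∃ (c : 𝒪) (φ₀ : A →+ 𝒪), c ≠ 0 ∧ (∀ a, φ a = c * φ₀ a) ∧ ∃ a₀, IsUnit (φ₀ a₀) := by
  classical
  obtain ⟨ϖ, hϖ⟩ := IsDiscreteValuationRing.exists_irreducible 𝒪
  have hJ : Ideal.span (Set.range φ) ≠ ⊥ := by
    intro h
    apply hφ
    ext a
    have : φ a ∈ Ideal.span (Set.range φ) := Ideal.subset_span ⟨a, rfl⟩
    rw [h] at this
    exact this
  obtain ⟨n, hn⟩ := IsDiscreteValuationRing.ideal_eq_span_pow_irreducible hJ hϖ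
  have hc : ϖ ^ n ≠ 0 := pow_ne_zero _ hϖ.ne_zero
  have hdiv : ∀ a, ∃ b, φ a = ϖ ^ n * b := by
    intro a
    have : φ a ∈ Ideal.span {ϖ ^ n} := by rw [← hn]; exact Ideal.subset_span ⟨a, rfl⟩
    rw [Ideal.mem_span_singleton'] at this
    obtain ⟨b, hb⟩ := this
    exact ⟨b, by rw [mul_comm]; exact hb.symm⟩
  choose v hv using hdiv
  have hv0 : v 0 = 0 := by
    have := hv 0
    rw [map_zero] at this
    exact (mul_eq_zero.1 this.symm).resolve_left hc
  have hvadd : ∀ a b, v (a + b) = v a + v b := by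
    intro a b
    apply mul_left_cancel₀ hc
    rw [← hv, mul_add, ← hv, ← hv, map_add]
  let φ₀ : A →+ 𝒪 := { toFun := v, map_zero' := hv0, map_add' := hvadd }
  refine ⟨ϖ ^ n, φ₀, hc, hv, ?_⟩
  -- some value is a unit
  by_contra hno
  have hall : ∀ a, v a ∈ IsLocalRing.maximalIdeal 𝒪 := by
    intro a
    rw [IsLocalRing.mem_maximalIdeal, mem_nonunits_iff]
    exact fun h => hno ⟨a, h⟩
  have hmax : IsLocalRing.maximalIdeal 𝒪 = Ideal.span {ϖ} := hϖ.maximalIdeal_eq
  have hle : Ideal.span (Set.range φ) ≤ Ideal.span {ϖ ^ (n + 1)} := by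
    rw [Ideal.span_le]
    rintro _ ⟨a, rfl⟩
    have h1 := hall a
    rw [hmax, Ideal.mem_span_singleton'] at h1
    obtain ⟨b, hb⟩ := h1
    rw [SetLike.mem_coe, Ideal.mem_span_singleton']
    refine ⟨b, ?_⟩
    rw [hv a, ← hb, pow_succ]
    ring
  rw [hn, Ideal.span_singleton_le_span_singleton] at hle
  obtain ⟨d, hd⟩ := hle
  have h1 : ϖ ^ n * 1 = ϖ ^ n * (ϖ * d) := by
    rw [mul_one]
    conv_lhs => rw [hd]
    rw [pow_succ]
    ring
  have h2 := mul_left_cancel₀ hc h1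
  exact hϖ.not_isUnit (IsUnit.of_mul_eq_one d h2.symm)

variable {K : Type*} [Field K] [Algebra 𝒪 K] [IsFractionRing 𝒪 K]

/-- **primitive rescaling**: a nonzero additive character `Γ → Frac 𝒪` of a finitely generated
group is a nonzero constant times (the image of) an `𝒪`-valued character taking a unit value. -/
theorem exists_primitive_hom {Γ : Type*} [Group Γ] (hfg : Group.FG Γ) (φ : Additive Γ →+ K)
    (hφ : φ ≠ 0) :
    ∃ (c : K) (φ₀ : Additive Γ →+ 𝒪), c ≠ 0 ∧
      (∀ γ, algebraMap 𝒪 K (φ₀ γ) = c * φ γ) ∧ ∃ γ₀ : Γ, IsUnit (φ₀ (Additive.ofMul γ₀)) := by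
  classical
  obtain ⟨S, hS, hSfin⟩ := Group.fg_iff.mp hfg
  -- a common denominator on the generators
  obtain ⟨d, hd⟩ := IsLocalization.exist_integer_multiples_of_finset (nonZeroDivisors 𝒪)
    (hSfin.toFinset.image fun g : Γ => φ (Additive.ofMul g))
  have hd0 : (d : 𝒪) ≠ 0 := nonZeroDivisors.ne_zero d.2
  have hdK : algebraMap 𝒪 K (d : 𝒪) ≠ 0 := by
    rw [Ne, IsFractionRing.to_map_eq_zero_iff]
    exact hd0
  -- all values have the denominator `d`
  have hall : ∀ g : Γ, ∃ y : 𝒪, algebraMap 𝒪 K y = algebraMap 𝒪 K (d : 𝒪) * φ (Additive.ofMul g) := by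
    intro g
    have hg : g ∈ Subgroup.closure S := by rw [hS]; trivial
    induction hg using Subgroup.closure_induction with
    | mem s hs =>
      have := hd (φ (Additive.ofMul s))
        (Finset.mem_image.2 ⟨s, hSfin.mem_toFinset.2 hs, rfl⟩)
      obtain ⟨y, hy⟩ := this
      refine ⟨y, ?_⟩
      rw [hy]
      exact Algebra.smul_def (d : 𝒪) _
    | one => exact ⟨0, by rw [map_zero, ofMul_one, map_zero, mul_zero]⟩
    | mul a b _ _ ha hb =>
      obtain ⟨ya, hya⟩ := ha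
      obtain ⟨yb, hyb⟩ := hb
      exact ⟨ya + yb, by rw [map_add, hya, hyb, ofMul_mul, map_add, mul_add]⟩
    | inv a _ ha =>
      obtain ⟨ya, hya⟩ := ha
      exact ⟨-ya, by rw [map_neg, hya, ofMul_inv, map_neg, mul_neg]⟩
  have hall' : ∀ a : Additive Γ, ∃ y : 𝒪, algebraMap 𝒪 K y = algebraMap 𝒪 K (d : 𝒪) * φ a :=
    fun a => hall (Additive.toMul a)
  choose w hw using hall'
  have hinj : Function.Injective (algebraMap 𝒪 K) := IsFractionRing.injective 𝒪 K
  let φ₁ : Additive Γ →+ 𝒪 :=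
    { toFun := w
      map_zero' := by
        apply hinj
        rw [hw, map_zero, map_zero, mul_zero]
      map_add' := fun a b => by
        apply hinj
        rw [map_add, hw, hw, hw, ← mul_add, ← map_add] }
  have hφ₁ : ∀ a : Additive Γ, algebraMap 𝒪 K (φ₁ a) = algebraMap 𝒪 K (d : 𝒪) * φ a := hw
  have hφ₁0 : φ₁ ≠ 0 := by
    intro h0
    apply hφ
    ext a
    have := hφ₁ a
    rw [h0, AddMonoidHom.zero_apply, map_zero] at this
    exact (mul_eq_zero.1 this.symm).resolve_left hdK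
  obtain ⟨c₁, φ₀, hc₁, hφ₀, a₀, ha₀⟩ := exists_primitive_hom_int φ₁ hφ₁0
  have hc₁K : algebraMap 𝒪 K c₁ ≠ 0 := by
    rw [Ne, IsFractionRing.to_map_eq_zero_iff]
    exact hc₁
  refine ⟨algebraMap 𝒪 K (d : 𝒪) / algebraMap 𝒪 K c₁, φ₀, div_ne_zero hdK hc₁K, fun γ => ?_,
    ⟨Additive.toMul a₀, ha₀⟩⟩
  have h1 := hφ₁ γ
  rw [hφ₀ γ, map_mul] at h1
  rw [div_mul_eq_mul_div, ← h1, mul_div_cancel_left₀ _ hc₁K]

end Prim

end Fermat.Agent.S43lib.LGC.D
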