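/-
S43lib / LGC / D / Transfer  (helper8)  — Project H, block LGC-D, brick (B) TRANSFER, part 1.

THE `λ`-PART OF `V ⊗ R` FOR A `KummerGalData`, AT ONE FINITE LEVEL.

`D : KummerGalData Γ M m` (the abstract package of `J₁(M)[m]`: Galois action `D.ρ` of finite level,
`D.T ℓ`, `D.diam d`, Eichler–Shimura `σ² - T_ℓ σ + ℓ ⟨ℓ⟩ = 0`, Kummer map `D.lam` with the cocycle formulas),
`R` a commutative ring with `m = 0` (in the application `R = 𝒪'/p^k`, `m = p^k`), eigenvalues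
`b ℓ ∈ R` (`ℓ ∉ S₀`), `χ : (ℤ/M)ˣ →* Rˣ`.

* `ZDual R m = (R →+ ℤ/m)` with the `R`-module structure `(c • θ) f = θ (c f)`;
* `WK D S₀ b χ` : helper6's `eigHom` for `J = D.V`, `D = ZDual R m` : the additive maps
  `h : ZDual R m → D.V` with `T_ℓ (h θ) = h (b ℓ • θ)`, `⟨d⟩ (h θ) = h (χ d • θ)`  (`= (V ⊗ R)[λ]`);
* `actK` : the `R`-linear action of `G_ℚ` on it; `actK_frob` (Eichler–Shimura on `WK`), `actK_CH`
  (Cayley–Hamilton for every `σ ∈ G_ℚ` w.r.t. a representation `ρ̄ : G_ℚ → M₂(R)` of finite level with the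
  right Frobenius traces and determinants: weak Chebotarev + the power identity, helper6's pattern);
* `eigElt` : the element of `WK` attached to an eigen-homomorphism `φ̄ : Γ → R` (parabolic), and its
  faithfulness when `φ̄` takes a unit value.
-/
import Mathlib
import Fermat.Agent.S43lib.B0.End.CH
import Fermat.Agent.S48lib.X1.Gal.Final
import Fermat.Agent.S31lib.WC.Export

set_option autoImplicit false
set_option linter.unusedSectionVars false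
set_option linter.unusedVariables false
set_option linter.style.haveILetI false

noncomputable section

namespace Fermat.Agent.S43lib.LGC.D

open Matrix Fermat.Agent.S48lib.X1.Gal Fermat.Agent.S43lib.B0.EndBlock Fermat.Agent.S16lib.LG
open scoped MatrixGroups

local notation "Qb" => AlgebraicClosure ℚ
local notation "GQ" => (AlgebraicClosure ℚ ≃ₐ[ℚ] AlgebraicClosure ℚ)

/-! ### the `ℤ/m`-dual of a ring -/

/-- additive maps `R → ℤ/m`, with the `R`-module structure `(c • θ) f = θ (c * f)` -/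
def ZDual (R : Type*) [CommRing R] (m : ℕ) : Type _ := R →+ ZMod m

namespace ZDual

variable {R : Type*} [CommRing R] {m : ℕ}

instance : AddCommGroup (ZDual R m) := inferInstanceAs (AddCommGroup (R →+ ZMod m))

instance : FunLike (ZDual R m) R (ZMod m) := inferInstanceAs (FunLike (R →+ ZMod m) R (ZMod m))

instance : AddMonoidHomClass (ZDual R m) R (ZMod m) :=
  inferInstanceAs (AddMonoidHomClass (R →+ ZMod m) R (ZMod m))

/-- the underlying additive map -/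
def toHom (θ : ZDual R m) : R →+ ZMod m := θ

@[simp] theorem toHom_apply (θ : ZDual R m) (f : R) : θ.toHom f = θ f := rfl

@[ext] theorem ext {θ θ' : ZDual R m} (h : ∀ f, θ f = θ' f) : θ = θ' :=
  AddMonoidHom.ext h

@[simp] theorem add_apply (θ θ' : ZDual R m) (f : R) : (θ + θ') f = θ f + θ' f := rfl

@[simp] theorem zero_apply (f : R) : (0 : ZDual R m) f = 0 := rfl

instance : SMul R (ZDual R m) := ⟨fun c θ => (θ.toHom).comp (AddMonoidHom.mulLeft c)⟩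

@[simp] theorem smul_apply (c : R) (θ : ZDual R m) (f : R) : (c • θ) f = θ (c * f) := rfl

instance : Module R (ZDual R m) :=
  Module.ofMinimalAxioms
    (fun c θ θ' => ext fun f => rfl)
    (fun c c' θ => ext fun f => by
      rw [smul_apply, add_apply, smul_apply, smul_apply, add_mul, map_add])
    (fun c c' θ => ext fun f => by
      rw [smul_apply, smul_apply, smul_apply]
      congr 1
      ring)
    (fun θ => ext fun f => by rw [smul_apply, one_mul])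

end ZDual

/-! ### the `λ`-part -/

section Part

variable {Γ : Subgroup SL(2, ℤ)} {M m : ℕ} (D : KummerGalData Γ M m)
variable {R : Type} [CommRing R] (S₀ : Finset ℕ) (b : ℕ → R) (χ : (ZMod M)ˣ →* Rˣ)

/-- the index type of the operators: the primes outside `S₀` and the diamonds -/
abbrev OpIdx (M : ℕ) (S₀ : Finset ℕ) : Type := {ℓ : ℕ // ℓ.Prime ∧ ℓ ∉ S₀} ⊕ (ZMod M)ˣ

/-- the operators on `D.V` -/
def opT : OpIdx M S₀ → D.V →+ D.V
  | Sum.inl ℓ => (D.T ℓ.1).toAddMonoidHom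
  | Sum.inr d => (D.diam d).toAddMonoidHom

/-- the eigenvalues -/
def opA : OpIdx M S₀ → R
  | Sum.inl ℓ => b ℓ.1
  | Sum.inr d => ((χ d : Rˣ) : R)

/-- the action of `G_ℚ` on `D.V` through `D.ρ` -/
@[reducible] def galDMA : DistribMulAction GQ D.V := DistribMulAction.compHom D.V D.ρ

attribute [local instance] galDMA

theorem gal_smul_def (σ : GQ) (x : D.V) :
    (letI := galDMA D; σ • x) = D.ρ σ x := rfl

/-- **the `λ`-part of `V ⊗ R`** -/
abbrev WK : AddSubgroup (ZDual R m →+ D.V) :=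
  eigHom (D := ZDual R m) (⊤ : AddSubgroup D.V) (opT D S₀) (opA S₀ b χ)

theorem WK_T (h : WK D S₀ b χ) {ℓ : ℕ} (hℓ : ℓ.Prime) (hℓS : ℓ ∉ S₀) (θ : ZDual R m) :
    D.T ℓ ((h : ZDual R m →+ D.V) θ) = (h : ZDual R m →+ D.V) (b ℓ • θ) :=
  eigHom_hecke h (Sum.inl ⟨ℓ, hℓ, hℓS⟩) θ

theorem WK_diam (h : WK D S₀ b χ) (d : (ZMod M)ˣ) (θ : ZDual R m) :
    D.diam d ((h : ZDual R m →+ D.V) θ) = (h : ZDual R m →+ D.V) (((χ d : Rˣ) : R) • θ) :=
  eigHom_hecke h (Sum.inr d) θ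

theorem opT_galois (i : OpIdx M S₀) (σ : GQ) (x : D.V) :
    opT D S₀ i (σ • x) = σ • opT D S₀ i x := by
  cases i with
  | inl ℓ =>
    show D.T ℓ.1 (D.ρ σ x) = D.ρ σ (D.T ℓ.1 x)
    have := (D.comm_T ℓ.1 σ).eq
    exact (LinearMap.congr_fun this x).symm
  | inr d =>
    show D.diam d (D.ρ σ x) = D.ρ σ (D.diam d x)
    have := (D.comm_diam d σ).eq
    exact (LinearMap.congr_fun this x).symm

/-- **the action of `G_ℚ` on the `λ`-part** -/
def actK : GQ →* Module.End R (WK D S₀ b χ) :=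
  galAct (opT_galois D S₀) (fun _ _ _ => AddSubgroup.mem_top _)

@[simp] theorem actK_apply (σ : GQ) (h : WK D S₀ b χ) (θ : ZDual R m) :
    ((actK D S₀ b χ σ h : WK D S₀ b χ) : ZDual R m →+ D.V) θ =
      D.ρ σ ((h : ZDual R m →+ D.V) θ) := rfl

theorem actK_eq_one_of_rho_eq_one {τ : GQ} (hτ : D.ρ τ = 1) : actK D S₀ b χ τ = 1 := by
  apply LinearMap.ext
  intro h
  apply eigHom_ext
  intro θ
  rw [actK_apply, hτ]
  rfl

/-- additive maps commute with natural number scalars of `R` on the dual -/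
theorem hom_natCast_smul (h : ZDual R m →+ D.V) (n : ℕ) (θ : ZDual R m) :
    h ((n : R) • θ) = n • h θ := by
  rw [Nat.cast_smul_eq_nsmul, map_nsmul]

/-- **Eichler–Shimura on the `λ`-part** -/
theorem actK_frob {ℓ : ℕ} (hℓ : ℓ.Prime) (hℓS : ℓ ∉ S₀) (hℓM : ¬ ℓ ∣ M * m)
    (d : (ZMod M)ˣ) (hd : (d : ZMod M) = (ℓ : ZMod M))
    {A : ValuationSubring Qb} (hA : A.LiesOverPrime ℓ) {φ : GQ} (hφ : A.IsFrobeniusAt φ ℓ) :
    actK D S₀ b χ φ * actK D S₀ b χ φ - b ℓ • actK D S₀ b χ φ +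
      ((ℓ : R) * ((χ d : Rˣ) : R)) • (1 : Module.End R (WK D S₀ b χ)) = 0 := by
  apply LinearMap.ext
  intro h
  apply eigHom_ext
  intro θ
  have key := D.es ℓ hℓ hℓM d hd A hA φ hφ
  have key' := LinearMap.congr_fun key ((h : ZDual R m →+ D.V) θ)
  show D.ρ φ (D.ρ φ ((h : ZDual R m →+ D.V) θ)) - D.ρ φ ((h : ZDual R m →+ D.V) (b ℓ • θ)) +
    (h : ZDual R m →+ D.V) (((ℓ : R) * ((χ d : Rˣ) : R)) • θ) = 0
  rw [← WK_T D S₀ b χ h hℓ hℓS θ, mul_smul, hom_natCast_smul, ← WK_diam D S₀ b χ h d θ]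
  have hcomm : D.ρ φ (D.T ℓ ((h : ZDual R m →+ D.V) θ)) =
      D.T ℓ (D.ρ φ ((h : ZDual R m →+ D.V) θ)) :=
    LinearMap.congr_fun (D.comm_T ℓ φ).eq _
  rw [hcomm]
  simp only [LinearMap.add_apply, LinearMap.sub_apply, Module.End.mul_apply, LinearMap.smul_apply,
    LinearMap.zero_apply] at key'
  rw [← key']
  congr 1
  rw [← Nat.cast_smul_eq_nsmul (ZMod m)]

/-! ### Cayley–Hamilton for all of `G_ℚ` -/

section CH

variable (ρb : GQ →* Matrix (Fin 2) (Fin 2) R)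
  (hfl : GaloisFactorsThroughFiniteLevel ρb)
  (hS₀ : ∀ ℓ : ℕ, ℓ.Prime → ℓ ∉ S₀ → ¬ ℓ ∣ M * m)
  (hfrob : ∀ ℓ : ℕ, ℓ.Prime → ℓ ∉ S₀ → ∀ A : ValuationSubring Qb, A.LiesOverPrime ℓ →
    ∀ φ : GQ, A.IsFrobeniusAt φ ℓ → ∃ d : (ZMod M)ˣ, (d : ZMod M) = (ℓ : ZMod M) ∧
      (ρb φ).trace = b ℓ ∧ (ρb φ).det = (ℓ : R) * ((χ d : Rˣ) : R))

include hfl in
/-- weak Chebotarev: every `σ` is a power of a Frobenius element at a prime outside `S₀`, up to an
element acting trivially through `ρb` and on `D.V`. -/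
theorem exists_frob_pow_K (σ : GQ) :
    ∃ (ℓ : ℕ) (A : ValuationSubring Qb) (φ : GQ) (j : ℕ) (τ : GQ), ℓ.Prime ∧ ℓ ∉ S₀ ∧
      A.LiesOverPrime ℓ ∧ A.IsFrobeniusAt φ ℓ ∧ φ ^ j = σ * τ ∧ ρb τ = 1 ∧ D.ρ τ = 1 := by
  obtain ⟨L₁, hL₁fd, hL₁⟩ := D.finiteLevel
  obtain ⟨L₂, hL₂fd, hL₂⟩ := hfl
  haveI := hL₁fd
  haveI := hL₂fd
  haveI : FiniteDimensional ℚ (L₁ ⊔ L₂ : IntermediateField ℚ Qb) :=
    IntermediateField.finiteDimensional_sup L₁ L₂
  obtain ⟨ℓ, A, φ, j, hℓ, hℓS, hA, hφ, hσ⟩ :=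
    Fermat.Agent.S31lib.WC.brickWC S₀ (L₁ ⊔ L₂) inferInstance σ
  have hτ : ∀ x ∈ (L₁ ⊔ L₂ : IntermediateField ℚ Qb), (σ⁻¹ * φ ^ j) x = x := by
    intro x hx
    rw [AlgEquiv.mul_apply, hσ x hx]
    exact σ.symm_apply_apply x
  refine ⟨ℓ, A, φ, j, σ⁻¹ * φ ^ j, hℓ, hℓS, hA, hφ, (mul_inv_cancel_left σ _).symm, ?_, ?_⟩
  · exact hL₂ _ fun x hx => hτ x ((le_sup_right : L₂ ≤ L₁ ⊔ L₂) hx)
  · exact hL₁ _ fun x hx => hτ x ((le_sup_left : L₁ ≤ L₁ ⊔ L₂) hx)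

include hfl hS₀ hfrob in
/-- **Cayley–Hamilton on the `λ`-part for every `σ ∈ G_ℚ`** -/
theorem actK_CH (σ : GQ) :
    actK D S₀ b χ σ * actK D S₀ b χ σ - (ρb σ).trace • actK D S₀ b χ σ +
      (ρb σ).det • (1 : Module.End R (WK D S₀ b χ)) = 0 := by
  obtain ⟨ℓ, A, φ, j, τ, hℓ, hℓS, hA, hφ, hστ, hρτ, hDτ⟩ := exists_frob_pow_K D S₀ ρb hfl σ
  obtain ⟨d, hd, htr, hdet⟩ := hfrob ℓ hℓ hℓS A hA φ hφ
  have h1 : ρb σ = ρb φ ^ j :=
    calc ρb σ = ρb σ * ρb τ := by rw [hρτ, mul_one]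
      _ = ρb (σ * τ) := (ρb.map_mul σ τ).symm
      _ = ρb (φ ^ j) := congrArg ρb hστ.symm
      _ = ρb φ ^ j := ρb.map_pow φ j
  have h3 : actK D S₀ b χ τ = 1 := actK_eq_one_of_rho_eq_one D S₀ b χ hDτ
  have h2 : actK D S₀ b χ σ = actK D S₀ b χ φ ^ j :=
    calc actK D S₀ b χ σ = actK D S₀ b χ σ * 1 := (mul_one _).symm
      _ = actK D S₀ b χ σ * actK D S₀ b χ τ := congrArg _ h3.symm
      _ = actK D S₀ b χ (σ * τ) := ((actK D S₀ b χ).map_mul σ τ).symm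
      _ = actK D S₀ b χ (φ ^ j) := congrArg (actK D S₀ b χ) hστ.symm
      _ = actK D S₀ b χ φ ^ j := (actK D S₀ b χ).map_pow φ j
  have hES := CH_of_eq _ htr hdet
    (actK_frob D S₀ b χ hℓ hℓS (hS₀ ℓ hℓ hℓS) d hd hA hφ)
  exact CH_of_pow _ _ _ _ j h1 h2 hES

end CH

/-! ### the element attached to an eigen-homomorphism -/

section Elt

variable (φb : Additive Γ →+ R)
  (hpar : ∀ γ : Γ, IsParTor (γ : SL(2, ℤ)) → φb (Additive.ofMul γ) = 0)

/-- the homomorphism `θ ∘ φ̄ : Γ → ℤ/m` -/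
def dualComp (θ : ZDual R m) : Additive Γ →+ ZMod m := (θ.toHom).comp φb

@[simp] theorem dualComp_apply (θ : ZDual R m) (a : Additive Γ) :
    dualComp φb θ a = θ (φb a) := rfl

include hpar in
theorem dualComp_mem_range (θ : ZDual R m) : dualComp φb θ ∈ Set.range D.lam :=
  D.lam_range _ fun γ hγ => by rw [dualComp_apply, hpar γ hγ, map_zero]

/-- the point of `D.V` with Kummer image `θ ∘ φ̄` -/
def eltPt (θ : ZDual R m) : D.V := (dualComp_mem_range D φb hpar θ).choose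

theorem lam_eltPt (θ : ZDual R m) : D.lam (eltPt D φb hpar θ) = dualComp φb θ :=
  (dualComp_mem_range D φb hpar θ).choose_spec

/-- `θ ↦ lam⁻¹(θ ∘ φ̄)` as an additive map -/
def eltHom : ZDual R m →+ D.V :=
  AddMonoidHom.mk' (eltPt D φb hpar) (fun θ θ' => by
    apply D.lam_inj
    rw [map_add, lam_eltPt, lam_eltPt, lam_eltPt]
    refine AddMonoidHom.ext fun a => ?_
    rw [AddMonoidHom.add_apply, dualComp_apply, dualComp_apply, dualComp_apply, ZDual.add_apply])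

@[simp] theorem lam_eltHom (θ : ZDual R m) (a : Additive Γ) :
    D.lam (eltHom D φb hpar θ) a = θ (φb a) := by
  show D.lam (eltPt D φb hpar θ) a = _
  rw [lam_eltPt, dualComp_apply]

variable (hS₀ : ∀ ℓ : ℕ, ℓ.Prime → ℓ ∉ S₀ → ¬ ℓ ∣ M * m)
  (hT : ∀ ℓ : ℕ, ℓ.Prime → ℓ ∉ S₀ → ∀ γ : Γ,
    ∑ i, φb (Additive.ofMul (D.cT ℓ γ i)) = b ℓ * φb (Additive.ofMul γ))
  (hd : ∀ (d : (ZMod M)ˣ) (γ : Γ),
    φb (Additive.ofMul (D.cd d γ)) = ((χ d : Rˣ) : R) * φb (Additive.ofMul γ))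

include hS₀ hT hd in
theorem eltHom_mem : eltHom D φb hpar ∈ WK D S₀ b χ := by
  refine ⟨fun _ => AddSubgroup.mem_top _, ?_⟩
  rintro (ℓ | d) θ
  · apply D.lam_inj
    refine AddMonoidHom.ext fun a => ?_
    obtain ⟨γ, rfl⟩ : ∃ γ : Γ, Additive.ofMul γ = a := ⟨Additive.toMul a, rfl⟩
    show D.lam (D.T ℓ.1 (eltHom D φb hpar θ)) _ = D.lam (eltHom D φb hpar (b ℓ.1 • θ)) _
    rw [D.lam_T ℓ.1 ℓ.2.1 (hS₀ ℓ.1 ℓ.2.1 ℓ.2.2), lam_eltHom, ZDual.smul_apply,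
      ← hT ℓ.1 ℓ.2.1 ℓ.2.2 γ, map_sum]
    exact Finset.sum_congr rfl fun i _ => lam_eltHom D φb hpar θ _
  · apply D.lam_inj
    refine AddMonoidHom.ext fun a => ?_
    obtain ⟨γ, rfl⟩ : ∃ γ : Γ, Additive.ofMul γ = a := ⟨Additive.toMul a, rfl⟩
    show D.lam (D.diam d (eltHom D φb hpar θ)) _ =
      D.lam (eltHom D φb hpar (((χ d : Rˣ) : R) • θ)) _
    rw [D.lam_diam, lam_eltHom, lam_eltHom, ZDual.smul_apply, hd]

/-- **the element of the `λ`-part attached to `φ̄`** -/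
def eigElt : WK D S₀ b χ := ⟨eltHom D φb hpar, eltHom_mem D S₀ b χ φb hpar hS₀ hT hd⟩

include hS₀ hT hd in
/-- **faithfulness**: if `φ̄` takes a unit value and the `ℤ/m`-dual separates the points of `R`, only
`0` kills `eigElt`. -/
theorem eq_zero_of_smul_eigElt (hsep : ∀ r : R, (∀ θ : ZDual R m, θ r = 0) → r = 0)
    {γ₀ : Γ} (hγ₀ : IsUnit (φb (Additive.ofMul γ₀))) (r : R)
    (hr : r • eigElt D S₀ b χ φb hpar hS₀ hT hd = 0) : r = 0 := by
  have h1 : ∀ θ : ZDual R m, θ (r * φb (Additive.ofMul γ₀)) = 0 := by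
    intro θ
    have h2 := congrArg (fun h : WK D S₀ b χ => (h : ZDual R m →+ D.V) θ) hr
    have h3 : eltHom D φb hpar (r • θ) = 0 := h2
    have h4 := congrArg (fun x => D.lam x (Additive.ofMul γ₀)) h3
    simp only [lam_eltHom, ZDual.smul_apply, map_zero, AddMonoidHom.zero_apply] at h4
    exact h4
  have h5 := hsep _ h1
  exact (hγ₀.mul_left_eq_zero).mp h5

end Elt

end Part

end Fermat.Agent.S43lib.LGC.D

end
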