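/-
S43lib / LGC / D / TransferLvl  (helper8)  — Project H, block LGC-D, brick (B) TRANSFER, part 2.

* `entry_smul_one_eq_zero_of_lift_eq_zero` : the ANNIHILATOR lemma through Boston–Lenstra–Ribet
  (helper6's `blr_monoidAlgebra`): `R` commutative, `2 ∈ Rˣ`, `ρ : G → M₂(R)` spanning `M₂(R)`, `W` an
  `R[G]`-module on which every `g` satisfies the characteristic polynomial of `ρ(g)`; if `x ∈ R[G]` kills
  `W`, every entry of the matrix `ρ(x)` kills `W`.
* `word_entries_eq_zero` : ONE FINITE LEVEL.  `D : KummerGalData Γ M m`, `R` with `2 ∈ Rˣ`,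
  `ρ̄ : G_ℚ → M₂(R)` of finite level spanning `M₂(R)` with Frobenius traces `b ℓ` and determinants
  `ℓ χ(ℓ)`, an eigen-homomorphism `φ̄ : Γ → R` (parabolic, one unit value; the `ℤ/m`-dual separates the
  points of `R`), and the three letter words `(t'' - 1)(t' - 1)(t - ⟨cyc t⟩)`,
  `(t'' - 1)(t - ⟨cyc t⟩)(t' - 1)` killing `Nm_H (D.V)` for `t, t', t''` in a set `I` (`χ = 1` on `H`).
  Then `|H| · (ρ̄ t'' - 1)(ρ̄ t' - 1)(ρ̄ t - χ(cyc t)) = 0` and the same with the last two factors swapped.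
-/
import Mathlib
import Fermat.Agent.S43lib.LGC.D.Transfer

set_option autoImplicit false
set_option linter.unusedSectionVars false
set_option linter.unusedVariables false
set_option linter.style.haveILetI false

noncomputable section

namespace Fermat.Agent.S43lib.LGC.D

open Matrix Fermat.Agent.S48lib.X1.Gal Fermat.Agent.S43lib.B0.EndBlock Fermat.Agent.S16lib.LG
open scoped MatrixGroups

local notation "Qb" => AlgebraicClosure ℚ
local notation "GQ" => (AlgebraicClosure ℚ ≃ₐ[ℚ] AlgebraicClosure ℚ)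

/-! ### the annihilator lemma -/

section Ann

variable {R : Type*} [CommRing R] {G : Type*} [Group G] {W : Type*} [AddCommGroup W] [Module R W]

/-- **the annihilator lemma**: if `x ∈ R[G]` kills `W`, every entry of `ρ(x)` kills `W`. -/
theorem entry_smul_one_eq_zero_of_lift_eq_zero (h2 : IsUnit (2 : R))
    (ρ : G →* Matrix (Fin 2) (Fin 2) R) (act : G →* Module.End R W)
    (hCH : ∀ g, act g * act g - (ρ g).trace • act g + (ρ g).det • (1 : Module.End R W) = 0)
    (hspan : Submodule.span R (Set.range ρ) = ⊤)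
    (z : MonoidAlgebra R G) (hz : MonoidAlgebra.lift R (Module.End R W) G act z = 0)
    (a b : Fin 2) :
    (MonoidAlgebra.lift R (Matrix (Fin 2) (Fin 2) R) G ρ z) a b • (1 : Module.End R W) = 0 := by
  classical
  obtain ⟨P, hPdef⟩ : ∃ P, P = MonoidAlgebra.lift R (Matrix (Fin 2) (Fin 2) R) G ρ := ⟨_, rfl⟩
  obtain ⟨Q, hQdef⟩ : ∃ Q, Q = MonoidAlgebra.lift R (Module.End R W) G act := ⟨_, rfl⟩
  have hblr : ∀ x, P x = 0 → Q x = 0 := by
    rw [hPdef, hQdef]
    exact blr_monoidAlgebra h2 ρ act hCH hspan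
  have hPs : ∀ g c, P (MonoidAlgebra.single g c) = c • ρ g := by
    intro g c
    rw [hPdef, MonoidAlgebra.lift_single]
  have hQs : ∀ g c, Q (MonoidAlgebra.single g c) = c • act g := by
    intro g c
    rw [hQdef, MonoidAlgebra.lift_single]
  rw [← hPdef]
  rw [← hQdef] at hz
  have hsurj : Function.Surjective P := by
    intro M
    have hM : M ∈ Submodule.span R (Set.range ρ) := by rw [hspan]; trivial
    induction hM using Submodule.span_induction with
    | mem x hx =>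
      obtain ⟨g, rfl⟩ := hx
      exact ⟨MonoidAlgebra.single g 1, by rw [hPs, one_smul]⟩
    | zero => exact ⟨0, map_zero _⟩
    | add x y _ _ hx hy =>
      obtain ⟨a, rfl⟩ := hx
      obtain ⟨b, rfl⟩ := hy
      exact ⟨a + b, map_add _ _ _⟩
    | smul c x _ hx =>
      obtain ⟨a, rfl⟩ := hx
      exact ⟨c • a, map_smul _ _ _⟩
  obtain ⟨Z, hZ⟩ : ∃ Z : Matrix (Fin 2) (Fin 2) R, Z = P z := ⟨_, rfl⟩
  rw [← hZ]
  choose x hx using fun i j : Fin 2 => hsurj (Matrix.single i j (1 : R))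
  obtain ⟨y, hy⟩ : ∃ y : MonoidAlgebra R G,
      y = (∑ i : Fin 2, x i a * z * x b i) - MonoidAlgebra.single 1 (Z a b) := ⟨_, rfl⟩
  have hPy : P y = 0 := by
    rw [hy, map_sub, map_sum, hPs, map_one]
    simp only [map_mul, hx, ← hZ]
    rw [sub_eq_zero]
    ext i j
    rw [Matrix.sum_apply, Matrix.smul_apply, Matrix.one_apply, Fin.sum_univ_two]
    fin_cases i <;> fin_cases j <;>
      simp [Matrix.single, Matrix.mul_apply]
  have hQy := hblr y hPy
  rw [hy, map_sub, map_sum, hQs, map_one] at hQy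
  have h2' : ∀ i : Fin 2, Q (x i a * z * x b i) = 0 := by
    intro i
    rw [map_mul, map_mul, hz, mul_zero, zero_mul]
  rw [Finset.sum_eq_zero (fun i _ => h2' i), zero_sub, neg_eq_zero] at hQy
  exact hQy

end Ann

/-! ### one finite level -/

section Level

variable {Γ : Subgroup SL(2, ℤ)} {M m : ℕ} (D : KummerGalData Γ M m)
variable {R : Type} [CommRing R] (S₀ : Finset ℕ) (b : ℕ → R) (χ : (ZMod M)ˣ →* Rˣ)

/-- the first three letter word in a ring: `(x'' - 1)(x' - 1)(x - c)` -/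
def wordA {E : Type*} [Ring E] (x'' x' x c : E) : E := (x'' - 1) * ((x' - 1) * (x - c))

/-- the second three letter word: `(x'' - 1)(x - c)(x' - 1)` -/
def wordB {E : Type*} [Ring E] (x'' x' x c : E) : E := (x'' - 1) * ((x - c) * (x' - 1))

/-- the element of `R[G]` lifting `wordA` -/
def wordAlgA {G : Type*} [Group G] (t'' t' t : G) (c : R) : MonoidAlgebra R G :=
  wordA (MonoidAlgebra.single t'' 1) (MonoidAlgebra.single t' 1) (MonoidAlgebra.single t 1)
    (MonoidAlgebra.single 1 c)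

/-- the element of `R[G]` lifting `wordB` -/
def wordAlgB {G : Type*} [Group G] (t'' t' t : G) (c : R) : MonoidAlgebra R G :=
  wordB (MonoidAlgebra.single t'' 1) (MonoidAlgebra.single t' 1) (MonoidAlgebra.single t 1)
    (MonoidAlgebra.single 1 c)

theorem lift_wordAlgA {G : Type*} [Group G] {E : Type*} [Ring E] [Algebra R E] (f : G →* E)
    (t'' t' t : G) (c : R) :
    MonoidAlgebra.lift R E G f (wordAlgA t'' t' t c) = wordA (f t'') (f t') (f t) (c • (1 : E)) := by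
  unfold wordAlgA wordA
  simp only [map_mul, map_sub, map_one, MonoidAlgebra.lift_single, one_smul]

theorem lift_wordAlgB {G : Type*} [Group G] {E : Type*} [Ring E] [Algebra R E] (f : G →* E)
    (t'' t' t : G) (c : R) :
    MonoidAlgebra.lift R E G f (wordAlgB t'' t' t c) = wordB (f t'') (f t') (f t) (c • (1 : E)) := by
  unfold wordAlgB wordB
  simp only [map_mul, map_sub, map_one, MonoidAlgebra.lift_single, one_smul]

variable (I : Set GQ) (cyc : GQ → (ZMod M)ˣ) (H : Finset (ZMod M)ˣ)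

/-- the hypothesis on `D.V`: the two words kill `Nm_H y` -/
def WordsV : Prop :=
  ∀ t ∈ I, ∀ t' ∈ I, ∀ t'' ∈ I, ∀ y : D.V,
    wordA (D.ρ t'') (D.ρ t') (D.ρ t) (D.diam (cyc t)) (∑ h ∈ H, D.diam h y) = 0 ∧
    wordB (D.ρ t'') (D.ρ t') (D.ρ t) (D.diam (cyc t)) (∑ h ∈ H, D.diam h y) = 0

variable {D S₀ b χ I cyc H}

/-- `(act t - χ(c)) h` evaluated at `θ` -/
theorem actK_sub_smul_apply (t : GQ) (d : (ZMod M)ˣ) (h : WK D S₀ b χ) (θ : ZDual R m) :
    (((actK D S₀ b χ t - ((χ d : Rˣ) : R) • (1 : Module.End R (WK D S₀ b χ))) h :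
      WK D S₀ b χ) : ZDual R m →+ D.V) θ =
      (D.ρ t - D.diam d) ((h : ZDual R m →+ D.V) θ) := by
  rw [LinearMap.sub_apply, LinearMap.smul_apply, Module.End.one_apply, LinearMap.sub_apply,
    WK_diam]
  rfl

theorem actK_sub_one_apply (t : GQ) (h : WK D S₀ b χ) (θ : ZDual R m) :
    (((actK D S₀ b χ t - 1) h : WK D S₀ b χ) : ZDual R m →+ D.V) θ =
      (D.ρ t - 1) ((h : ZDual R m →+ D.V) θ) := by
  rw [LinearMap.sub_apply, Module.End.one_apply, LinearMap.sub_apply, Module.End.one_apply]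
  rfl

/-- the norm acts on the `λ`-part by `|H|` -/
theorem card_smul_apply (hH : ∀ h ∈ H, χ h = 1) (h : WK D S₀ b χ) (θ : ZDual R m) :
    (((H.card : R) • h : WK D S₀ b χ) : ZDual R m →+ D.V) θ =
      ∑ h' ∈ H, D.diam h' ((h : ZDual R m →+ D.V) θ) := by
  rw [eigHom_smul_apply, hom_natCast_smul, ← Finset.sum_const, ]
  refine Finset.sum_congr rfl fun h' hh' => ?_
  rw [WK_diam, hH h' hh', Units.val_one, one_smul]

/-- the words on the `λ`-part -/
theorem words_actK (hw : WordsV D I cyc H) (hH : ∀ h ∈ H, χ h = 1)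
    {t t' t'' : GQ} (ht : t ∈ I) (ht' : t' ∈ I) (ht'' : t'' ∈ I) :
    (H.card : R) • wordA (actK D S₀ b χ t'') (actK D S₀ b χ t') (actK D S₀ b χ t)
      (((χ (cyc t) : Rˣ) : R) • (1 : Module.End R (WK D S₀ b χ))) = 0 ∧
    (H.card : R) • wordB (actK D S₀ b χ t'') (actK D S₀ b χ t') (actK D S₀ b χ t)
      (((χ (cyc t) : Rˣ) : R) • (1 : Module.End R (WK D S₀ b χ))) = 0 := by
  constructor
  · apply LinearMap.ext
    intro h
    apply eigHom_ext
    intro θ
    have key := (hw t ht t' ht' t'' ht'' ((h : ZDual R m →+ D.V) θ)).1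
    rw [LinearMap.smul_apply, ← map_smul]
    unfold wordA at key ⊢
    rw [Module.End.mul_apply, Module.End.mul_apply, actK_sub_one_apply, actK_sub_one_apply,
      actK_sub_smul_apply, card_smul_apply hH]
    exact key
  · apply LinearMap.ext
    intro h
    apply eigHom_ext
    intro θ
    have key := (hw t ht t' ht' t'' ht'' ((h : ZDual R m →+ D.V) θ)).2
    rw [LinearMap.smul_apply, ← map_smul]
    unfold wordB at key ⊢
    rw [Module.End.mul_apply, Module.End.mul_apply, actK_sub_one_apply, actK_sub_smul_apply,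
      actK_sub_one_apply, card_smul_apply hH]
    exact key

/-! ### the conclusion at one level -/

section LevelMain

variable (h2 : IsUnit (2 : R)) (ρb : GQ →* Matrix (Fin 2) (Fin 2) R)
  (hfl : GaloisFactorsThroughFiniteLevel ρb)
  (hspan : Submodule.span R (Set.range ρb) = ⊤)
  (hS₀ : ∀ ℓ : ℕ, ℓ.Prime → ℓ ∉ S₀ → ¬ ℓ ∣ M * m)
  (hfrob : ∀ ℓ : ℕ, ℓ.Prime → ℓ ∉ S₀ → ∀ A : ValuationSubring Qb, A.LiesOverPrime ℓ →
    ∀ φ : GQ, A.IsFrobeniusAt φ ℓ → ∃ d : (ZMod M)ˣ, (d : ZMod M) = (ℓ : ZMod M) ∧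
      (ρb φ).trace = b ℓ ∧ (ρb φ).det = (ℓ : R) * ((χ d : Rˣ) : R))
  (φb : Additive Γ →+ R)
  (hpar : ∀ γ : Γ, IsParTor (γ : SL(2, ℤ)) → φb (Additive.ofMul γ) = 0)
  (hT : ∀ ℓ : ℕ, ℓ.Prime → ℓ ∉ S₀ → ∀ γ : Γ,
    ∑ i, φb (Additive.ofMul (D.cT ℓ γ i)) = b ℓ * φb (Additive.ofMul γ))
  (hd : ∀ (d : (ZMod M)ˣ) (γ : Γ),
    φb (Additive.ofMul (D.cd d γ)) = ((χ d : Rˣ) : R) * φb (Additive.ofMul γ))
  (hsep : ∀ r : R, (∀ θ : ZDual R m, θ r = 0) → r = 0)
  {γ₀ : Γ} (hγ₀ : IsUnit (φb (Additive.ofMul γ₀)))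
  (hw : WordsV D I cyc H) (hH : ∀ h ∈ H, χ h = 1)

include h2 hfl hspan hS₀ hfrob hpar hT hd hsep hγ₀ in
/-- an element of `R[G_ℚ]` killing the `λ`-part has matrix `0` -/
theorem lift_rho_eq_zero_of_lift_act_eq_zero (z : MonoidAlgebra R GQ)
    (hz : MonoidAlgebra.lift R (Module.End R (WK D S₀ b χ)) GQ (actK D S₀ b χ) z = 0) :
    MonoidAlgebra.lift R (Matrix (Fin 2) (Fin 2) R) GQ ρb z = 0 := by
  ext i j
  have h1 := entry_smul_one_eq_zero_of_lift_eq_zero h2 ρb (actK D S₀ b χ)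
    (actK_CH D S₀ b χ ρb hfl hS₀ hfrob) hspan z hz i j
  have h3 := LinearMap.congr_fun h1 (eigElt D S₀ b χ φb hpar hS₀ hT hd)
  rw [LinearMap.smul_apply, Module.End.one_apply, LinearMap.zero_apply] at h3
  rw [Matrix.zero_apply]
  exact eq_zero_of_smul_eigElt D S₀ b χ φb hpar hS₀ hT hd hsep hγ₀ _ h3

include h2 hfl hspan hS₀ hfrob hpar hT hd hsep hγ₀ hw hH in
/-- **the words at one finite level** -/
theorem words_rho_level {t t' t'' : GQ} (ht : t ∈ I) (ht' : t' ∈ I) (ht'' : t'' ∈ I) :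
    (H.card : R) • wordA (ρb t'') (ρb t') (ρb t)
      (((χ (cyc t) : Rˣ) : R) • (1 : Matrix (Fin 2) (Fin 2) R)) = 0 ∧
    (H.card : R) • wordB (ρb t'') (ρb t') (ρb t)
      (((χ (cyc t) : Rˣ) : R) • (1 : Matrix (Fin 2) (Fin 2) R)) = 0 := by
  obtain ⟨hA, hB⟩ := words_actK (S₀ := S₀) (b := b) hw hH ht ht' ht''
  constructor
  · have h1 := lift_rho_eq_zero_of_lift_act_eq_zero h2 ρb hfl hspan hS₀ hfrob φb hpar hT hd hsep hγ₀
      ((H.card : R) • wordAlgA t'' t' t ((χ (cyc t) : Rˣ) : R))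
      (by rw [map_smul, lift_wordAlgA]; exact hA)
    rw [map_smul, lift_wordAlgA] at h1
    exact h1
  · have h1 := lift_rho_eq_zero_of_lift_act_eq_zero h2 ρb hfl hspan hS₀ hfrob φb hpar hT hd hsep hγ₀
      ((H.card : R) • wordAlgB t'' t' t ((χ (cyc t) : Rˣ) : R))
      (by rw [map_smul, lift_wordAlgB]; exact hB)
    rw [map_smul, lift_wordAlgB] at h1
    exact h1

end LevelMain

end Level

end Fermat.Agent.S43lib.LGC.D

end
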