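/-
S43lib / LGC / D / TransferLim  (helper8)  — Project H, block LGC-D, brick (B) TRANSFER, part 3.

**TRANSFER.**  `𝒪` a domain of characteristic zero, `p` a prime with `⋂ p^k 𝒪 = 0`, `2 ∈ 𝒪ˣ`.
`D k : KummerGalData Γ M (p^k)` for all `k` (the abstract packages of `J₁(M)[p^k]`), a homomorphism
`φ' : Γ → 𝒪`, parabolic, with one unit value, eigen for the Hecke and diamond cocycles of every `D k` with
eigenvalues `b ℓ` (`ℓ ∉ S₀`), `χ d`; `ρ' : G_ℚ → M₂(𝒪)`, `p`-adically continuous, spanning `M₂(𝒪)`, with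
`tr ρ'(Frob_ℓ) = b ℓ`, `det ρ'(Frob_ℓ) = ℓ χ(ℓ)` (`ℓ ∉ S₀`).  If for `t, t', t''` in a set `I` the words
`(t'' - 1)(t' - 1)(t - ⟨cyc t⟩)`, `(t'' - 1)(t - ⟨cyc t⟩)(t' - 1)` kill `Nm_H ((D k).V)` for every `k`
(`H` a nonempty finite set of diamonds on which `χ = 1`), then in `M₂(𝒪)`
`(ρ't'' - 1)(ρ't' - 1)(ρ't - χ(cyc t)) = 0 = (ρ't'' - 1)(ρ't - χ(cyc t))(ρ't' - 1)`.
-/
import Mathlib
import Fermat.Agent.S43lib.LGC.D.TransferLvl
import Fermat.Agent.S43lib.B0.End.Sep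

set_option autoImplicit false
set_option linter.unusedSectionVars false
set_option linter.unusedVariables false
set_option linter.style.haveILetI false

noncomputable section

namespace Fermat.Agent.S43lib.LGC.D

open Matrix Fermat.Agent.S48lib.X1.Gal Fermat.Agent.S43lib.B0.EndBlock Fermat.Agent.S16lib.LG
open scoped MatrixGroups

local notation "Qb" => AlgebraicClosure ℚ
local notation "GQ" => (AlgebraicClosure ℚ ≃ₐ[ℚ] AlgebraicClosure ℚ)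

/-! ### reduction modulo `p^k` -/

section Red

variable (𝒪 : Type) [CommRing 𝒪] (p k : ℕ)

/-- `𝒪 / p^k` -/
abbrev RK : Type := 𝒪 ⧸ Ideal.span {((p : 𝒪)) ^ k}

/-- the reduction map -/
abbrev redK : 𝒪 →+* RK 𝒪 p k := Ideal.Quotient.mk _

variable {𝒪 p k}

theorem redK_eq_zero_iff (x : 𝒪) : redK 𝒪 p k x = 0 ↔ (p : 𝒪) ^ k ∣ x := by
  rw [Ideal.Quotient.eq_zero_iff_mem, Ideal.mem_span_singleton]

theorem natCast_pow_RK : ((p ^ k : ℕ) : RK 𝒪 p k) = 0 := by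
  have h : ((p ^ k : ℕ) : RK 𝒪 p k) = redK 𝒪 p k ((p : 𝒪) ^ k) := by
    push_cast
    rfl
  rw [h, redK_eq_zero_iff]

/-- the `ℤ/p^k`-dual separates the points of `𝒪/p^k` -/
theorem zdual_sep (hp : 0 < p) (r : RK 𝒪 p k) (hr : ∀ θ : ZDual (RK 𝒪 p k) (p ^ k), θ r = 0) :
    r = 0 := by
  by_contra hne
  obtain ⟨f, hf⟩ := exists_hom_zmod_apply_ne_zero (G := RK 𝒪 p k) (p ^ k) (pow_pos hp k)
    (fun y => by rw [← Nat.cast_smul_eq_nsmul (RK 𝒪 p k), natCast_pow_RK, zero_smul]) hne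
  exact hf (hr f)

/-- the reduction of a matrix valued homomorphism -/
def redRho {G : Type*} [Monoid G] (ρ' : G →* Matrix (Fin 2) (Fin 2) 𝒪) (p k : ℕ) :
    G →* Matrix (Fin 2) (Fin 2) (RK 𝒪 p k) :=
  (RingHom.toMonoidHom ((redK 𝒪 p k).mapMatrix (m := Fin 2))).comp ρ'

theorem redRho_apply {G : Type*} [Monoid G] (ρ' : G →* Matrix (Fin 2) (Fin 2) 𝒪) (g : G) :
    redRho ρ' p k g = (redK 𝒪 p k).mapMatrix (ρ' g) := rfl

theorem redRho_trace {G : Type*} [Monoid G] (ρ' : G →* Matrix (Fin 2) (Fin 2) 𝒪) (g : G) :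
    (redRho ρ' p k g).trace = redK 𝒪 p k (ρ' g).trace := by
  rw [redRho_apply, Matrix.trace_fin_two, Matrix.trace_fin_two, map_add]
  rfl

theorem redRho_det {G : Type*} [Monoid G] (ρ' : G →* Matrix (Fin 2) (Fin 2) 𝒪) (g : G) :
    (redRho ρ' p k g).det = redK 𝒪 p k (ρ' g).det := by
  rw [redRho_apply, ← RingHom.map_det]

theorem span_redRho {G : Type*} [Monoid G] (ρ' : G →* Matrix (Fin 2) (Fin 2) 𝒪)
    (hspan : Submodule.span 𝒪 (Set.range ρ') = ⊤) :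
    Submodule.span (RK 𝒪 p k) (Set.range (redRho ρ' p k)) = ⊤ := by
  rw [eq_top_iff]
  intro X _
  -- lift `X`
  have hsurj : Function.Surjective (redK 𝒪 p k) := Ideal.Quotient.mk_surjective
  choose f hf using fun i j : Fin 2 => hsurj (X i j)
  have hX : X = (redK 𝒪 p k).mapMatrix (Matrix.of f) := by
    ext i j
    rw [RingHom.mapMatrix_apply, Matrix.map_apply, Matrix.of_apply, hf]
  rw [hX]
  obtain ⟨Y, hY⟩ : ∃ Y : Matrix (Fin 2) (Fin 2) 𝒪, Y = Matrix.of f := ⟨_, rfl⟩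
  rw [← hY]
  have hmem : Y ∈ Submodule.span 𝒪 (Set.range ρ') := by rw [hspan]; trivial
  clear hY hX
  induction hmem using Submodule.span_induction with
  | mem x hx =>
    obtain ⟨g, rfl⟩ := hx
    exact Submodule.subset_span ⟨g, rfl⟩
  | zero => rw [map_zero]; exact Submodule.zero_mem _
  | add x y _ _ hx hy => rw [map_add]; exact Submodule.add_mem _ hx hy
  | smul c x _ hx =>
    have : (redK 𝒪 p k).mapMatrix (c • x) = redK 𝒪 p k c • (redK 𝒪 p k).mapMatrix x := by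
      ext i j
      simp [RingHom.mapMatrix_apply, Matrix.map_apply, Matrix.smul_apply]
    rw [this]
    exact Submodule.smul_mem _ _ hx

end Red

/-! ### TRANSFER -/

section Main

variable {𝒪 : Type} [CommRing 𝒪] [IsDomain 𝒪] [CharZero 𝒪] {p : ℕ} (hp : p.Prime)
  (hsep𝒪 : ∀ x : 𝒪, (∀ k : ℕ, (p : 𝒪) ^ k ∣ x) → x = 0) (h2 : IsUnit (2 : 𝒪))
variable {Γ : Subgroup SL(2, ℤ)} {M : ℕ} (D : ∀ k : ℕ, KummerGalData Γ M (p ^ k))
variable (S₀ : Finset ℕ) (hS₀ : ∀ ℓ : ℕ, ℓ.Prime → ℓ ∉ S₀ → ¬ ℓ ∣ M ∧ ℓ ≠ p)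
  (b : ℕ → 𝒪) (χ : (ZMod M)ˣ →* 𝒪ˣ)
variable (ρ' : GQ →* Matrix (Fin 2) (Fin 2) 𝒪)
  (hcont : ∀ k : ℕ, ∃ L : IntermediateField ℚ Qb, FiniteDimensional ℚ L ∧
    ∀ σ : GQ, (∀ x ∈ L, σ x = x) → ∀ i j, (p : 𝒪) ^ k ∣ (ρ' σ - 1) i j)
  (hspan : Submodule.span 𝒪 (Set.range ρ') = ⊤)
  (hfrob : ∀ ℓ : ℕ, ℓ.Prime → ℓ ∉ S₀ → ∀ A : ValuationSubring Qb, A.LiesOverPrime ℓ →
    ∀ φ : GQ, A.IsFrobeniusAt φ ℓ → ∃ d : (ZMod M)ˣ, (d : ZMod M) = (ℓ : ZMod M) ∧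
      (ρ' φ).trace = b ℓ ∧ (ρ' φ).det = (ℓ : 𝒪) * ((χ d : 𝒪ˣ) : 𝒪))
variable (φ' : Additive Γ →+ 𝒪)
  (hpar : ∀ γ : Γ, IsParTor (γ : SL(2, ℤ)) → φ' (Additive.ofMul γ) = 0)
  (hT : ∀ k : ℕ, ∀ ℓ : ℕ, ℓ.Prime → ℓ ∉ S₀ → ∀ γ : Γ,
    ∑ i, φ' (Additive.ofMul ((D k).cT ℓ γ i)) = b ℓ * φ' (Additive.ofMul γ))
  (hd : ∀ k : ℕ, ∀ (d : (ZMod M)ˣ) (γ : Γ),
    φ' (Additive.ofMul ((D k).cd d γ)) = ((χ d : 𝒪ˣ) : 𝒪) * φ' (Additive.ofMul γ))
  {γ₀ : Γ} (hγ₀ : IsUnit (φ' (Additive.ofMul γ₀)))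
variable (I : Set GQ) (cyc : GQ → (ZMod M)ˣ) (H : Finset (ZMod M)ˣ) (hHne : H.Nonempty)
  (hH : ∀ h ∈ H, χ h = 1) (hw : ∀ k : ℕ, WordsV (D k) I cyc H)

include hp hsep𝒪 h2 hS₀ hcont hspan hfrob hpar hT hd hγ₀ hHne hH hw in
/-- **TRANSFER**: the three letter words for `ρ'`. -/
theorem transfer_words {t t' t'' : GQ} (ht : t ∈ I) (ht' : t' ∈ I) (ht'' : t'' ∈ I) :
    wordA (ρ' t'') (ρ' t') (ρ' t) (((χ (cyc t) : 𝒪ˣ) : 𝒪) • (1 : Matrix (Fin 2) (Fin 2) 𝒪)) = 0 ∧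
    wordB (ρ' t'') (ρ' t') (ρ' t) (((χ (cyc t) : 𝒪ˣ) : 𝒪) • (1 : Matrix (Fin 2) (Fin 2) 𝒪)) = 0 := by
  -- the level `k` statement
  have key : ∀ k : ℕ,
      (redK 𝒪 p k).mapMatrix ((H.card : 𝒪) • wordA (ρ' t'') (ρ' t') (ρ' t)
        (((χ (cyc t) : 𝒪ˣ) : 𝒪) • (1 : Matrix (Fin 2) (Fin 2) 𝒪))) = 0 ∧
      (redK 𝒪 p k).mapMatrix ((H.card : 𝒪) • wordB (ρ' t'') (ρ' t') (ρ' t)
        (((χ (cyc t) : 𝒪ˣ) : 𝒪) • (1 : Matrix (Fin 2) (Fin 2) 𝒪))) = 0 := by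
    intro k
    set R := RK 𝒪 p k with hR
    set χk : (ZMod M)ˣ →* Rˣ := (Units.map (redK 𝒪 p k : 𝒪 →* R)).comp χ with hχk
    have hχk_val : ∀ d, ((χk d : Rˣ) : R) = redK 𝒪 p k ((χ d : 𝒪ˣ) : 𝒪) := fun d => rfl
    set bk : ℕ → R := fun ℓ => redK 𝒪 p k (b ℓ) with hbk
    set φk : Additive Γ →+ R := ((redK 𝒪 p k : 𝒪 →+* R) : 𝒪 →+ R).comp φ' with hφk
    have hφk_val : ∀ a, φk a = redK 𝒪 p k (φ' a) := fun a => rfl
    have h2k : IsUnit (2 : R) := by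
      have := h2.map (redK 𝒪 p k)
      rwa [map_ofNat] at this
    have hflk : GaloisFactorsThroughFiniteLevel (redRho ρ' p k) := by
      obtain ⟨L, hL, hLfix⟩ := hcont k
      refine ⟨L, hL, fun σ hσ => ?_⟩
      ext i j
      have h1 := hLfix σ hσ i j
      rw [redRho_apply, RingHom.mapMatrix_apply, Matrix.map_apply]
      have h3 : redK 𝒪 p k ((ρ' σ - 1) i j) = 0 := (redK_eq_zero_iff _).mpr h1
      rw [Matrix.sub_apply, map_sub, sub_eq_zero] at h3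
      rw [h3]
      by_cases hij : i = j
      · subst hij; simp
      · simp [Matrix.one_apply_ne hij]
    have hS₀k : ∀ ℓ : ℕ, ℓ.Prime → ℓ ∉ S₀ → ¬ ℓ ∣ M * p ^ k := by
      intro ℓ hℓ hℓS hdvd
      obtain ⟨h1, h3⟩ := hS₀ ℓ hℓ hℓS
      rcases (Nat.Prime.dvd_mul hℓ).mp hdvd with h | h
      · exact h1 h
      · exact h3 ((Nat.prime_dvd_prime_iff_eq hℓ hp).mp (hℓ.dvd_of_dvd_pow h))
    have hfrobk : ∀ ℓ : ℕ, ℓ.Prime → ℓ ∉ S₀ → ∀ A : ValuationSubring Qb, A.LiesOverPrime ℓ →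
        ∀ φ : GQ, A.IsFrobeniusAt φ ℓ → ∃ d : (ZMod M)ˣ, (d : ZMod M) = (ℓ : ZMod M) ∧
          (redRho ρ' p k φ).trace = bk ℓ ∧
          (redRho ρ' p k φ).det = (ℓ : R) * ((χk d : Rˣ) : R) := by
      intro ℓ hℓ hℓS A hA φ hφ
      obtain ⟨d, hdℓ, htr, hdet⟩ := hfrob ℓ hℓ hℓS A hA φ hφ
      refine ⟨d, hdℓ, ?_, ?_⟩
      · rw [redRho_trace, htr]
      · rw [redRho_det, hdet, map_mul, map_natCast, hχk_val]
    have hpark : ∀ γ : Γ, IsParTor (γ : SL(2, ℤ)) → φk (Additive.ofMul γ) = 0 := by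
      intro γ hγ
      rw [hφk_val, hpar γ hγ, map_zero]
    have hTk : ∀ ℓ : ℕ, ℓ.Prime → ℓ ∉ S₀ → ∀ γ : Γ,
        ∑ i, φk (Additive.ofMul ((D k).cT ℓ γ i)) = bk ℓ * φk (Additive.ofMul γ) := by
      intro ℓ hℓ hℓS γ
      simp only [hφk_val]
      rw [← map_sum, hT k ℓ hℓ hℓS γ, map_mul]
    have hdk : ∀ (d : (ZMod M)ˣ) (γ : Γ),
        φk (Additive.ofMul ((D k).cd d γ)) = ((χk d : Rˣ) : R) * φk (Additive.ofMul γ) := by
      intro d γ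
      rw [hφk_val, hd k d γ, map_mul, hχk_val, hφk_val]
    have hγk : IsUnit (φk (Additive.ofMul γ₀)) := hγ₀.map (redK 𝒪 p k)
    have hHk : ∀ h ∈ H, χk h = 1 := by
      intro h hh
      rw [hχk, MonoidHom.comp_apply, hH h hh, map_one]
    obtain ⟨hA, hB⟩ := words_rho_level (D := D k) (S₀ := S₀) (b := bk) (χ := χk) (I := I)
      (cyc := cyc) (H := H) h2k (redRho ρ' p k) hflk (span_redRho ρ' hspan) hS₀k hfrobk φk hpark
      hTk hdk (zdual_sep hp.pos) hγk (hw k) hHk ht ht' ht''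
    have hone : (redK 𝒪 p k).mapMatrix (1 : Matrix (Fin 2) (Fin 2) 𝒪) = 1 := map_one _
    have hsm : ∀ (c : 𝒪) (X : Matrix (Fin 2) (Fin 2) 𝒪),
        (redK 𝒪 p k).mapMatrix (c • X) = redK 𝒪 p k c • (redK 𝒪 p k).mapMatrix X := by
      intro c X
      ext i j
      simp [RingHom.mapMatrix_apply, Matrix.map_apply, Matrix.smul_apply]
    constructor
    · rw [hsm, map_natCast]
      unfold wordA at hA ⊢
      simp only [map_mul, map_sub, hone, hsm]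
      simp only [redRho_apply, hχk_val] at hA
      exact hA
    · rw [hsm, map_natCast]
      unfold wordB at hB ⊢
      simp only [map_mul, map_sub, hone, hsm]
      simp only [redRho_apply, hχk_val] at hB
      exact hB
  -- pass to the limit
  have hcard : (H.card : 𝒪) ≠ 0 := Nat.cast_ne_zero.mpr (Finset.card_ne_zero.mpr hHne)
  have hzero : ∀ X : Matrix (Fin 2) (Fin 2) 𝒪,
      (∀ k : ℕ, (redK 𝒪 p k).mapMatrix ((H.card : 𝒪) • X) = 0) → X = 0 := by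
    intro X hX
    ext i j
    have h1 : ∀ k : ℕ, (p : 𝒪) ^ k ∣ (H.card : 𝒪) * X i j := by
      intro k
      have := congrFun (congrFun (hX k) i) j
      rw [RingHom.mapMatrix_apply, Matrix.map_apply, Matrix.smul_apply, smul_eq_mul,
        Matrix.zero_apply] at this
      exact (redK_eq_zero_iff _).mp this
    have h3 := hsep𝒪 _ h1
    rw [Matrix.zero_apply]
    exact (mul_eq_zero.mp h3).resolve_left hcard
  exact ⟨hzero _ fun k => (key k).1, hzero _ fun k => (key k).2⟩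

end Main

end Fermat.Agent.S43lib.LGC.D

end
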