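/-
S43lib / LGC / D / Twist  (helper8)

The matrix representation `ρ' = η ⊗ ρ` (`σ ↦ η(σ) • [ρ(σ)]_b`) of an adic Galois representation `ρ` of
rank `2` twisted by a character `η : G_ℚ → 𝒪ˣ`: trace, determinant, span, `p`-adic continuity — the
shape consumed by `transfer_words`.
-/
import Mathlib
import Fermat.Agent.TeamA.MatRep

set_option autoImplicit false
set_option linter.unusedSectionVars false
set_option linter.style.haveILetI false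

noncomputable section

namespace Fermat.Agent.S43lib.LGC.D

open Matrix Fermat.Agent.TeamA.Rep IsLocalRing

local notation "Qb" => AlgebraicClosure ℚ
local notation "GQ" => (AlgebraicClosure ℚ ≃ₐ[ℚ] AlgebraicClosure ℚ)

section Twist

variable {𝒪 : Type} [CommRing 𝒪] [IsLocalRing 𝒪]

/-- the twisted matrix representation `σ ↦ η(σ) • [ρ(σ)]_b` -/
def twistRep (ρ : GaloisRepAdic 𝒪) (b : Module.Basis (Fin 2) 𝒪 ρ.V) (η : GQ →* 𝒪ˣ) :
    GQ →* Matrix (Fin 2) (Fin 2) 𝒪 where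
  toFun σ := ((η σ : 𝒪ˣ) : 𝒪) • matOf ρ b σ
  map_one' := by rw [map_one, Units.val_one, one_smul, matOf_one]
  map_mul' σ τ := by
    rw [map_mul, Units.val_mul, matOf_mul, Matrix.smul_mul, Matrix.mul_smul, smul_smul]

theorem twistRep_apply (ρ : GaloisRepAdic 𝒪) (b : Module.Basis (Fin 2) 𝒪 ρ.V) (η : GQ →* 𝒪ˣ)
    (σ : GQ) : twistRep ρ b η σ = ((η σ : 𝒪ˣ) : 𝒪) • matOf ρ b σ := rfl

theorem matOf_trace (ρ : GaloisRepAdic 𝒪) (b : Module.Basis (Fin 2) 𝒪 ρ.V) (σ : GQ) :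
    (matOf ρ b σ).trace = ρ.trace σ := by
  unfold matOf GaloisRepAdic.trace
  rw [LinearMap.trace_eq_matrix_trace 𝒪 b]

theorem matOf_det (ρ : GaloisRepAdic 𝒪) (b : Module.Basis (Fin 2) 𝒪 ρ.V) (σ : GQ) :
    (matOf ρ b σ).det = LinearMap.det (ρ.ρ σ) := by
  unfold matOf
  rw [LinearMap.det_toMatrix]

theorem twistRep_trace (ρ : GaloisRepAdic 𝒪) (b : Module.Basis (Fin 2) 𝒪 ρ.V) (η : GQ →* 𝒪ˣ)
    (σ : GQ) : (twistRep ρ b η σ).trace = ((η σ : 𝒪ˣ) : 𝒪) * ρ.trace σ := by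
  rw [twistRep_apply, Matrix.trace_smul, matOf_trace, smul_eq_mul]

theorem twistRep_det (ρ : GaloisRepAdic 𝒪) (b : Module.Basis (Fin 2) 𝒪 ρ.V) (η : GQ →* 𝒪ˣ)
    (σ : GQ) : (twistRep ρ b η σ).det =
      ((η σ : 𝒪ˣ) : 𝒪) * ((η σ : 𝒪ˣ) : 𝒪) * LinearMap.det (ρ.ρ σ) := by
  rw [twistRep_apply, Matrix.det_smul, matOf_det, Fintype.card_fin, pow_two]

/-- the span of the twisted matrices is everything if the span of `ρ` is -/
theorem span_twistRep (ρ : GaloisRepAdic 𝒪) (b : Module.Basis (Fin 2) 𝒪 ρ.V) (η : GQ →* 𝒪ˣ)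
    (hspan : Submodule.span 𝒪 (Set.range ρ.ρ) = ⊤) :
    Submodule.span 𝒪 (Set.range (twistRep ρ b η)) = ⊤ := by
  -- first the untwisted matrices
  have h1 : Submodule.span 𝒪 (Set.range (matOf ρ b)) = ⊤ := by
    have hmap : Submodule.map (LinearMap.toMatrix b b : Module.End 𝒪 ρ.V ≃ₗ[𝒪] _).toLinearMap
        (Submodule.span 𝒪 (Set.range ρ.ρ)) = Submodule.span 𝒪 (Set.range (matOf ρ b)) := by
      rw [Submodule.map_span]
      congr 1
      ext X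
      constructor
      · rintro ⟨_, ⟨σ, rfl⟩, rfl⟩
        exact ⟨σ, rfl⟩
      · rintro ⟨σ, rfl⟩
        exact ⟨_, ⟨σ, rfl⟩, rfl⟩
    rw [← hmap, hspan, Submodule.map_top, LinearMap.range_eq_top]
    exact (LinearMap.toMatrix b b).surjective
  rw [eq_top_iff, ← h1, Submodule.span_le]
  rintro _ ⟨σ, rfl⟩
  have h2 : matOf ρ b σ = (((η σ)⁻¹ : 𝒪ˣ) : 𝒪) • twistRep ρ b η σ := by
    rw [twistRep_apply, smul_smul, Units.inv_mul, one_smul]
  rw [SetLike.mem_coe, h2]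
  exact Submodule.smul_mem _ _ (Submodule.subset_span ⟨σ, rfl⟩)

/-- `p`-adic continuity of the twisted matrices, when `η` has finite level -/
theorem twistRep_cont (ρ : GaloisRepAdic 𝒪) (b : Module.Basis (Fin 2) 𝒪 ρ.V) (η : GQ →* 𝒪ˣ)
    (hη : ∃ L : IntermediateField ℚ Qb, FiniteDimensional ℚ L ∧
      ∀ σ : GQ, (∀ x ∈ L, σ x = x) → η σ = 1)
    (x : 𝒪) (hx : ∃ n : ℕ, maximalIdeal 𝒪 ^ n ≤ Ideal.span {x}) :
    ∃ L : IntermediateField ℚ Qb, FiniteDimensional ℚ L ∧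
      ∀ σ : GQ, (∀ y ∈ L, σ y = y) → ∀ i j, x ∣ (twistRep ρ b η σ - 1) i j := by
  obtain ⟨n, hn⟩ := hx
  obtain ⟨L₁, hL₁, h1⟩ := matCont_matOf ρ b n
  obtain ⟨L₂, hL₂, h2⟩ := hη
  haveI := hL₁
  haveI := hL₂
  refine ⟨L₁ ⊔ L₂, IntermediateField.finiteDimensional_sup L₁ L₂, fun σ hσ i j => ?_⟩
  have hσ1 : ∀ y ∈ L₁, σ y = y := fun y hy => hσ y (le_sup_left (a := L₁) hy)
  have hσ2 : ∀ y ∈ L₂, σ y = y := fun y hy => hσ y (le_sup_right (a := L₁) hy)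
  rw [twistRep_apply, h2 σ hσ2, Units.val_one, one_smul]
  exact Ideal.mem_span_singleton.mp (hn (h1 σ hσ1 i j))

end Twist

section DVR

variable {𝒪 : Type} [CommRing 𝒪] [IsDomain 𝒪] [IsDiscreteValuationRing 𝒪]

/-- in a DVR every nonzero element generates an ideal containing a power of the maximal ideal -/
theorem exists_pow_maximalIdeal_le_span {x : 𝒪} (hx : x ≠ 0) :
    ∃ n : ℕ, maximalIdeal 𝒪 ^ n ≤ Ideal.span {x} := by
  obtain ⟨ϖ, hϖ⟩ := IsDiscreteValuationRing.exists_irreducible 𝒪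
  have hJ : Ideal.span {x} ≠ ⊥ := by
    rw [Ne, Ideal.span_singleton_eq_bot]
    exact hx
  obtain ⟨n, hn⟩ := IsDiscreteValuationRing.ideal_eq_span_pow_irreducible hJ hϖ
  refine ⟨n, ?_⟩
  rw [hn, hϖ.maximalIdeal_eq, Ideal.span_singleton_pow]

/-- Krull: `⋂ x^k 𝒪 = 0` for a nonunit `x` of a DVR -/
theorem eq_zero_of_forall_pow_dvd {x : 𝒪} (hx : x ∈ maximalIdeal 𝒪) (y : 𝒪)
    (h : ∀ k : ℕ, x ^ k ∣ y) : y = 0 := by
  have h1 : y ∈ ⨅ i : ℕ, maximalIdeal 𝒪 ^ i := by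
    rw [Ideal.mem_iInf]
    intro k
    obtain ⟨z, rfl⟩ := h k
    exact Ideal.mul_mem_right _ _ (Ideal.pow_mem_pow hx k)
  rw [Ideal.iInf_pow_eq_bot_of_isLocalRing _ (IsLocalRing.maximalIdeal.isMaximal 𝒪).ne_top] at h1
  exact h1

end DVR

end Fermat.Agent.S43lib.LGC.D
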