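/-
S43lib / LGC / D / Main  (helper8)  — Project H, block LGC-D, the assembly.

**`trace_inertia_of_words`**: `𝒪` a complete DVR of characteristic zero, residue characteristic
`p ≠ 2`; `ρ : GaloisRepAdic 𝒪` with `span ρ(G_ℚ) = End(V)` and `charpoly ρ(Frob_ℓ) = X² - τ_ℓ X + ℓ`
(`ℓ ∉ S₀`); `D k : KummerGalData Γ M (p^k)` (the packages of `J₁(M)[p^k]`); a nonzero parabolic
`φ : Γ → Frac 𝒪`, eigen for the Hecke cocycles with eigenvalues `ηc(ℓ) τ_ℓ` and for the diamond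
cocycles with character `χ = ηc²`; `A` a place over `v ≠ p` and the words of `WordsV` for the
inertia group of `A`, `cyc = cycU M`, and a nonempty set `H ⊆ ker χ` of diamonds.  Then

  `tr ρ(t) = ηc(cyc t) + ηc(cyc t)⁻¹`  for every `t` in the inertia group of `A`.

Mechanism: primitive rescaling of `φ` (`Prim.lean`), the twist `ρ' = (ηc ∘ cyc) ⊗ ρ` (`Twist.lean`),
`transfer_words` (`TransferLim.lean`), `det ρ = χ_p` (helper3's `det_eq_chiAdic`), helper2's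
`trace_eq_of_cubic`.
-/
import Mathlib
import Fermat.Agent.S43lib.LGC.D.TransferLim
import Fermat.Agent.S43lib.LGC.D.Prim
import Fermat.Agent.S43lib.LGC.D.Twist
import Fermat.Agent.S43lib.LGC.D.Cyc
import Fermat.Agent.S43lib.LGC.D.Family
import Fermat.Agent.S43lib.B0.End.ArithO
import Fermat.Agent.S35lib.Gal.DetCyclo

set_option autoImplicit false
set_option linter.unusedSectionVars false
set_option linter.unusedVariables false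
set_option linter.style.haveILetI false

noncomputable section

namespace Fermat.Agent.S43lib.LGC.D

open Matrix Polynomial IsLocalRing Fermat.Agent.S48lib.X1.Gal Fermat.Agent.S43lib.B0.EndBlock
  Fermat.Agent.S16lib.LG Fermat.Agent.S43lib.Igusa Fermat.Agent.TeamA.Rep
open scoped MatrixGroups

local notation "Qb" => AlgebraicClosure ℚ
local notation "GQ" => (AlgebraicClosure ℚ ≃ₐ[ℚ] AlgebraicClosure ℚ)

section Main

variable {𝒪 : Type} [CommRing 𝒪] [IsDomain 𝒪] [IsDiscreteValuationRing 𝒪] [CharZero 𝒪]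
  [IsAdicComplete (maximalIdeal 𝒪) 𝒪]
variable {K : Type*} [Field K] [Algebra 𝒪 K] [IsFractionRing 𝒪 K]

/-- **LGC-D, assembled** (nontrivial component at `v`). -/
theorem trace_inertia_of_words {p : ℕ} [hpf : Fact p.Prime] (hp2 : p ≠ 2)
    (hp𝒪 : (p : 𝒪) ∈ maximalIdeal 𝒪)
    {Γ : Subgroup SL(2, ℤ)} (hfg : Group.FG Γ) {M : ℕ} [NeZero M]
    (D : ∀ k : ℕ, KummerGalData Γ M (p ^ k))
    (S₀ : Finset ℕ) (hS₀ : ∀ ℓ : ℕ, ℓ.Prime → ℓ ∉ S₀ → ¬ ℓ ∣ M ∧ ℓ ≠ p)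
    -- the Galois representation
    (ρ : GaloisRepAdic 𝒪) (hspan : Submodule.span 𝒪 (Set.range ρ.ρ) = ⊤) (τ : ℕ → 𝒪)
    (hρ : ∀ ℓ : ℕ, ℓ.Prime → ℓ ∉ S₀ → ∀ A : ValuationSubring Qb, A.LiesOverPrime ℓ →
      ∀ φ : GQ, A.IsFrobeniusAt φ ℓ →
        LinearMap.charpoly (ρ.ρ φ) = X ^ 2 - C (τ ℓ) * X + C (ℓ : 𝒪))
    -- the characters
    (χ ηc : (ZMod M)ˣ →* 𝒪ˣ) (hη : ∀ d, ηc d * ηc d = χ d)
    -- the eigen-homomorphism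
    (b : ℕ → 𝒪)
    (hb : ∀ ℓ : ℕ, ℓ.Prime → ℓ ∉ S₀ → ∀ d : (ZMod M)ˣ, (d : ZMod M) = (ℓ : ZMod M) →
      b ℓ = ((ηc d : 𝒪ˣ) : 𝒪) * τ ℓ)
    (φ : Additive Γ →+ K) (hφ : φ ≠ 0)
    (hpar : ∀ γ : Γ, IsParTor (γ : SL(2, ℤ)) → φ (Additive.ofMul γ) = 0)
    (hT : ∀ k : ℕ, ∀ ℓ : ℕ, ℓ.Prime → ℓ ∉ S₀ → ∀ γ : Γ,
      ∑ i, φ (Additive.ofMul ((D k).cT ℓ γ i)) = algebraMap 𝒪 K (b ℓ) * φ (Additive.ofMul γ))
    (hd : ∀ k : ℕ, ∀ (d : (ZMod M)ˣ) (γ : Γ),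
      φ (Additive.ofMul ((D k).cd d γ)) =
        algebraMap 𝒪 K ((χ d : 𝒪ˣ) : 𝒪) * φ (Additive.ofMul γ))
    -- the place and the words
    {v : ℕ} (hv : v.Prime) (hvp : v ≠ p) {A : ValuationSubring Qb} (hA : A.LiesOverPrime v)
    (H : Finset (ZMod M)ˣ) (hHne : H.Nonempty) (hH : ∀ h ∈ H, χ h = 1)
    (hw : ∀ k : ℕ, WordsV (D k) (A.inertiaSubgroupIn ℚ : Set GQ) (cycU M) H)
    {t : GQ} (ht : t ∈ A.inertiaSubgroupIn ℚ) :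
    ρ.trace t = ((ηc (cycU M t) : 𝒪ˣ) : 𝒪) + (((ηc (cycU M t))⁻¹ : 𝒪ˣ) : 𝒪) := by
  classical
  have hp : p.Prime := hpf.out
  have hinj : Function.Injective (algebraMap 𝒪 K) := IsFractionRing.injective 𝒪 K
  -- primitive rescaling
  obtain ⟨c, φ₀, hc, hφ₀, γ₀, hγ₀⟩ := exists_primitive_hom (𝒪 := 𝒪) hfg φ hφ
  have hpar₀ : ∀ γ : Γ, IsParTor (γ : SL(2, ℤ)) → φ₀ (Additive.ofMul γ) = 0 := by
    intro γ hγ
    apply hinj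
    rw [hφ₀, hpar γ hγ, mul_zero, map_zero]
  have hT₀ : ∀ k : ℕ, ∀ ℓ : ℕ, ℓ.Prime → ℓ ∉ S₀ → ∀ γ : Γ,
      ∑ i, φ₀ (Additive.ofMul ((D k).cT ℓ γ i)) = b ℓ * φ₀ (Additive.ofMul γ) := by
    intro k ℓ hℓ hℓS γ
    apply hinj
    rw [map_sum, map_mul, hφ₀]
    simp only [hφ₀]
    rw [← Finset.mul_sum, hT k ℓ hℓ hℓS γ]
    ring
  have hd₀ : ∀ k : ℕ, ∀ (d : (ZMod M)ˣ) (γ : Γ),
      φ₀ (Additive.ofMul ((D k).cd d γ)) = ((χ d : 𝒪ˣ) : 𝒪) * φ₀ (Additive.ofMul γ) := by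
    intro k d γ
    apply hinj
    rw [map_mul, hφ₀, hφ₀, hd k d γ]
    ring
  -- the twisted matrix representation
  let bV : Module.Basis (Fin 2) 𝒪 ρ.V := Module.finBasisOfFinrankEq 𝒪 ρ.V ρ.finrank_eq
  let η : GQ →* 𝒪ˣ := ηc.comp (cycHom M)
  have hηapp : ∀ σ, η σ = ηc (cycU M σ) := fun σ => rfl
  set ρ' : GQ →* Matrix (Fin 2) (Fin 2) 𝒪 := twistRep ρ bV η with hρ'
  have hp0 : (p : 𝒪) ≠ 0 := Nat.cast_ne_zero.2 hp.ne_zero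
  have hηfin : ∃ L : IntermediateField ℚ Qb, FiniteDimensional ℚ L ∧
      ∀ σ : GQ, (∀ x ∈ L, σ x = x) → η σ = 1 := by
    obtain ⟨L, hL, h⟩ := exists_finiteDimensional_cycU M
    exact ⟨L, hL, fun σ hσ => by rw [hηapp, h σ hσ, map_one]⟩
  have hcont : ∀ k : ℕ, ∃ L : IntermediateField ℚ Qb, FiniteDimensional ℚ L ∧
      ∀ σ : GQ, (∀ x ∈ L, σ x = x) → ∀ i j, (p : 𝒪) ^ k ∣ (ρ' σ - 1) i j := fun k =>
    twistRep_cont ρ bV η hηfin _ (exists_pow_maximalIdeal_le_span (pow_ne_zero k hp0))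
  have hspan' : Submodule.span 𝒪 (Set.range ρ') = ⊤ := span_twistRep ρ bV η hspan
  have hfrob : ∀ ℓ : ℕ, ℓ.Prime → ℓ ∉ S₀ → ∀ B : ValuationSubring Qb, B.LiesOverPrime ℓ →
      ∀ φ : GQ, B.IsFrobeniusAt φ ℓ → ∃ d : (ZMod M)ˣ, (d : ZMod M) = (ℓ : ZMod M) ∧
        (ρ' φ).trace = b ℓ ∧ (ρ' φ).det = (ℓ : 𝒪) * ((χ d : 𝒪ˣ) : 𝒪) := by
    intro ℓ hℓ hℓS B hB φ hφ
    obtain ⟨hℓM, hℓp⟩ := hS₀ ℓ hℓ hℓS
    have hcop : Nat.Coprime M ℓ := (Nat.Coprime.symm ((Nat.Prime.coprime_iff_not_dvd hℓ).2 hℓM))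
    have hdℓ := cycU_coe_of_isFrobeniusAt M hB hcop hφ
    have hch := hρ ℓ hℓ hℓS B hB φ hφ
    refine ⟨cycU M φ, hdℓ, ?_, ?_⟩
    · rw [hρ', twistRep_trace, hηapp, hb ℓ hℓ hℓS _ hdℓ]
      congr 1
      exact Fermat.Agent.S31lib.TC.trace_eq_of_charpoly ρ.finrank_eq _ hch
    · rw [hρ', twistRep_det, hηapp, Fermat.Agent.S34lib.det_eq_of_charpoly ρ.finrank_eq _ hch,
        ← Units.val_mul, hη]
      ring
  have h2 : IsUnit (2 : 𝒪) := by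
    have h := isUnit_natCast_of_not_dvd (𝒪 := 𝒪) hp hp𝒪 2 (fun h =>
      hp2 ((Nat.prime_dvd_prime_iff_eq hp Nat.prime_two).1 h))
    simpa using h
  have hsep : ∀ x : 𝒪, (∀ k : ℕ, (p : 𝒪) ^ k ∣ x) → x = 0 := eq_zero_of_forall_pow_dvd hp𝒪
  -- TRANSFER
  have hwords := (transfer_words hp hsep h2 D S₀ hS₀ b χ ρ' hcont hspan' hfrob φ₀ hpar₀ hT₀ hd₀ hγ₀
    (A.inertiaSubgroupIn ℚ : Set GQ) (cycU M) H hHne hH hw ht ht ht).1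
  -- the determinant on inertia
  have hdet1 : LinearMap.det (ρ.ρ t) = 1 := by
    have h := Fermat.Agent.S35lib.Gal.det_eq_chiAdic p hp𝒪 ρ S₀
      (fun ℓ hℓ hℓS B hB φ hφ => ⟨τ ℓ, hρ ℓ hℓ hℓS B hB φ hφ⟩) t
    rw [h, Fermat.Agent.S29lib.S30.chiAdic_of_mem_inertia (I := maximalIdeal 𝒪) hp𝒪 hv hvp hA ht,
      Units.val_one]
  set x : 𝒪 := ((χ (cycU M t) : 𝒪ˣ) : 𝒪) with hx
  have hx0 : x ≠ 0 := (χ (cycU M t)).ne_zero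
  have hdet' : (ρ' t).det = x := by
    rw [hρ', twistRep_det, hdet1, mul_one, hηapp, ← Units.val_mul, hη]
  have hcubic : (ρ' t - 1) * (ρ' t - 1) * (ρ' t - x • (1 : Matrix (Fin 2) (Fin 2) 𝒪)) = 0 := by
    rw [mul_assoc]
    exact hwords
  have htr := trace_eq_of_cubic (ρ' t) x hx0 hdet' hcubic
  rw [hρ', twistRep_trace, hηapp] at htr
  -- untwist
  set e : 𝒪ˣ := ηc (cycU M t) with he
  have hxe : x = (e : 𝒪) * (e : 𝒪) := by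
    rw [hx, ← hη, Units.val_mul]
  have h3 : ρ.trace t = ((e⁻¹ : 𝒪ˣ) : 𝒪) * ((e : 𝒪) * ρ.trace t) := by
    rw [← mul_assoc, Units.inv_mul, one_mul]
  rw [h3, htr, hxe, mul_add, mul_one, ← mul_assoc, Units.inv_mul, one_mul, add_comm]

end Main

end Fermat.Agent.S43lib.LGC.D
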