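/-
Project H (S43) / LGC / D / KGD   (helper9)

**The Kummer--Galois data of `J_1(N)[n]` for EVERY `n ≠ 0`** (`4 ∣ N` or `9 ∣ N`, `4 ≤ N`).

`S48lib/X1/Gal/Producer.lean : kummerGalData` is stated for a prime `ℓ` only because of a section
variable; the ingredients (`lam1`, `lam1_injective`, `lam1_range`, `lam1_TJstd`, `lam1_diaJ`,
`esStmt`, `esNative_of_esData`) hold for every `n`.  Here:

* `esInputs_of_dvd N h49 n : ESInputs N n`;
* `finiteLevel_rho1N hN n`;
* `kgd h49 hN n : KummerGalData (pmGamma1 N) N n`  — `V = J_1(N)[n]`, `ρ = rho1 N n`,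
  `T = TEnd n`, `diam = diamEnd n`, `lam = lam1 hN n`, `cT = cTFun`, `cd = cdFun`.
-/
import Mathlib
import Fermat.Agent.S48lib.X1.ES.FinalDry
import Fermat.Agent.S48lib.X1.Gal.W2Final
import Fermat.Agent.S48lib.X1.Gal.UnramES

set_option autoImplicit false
set_option linter.unusedSectionVars false
set_option linter.style.haveILetI false

noncomputable section

namespace Fermat.Agent.S43lib.LGC.D

open AlgebraicCurve ModularCurve Fermat.Agent.S29lib Fermat.Agent.S18lib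
open Fermat.Agent.ProgramR Fermat.Agent.ProgramR.BarField Fermat.Agent.S16lib.LG
open Fermat.Agent.S48lib.X1 Fermat.Agent.S48lib.X1.HeckeJ Fermat.Agent.S48lib.X1.Wp
open Fermat.Agent.S48lib.X1.Desc Fermat.Agent.S48lib.X1.Gal Fermat.Agent.S48lib.X1.Forms
open scoped MatrixGroups

local notation "Qb" => AlgebraicClosure ℚ
local notation "GQ" => (AlgebraicClosure ℚ ≃ₐ[ℚ] AlgebraicClosure ℚ)

variable {N : ℕ} [NeZero N]

/-- inertia trivial + Eichler--Shimura on `J_1(N)[n]`, any `n` -/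
theorem esInputs_of_dvd (h49 : 4 ∣ N ∨ 9 ∣ N) (n : ℕ) : ESInputs N n :=
  (esNative_of_esData (fun p _ _ hpd B hB =>
    Fermat.Agent.S48lib.X1.ES.Dry.esStmt N h49 p (fun h => hpd (Dvd.dvd.mul_right h n)) B hB)).toESInputs

/-- `J_1(N)[n]` is finite (`N ≥ 4`, `n ≠ 0`). -/
theorem finite_torsion_J1N (hN : 4 ≤ N) (n : ℕ) [NeZero n] :
    Finite (Pic0.torsion Qb ↥(laurentBaseChange Qb (F1 N)) n) := by
  haveI := finite_addMonoidHom_of_fg (groupFG_of_finiteIndex (pmGamma1 N)) (ZMod n)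
  exact Finite.of_injective _ (lam1_injective hN n)

/-- the Galois action on `J_1(N)[n]` has finite level. -/
theorem finiteLevel_rho1N (hN : 4 ≤ N) (n : ℕ) [NeZero n] :
    GaloisFactorsThroughFiniteLevel (rho1 N n) :=
  finiteLevel_rhoTors (isQModel_F1 (M := N)) n (finite_torsion_J1N hN n)

variable {n : ℕ} [NeZero n]

set_option maxHeartbeats 2000000 in
theorem es_rho1N (I : ESInputs N n) (p : ℕ) (hp : p.Prime) (hpd : ¬ p ∣ N * n) (d : (ZMod N)ˣ)
    (hd : (d : ZMod N) = (p : ZMod N)) (B : ValuationSubring Qb) (hB : B.LiesOverPrime p)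
    (σ : GQ) (hσ : B.IsFrobeniusAt σ p) :
    rho1 N n σ * rho1 N n σ - TEnd (M := N) n p * rho1 N n σ
      + (p : ZMod n) • diamEnd (M := N) n d = 0 := by
  haveI : Fact p.Prime := ⟨hp⟩
  have hpM : p.Coprime N := (Nat.Prime.coprime_iff_not_dvd hp).2 fun hd => hpd (Dvd.dvd.mul_right hd n)
  have hdu : ZMod.unitOfCoprime p hpM = d := by
    apply Units.ext
    rw [ZMod.coe_unitOfCoprime, hd]
  rw [TEnd_of_prime n p hpM]
  apply LinearMap.ext
  intro x
  have h := I.es p hpd (dMat d) (dvd_dMat d) ((cast_dMat_one_one d).trans hd) B hB σ hσ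
    (x : J1 N) x.2
  have h1 : (((p : ZMod n) • diamEnd (M := N) n d) x : Pic0.torsion Qb _ n) =
      p • (diamEnd (M := N) n d x) := by
    rw [LinearMap.smul_apply]
    exact Nat.cast_smul_eq_nsmul (ZMod n) p _
  rw [LinearMap.add_apply, LinearMap.sub_apply, h1, LinearMap.zero_apply]
  apply Subtype.ext
  rw [AddSubgroup.coe_add, AddSubgroup.coe_sub, AddSubgroup.coe_nsmul, AddSubgroup.coe_zero]
  show σ • σ • (x : J1 N) - diamJ (ZMod.unitOfCoprime p hpM)
      (TJstd (isQModel_F1 (M := N)) p (σ • (x : J1 N))) + p • diamJ d (x : J1 N) = 0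
  rw [hdu, ← natCast_zsmul]
  exact h

set_option maxHeartbeats 1000000 in
theorem unram_rho1N (I : ESInputs N n) (p : ℕ) (hp : p.Prime) (hpd : ¬ p ∣ N * n)
    (B : ValuationSubring Qb) (hB : B.LiesOverPrime p) (σ : GQ)
    (hσ : σ ∈ B.inertiaSubgroupIn ℚ) : rho1 N n σ = 1 :=
  LinearMap.ext fun x => Subtype.ext (I.unram p hp hpd B hB σ hσ (x : J1 N) x.2)

set_option maxHeartbeats 2000000 in
theorem lam1_TEndN (hN : 4 ≤ N) (p : ℕ) (hp : p.Prime) (hpd : ¬ p ∣ N * n)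
    (x : Pic0.torsion Qb ↥(laurentBaseChange Qb (F1 N)) n) (γ : pmGamma1 N) :
    lam1 hN n (TEnd (M := N) n p x) (Additive.ofMul γ) =
      ∑ i : Option (Fin p), lam1 hN n x (Additive.ofMul (cTFun p γ i)) := by
  haveI : Fact p.Prime := ⟨hp⟩
  have hpM : p.Coprime N := (Nat.Prime.coprime_iff_not_dvd hp).2 fun hd => hpd (Dvd.dvd.mul_right hd n)
  rw [TEnd_of_prime n p hpM, sum_cTFun p hpM γ (fun c => lam1 hN n x (Additive.ofMul c))]
  have h1 := lam1_diaJ hN (dMat (ZMod.unitOfCoprime p hpM)) (dvd_dMat _) n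
    ⟨TJstd (isQModel_F1 (M := N)) p x, map_mem_torsion n _ x.2⟩
  have h2 := lam1_TJstd hN (not_dvd_of_prime_coprime hp hpM) n x
  have h3 : torsEnd n (heckeJ p hpM) x =
      ⟨diaJ (dMat (ZMod.unitOfCoprime p hpM)) (dvd_dMat _) •
        ((⟨TJstd (isQModel_F1 (M := N)) p x, map_mem_torsion n _ x.2⟩ :
          Pic0.torsion Qb ↥(laurentBaseChange Qb (F1 N)) n) : J1 N),
        SemilinearAut.smul_mem_torsion _ (map_mem_torsion n _ x.2)⟩ := rfl
  rw [h3, h1, h2]
  rfl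

set_option maxHeartbeats 1000000 in
theorem lam1_diamEndN (hN : 4 ≤ N) (d : (ZMod N)ˣ)
    (x : Pic0.torsion Qb ↥(laurentBaseChange Qb (F1 N)) n) (γ : pmGamma1 N) :
    lam1 hN n (diamEnd (M := N) n d x) (Additive.ofMul γ) =
      lam1 hN n x (Additive.ofMul (cdFun d γ)) := by
  have h1 := lam1_diaJ hN (dMat d) (dvd_dMat d) n x
  have h3 : diamEnd (M := N) n d x =
      ⟨diaJ (dMat d) (dvd_dMat d) • (x : J1 N), SemilinearAut.smul_mem_torsion _ x.2⟩ := rfl
  rw [h3, h1]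
  rfl

variable (n) in
/-- **the Kummer--Galois data of `J_1(N)[n]`**, `4 ∣ N` or `9 ∣ N`, `N ≥ 4`, any `n ≠ 0`. -/
def kgd (h49 : 4 ∣ N ∨ 9 ∣ N) (hN : 4 ≤ N) : KummerGalData (pmGamma1 N) N n where
  V := Pic0.torsion Qb ↥(laurentBaseChange Qb (F1 N)) n
  ρ := rho1 N n
  finiteLevel := finiteLevel_rho1N hN n
  unram := unram_rho1N (esInputs_of_dvd h49 n)
  T := TEnd n
  diam := diamEnd n
  comm_T := fun p σ => commute_rho1_TEnd n p σ
  comm_diam := fun d σ => commute_rho1_diamEnd n d σ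
  es := es_rho1N (esInputs_of_dvd h49 n)
  lam := lam1 hN n
  lam_inj := lam1_injective hN n
  lam_range := lam1_range hN n
  ιT := fun p => Option (Fin p)
  cT := cTFun
  lam_T := lam1_TEndN hN
  cd := cdFun
  lam_diam := lam1_diamEndN hN

end Fermat.Agent.S43lib.LGC.D
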