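/-
Project H (S43) / LGC / D / NormSum   (helper9)

**`π^* π_* = ∑_{g ∈ G} g` on the torsion of `Pic⁰`, for a Galois cover `π`.**

`φ : F →ₐ[K] F'` a finite embedding of function fields over `K`, `G` a finite group acting on `F'` by
`K`-automorphisms fixing `φ F`, with fixed field exactly `φ F`.  Then for `y ∈ Pic⁰(F')[n]`:
`∑_g g • y = φ^* x` for some `x ∈ Pic⁰(F)[n]`  (`x = m · φ_* y`, `m = |ker (G → Aut)|`).

Everything is done on Kummer representatives (`KummerRel n y f`): `N_φ f` represents `φ_* y`,
`φ (N_φ f) ^ m = ∏_g g f` represents both `φ^* (m φ_* y)` and `∑_g g • y`, and a Kummer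
representative determines the class.
-/
import Mathlib
import Fermat.Agent.S44lib.Kap.PushPull
import Fermat.Agent.S48lib.X1.HeckeJ.DiamondPic

set_option autoImplicit false
set_option linter.unusedSectionVars false
set_option linter.style.haveILetI false

noncomputable section

namespace Fermat.Agent.S43lib.LGC.D

open AlgebraicCurve Fermat.Agent.LSb Fermat.Agent.S29lib.D Fermat.Agent.S18lib

/-! ### Kummer representatives determine the class -/

section Unique

variable {K F : Type*} [Field K] [Field F] [Algebra K F]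

theorem kummerRel_eq_of_same {n : ℕ} (hn : n ≠ 0) {x y : Pic0 K F} {f : F}
    (hx : KummerRel n x f) (hy : KummerRel n y f) : x = y := by
  obtain ⟨-, D, rfl, hD⟩ := hx
  obtain ⟨-, E, rfl, hE⟩ := hy
  congr 1
  apply Subtype.ext
  apply Finsupp.ext
  intro P
  have h := (hD P).trans (hE P).symm
  exact mul_left_cancel₀ (Int.natCast_ne_zero.mpr hn) h

theorem kummerRel_sum {n : ℕ} {ι : Type*} (s : Finset ι) (x : ι → Pic0 K F) (f : ι → F)
    (h : ∀ i ∈ s, KummerRel n (x i) (f i)) : KummerRel n (∑ i ∈ s, x i) (∏ i ∈ s, f i) := by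
  classical
  induction s using Finset.induction_on with
  | empty =>
    rw [Finset.sum_empty, Finset.prod_empty]
    exact kummerRel_zero_one n
  | insert a s ha ih =>
    rw [Finset.sum_insert ha, Finset.prod_insert ha]
    exact (h a (Finset.mem_insert_self a s)).mul
      (ih fun i hi => h i (Finset.mem_insert_of_mem hi))

theorem kummerRel_nsmul {n : ℕ} {x : Pic0 K F} {f : F} (h : KummerRel n x f) (m : ℕ) :
    KummerRel n (m • x) (f ^ m) := by
  induction m with
  | zero =>
    rw [zero_nsmul, pow_zero]
    exact kummerRel_zero_one n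
  | succ m ih =>
    rw [succ_nsmul, pow_succ]
    exact ih.mul h

end Unique

/-! ### the norm of a Galois extension as a product over a group acting on it -/

section Galois

variable {B E : Type*} [Field B] [Field E] [Algebra B E] [FiniteDimensional B E]

theorem exists_prod_eq_norm_pow {G : Type*} [Group G] [Fintype G] (φ : G →* (E ≃ₐ[B] E))
    (hfix : ∀ y : E, (∀ g, φ g y = y) → y ∈ (algebraMap B E).range) :
    ∃ m : ℕ, ∀ y : E, ∏ g : G, φ g y = (algebraMap B E (Algebra.norm B y)) ^ m := by
  classical
  have hS : IntermediateField.fixedField φ.range = ⊥ := by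
    apply le_antisymm
    · intro y hy
      rw [IntermediateField.mem_bot]
      have h1 : ∀ g, φ g y = y := fun g => hy ⟨φ g, ⟨g, rfl⟩⟩
      exact hfix y h1
    · exact bot_le
  have htop : φ.range = ⊤ := by
    rw [← IntermediateField.fixingSubgroup_fixedField φ.range, hS,
      IntermediateField.fixingSubgroup_bot]
  haveI : IsGalois B E := IsGalois.of_fixedField_eq_bot B E (by rw [← htop]; exact hS)
  have hsurj : Function.Surjective φ := MonoidHom.range_eq_top.mp htop
  refine ⟨(Finset.univ.filter fun g : G => φ g = 1).card, fun y => ?_⟩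
  have h1 : ∏ g : G, φ g y = ∏ σ ∈ (Finset.univ : Finset G).image φ,
      (σ y) ^ (Finset.univ.filter fun g : G => φ g = σ).card :=
    Finset.prod_comp (fun σ : E ≃ₐ[B] E => σ y) φ
  have h2 : (Finset.univ : Finset G).image φ = Finset.univ := by
    apply Finset.eq_univ_of_forall
    intro σ
    obtain ⟨g, rfl⟩ := hsurj σ
    exact Finset.mem_image_of_mem _ (Finset.mem_univ g)
  have h3 : ∀ σ : E ≃ₐ[B] E, (Finset.univ.filter fun g : G => φ g = σ).card =
      (Finset.univ.filter fun g : G => φ g = 1).card := fun σ =>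
    MonoidHom.card_fiber_eq_of_mem_range φ (hsurj σ) (hsurj 1)
  rw [h1, h2, Finset.prod_congr rfl fun σ _ => by rw [h3 σ], Finset.prod_pow,
    Algebra.norm_eq_prod_automorphisms]

end Galois

/-! ### the main statement -/

section Main

variable {K F F' : Type*} [Field K] [Field F] [Field F'] [Algebra K F] [Algebra K F']
variable [HasPrincipalDivisors K F']
variable (φ : F →ₐ[K] F') (hφ : φ.toRingHom.IsIntegral)
variable (hFI : FundamentalIdentityAlong K φ hφ)

/-- **`∑_g g • y ∈ φ^* Pic⁰(F)[n]`** for `y ∈ Pic⁰(F')[n]`. -/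
theorem exists_pullback_eq_sum (hfin : FiniteAlong K φ) (hN : NormFormulaAlong K φ hfin)
    {G : Type*} [Group G] [Fintype G] (act : G →* (F' ≃ₐ[K] F'))
    (hact : ∀ g x, act g (φ x) = φ x)
    (hfix : ∀ y : F', (∀ g, act g y = y) → ∃ x : F, φ x = y)
    {n : ℕ} (hn : n ≠ 0) (y : Pic0 K F') (hy : (n : ℤ) • y = 0) :
    ∃ x : Pic0 K F, (n : ℤ) • x = 0 ∧
      Xfer.pic0PullbackAlong φ hφ hFI x = ∑ g : G, SemilinearAut.ofAlgAut (act g) • y := by
  classical
  obtain ⟨f, hf⟩ := exists_kummerRel hy
  -- the group acts through `F`-automorphisms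
  letI := algebraAlong φ
  haveI : FiniteDimensional F F' := hfin
  let actB : G →* (F' ≃ₐ[F] F') :=
    { toFun := fun g =>
        { (act g).toRingEquiv with
          commutes' := fun x => hact g x }
      map_one' := by
        apply AlgEquiv.ext
        intro z
        show act 1 z = z
        rw [map_one]
        rfl
      map_mul' := fun g h => by
        apply AlgEquiv.ext
        intro z
        show act (g * h) z = act g (act h z)
        rw [map_mul]
        rfl }
  have hactB : ∀ g z, actB g z = act g z := fun _ _ => rfl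
  obtain ⟨m, hm⟩ := exists_prod_eq_norm_pow actB (fun z hz => by
    obtain ⟨x, hx⟩ := hfix z (fun g => (hactB g z).symm.trans (hz g))
    exact ⟨x, hx⟩)
  -- the class downstairs
  have h1 : KummerRel n (Xfer.pic0PushforwardAlong φ hφ hfin hN y) (normAlong φ f) :=
    Fermat.Agent.S44lib.Kap.kummerRel_pushforwardAlong φ hφ hfin hN hf
  have h2 := kummerRel_nsmul h1 m
  have h3 := Fermat.Agent.S44lib.Kap.kummerRel_pullbackAlong φ hφ hFI h2
  -- the sum upstairs
  have h4 : KummerRel n (∑ g : G, SemilinearAut.ofAlgAut (act g) • y)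
      (∏ g : G, SemilinearAut.ofAlgAut (act g) • f) :=
    kummerRel_sum Finset.univ _ _ fun g _ =>
      Fermat.Agent.S48lib.X1.HeckeJ.kummerRel_smul (SemilinearAut.ofAlgAut (act g)) hf
  have h5 : (∏ g : G, SemilinearAut.ofAlgAut (act g) • f) = φ (normAlong φ f ^ m) := by
    rw [map_pow]
    have := hm f
    simp only [hactB] at this
    exact this
  rw [h5] at h4
  exact ⟨m • Xfer.pic0PushforwardAlong φ hφ hfin hN y, h2.torsion, kummerRel_eq_of_same hn h3 h4⟩

end Main

end Fermat.Agent.S43lib.LGC.D
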