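/-
Project H (S43) / LGC / D / ToJ1   (helper9)

**The words of LGC-C on `J_1(N)`.**  `N = M q`, `ψ` a character of `(ℤ/N)ˣ`, `H = ker ψ`,
`π = inclH : F_H → F_1(N)` (Galois with group `H / ±1`).

* `finiteAlong_inclH`, `fundamentalIdentityAlong_inclH`, `normFormulaAlong_inclH`;
* `pullH ψ hN : Pic⁰(F_H) →+ J_1(N)`, equivariant for `G_ℚ` and the diamonds;
* `exists_pullH_eq_nmH` : `∑_{u ∈ H} ⟨u⟩ y ∈ π^* Pic⁰(F_H)[n]` for `y ∈ J_1(N)[n]`;
* `LGCTors₁ M q ψ A n` : the words of `LGCTors` on `Nm_H J_1(M q)[n]`;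
* **`lgcTors₁_of_lgcTors`**.
-/
import Mathlib
import Fermat.Agent.S43lib.LGC.D.NormSum
import Fermat.Agent.S43lib.Igusa.WordKCM
import Fermat.Agent.S48lib.X1.Gal.Producer

set_option autoImplicit false
set_option linter.unusedSectionVars false
set_option linter.unusedVariables false
set_option linter.style.haveILetI false

noncomputable section

namespace Fermat.Agent.S43lib.LGC.D

open Polynomial ModularCurve IntermediateField AlgebraicCurve AlgebraicCurve.SemilinearAut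
open Fermat.Agent Fermat.Agent.S18lib Fermat.Agent.LSb
open Fermat.Agent.ProgramR Fermat.Agent.ProgramR.BarField
open Fermat.Agent.S48lib.X1 Fermat.Agent.S48lib.X1.HeckeJ Fermat.Agent.S48lib.X1.Gal
open Fermat.Agent.S37lib.HeckeInst
open Fermat.Agent.S43lib.Igusa
open scoped MatrixGroups

local notation "Qb" => AlgebraicClosure ℚ

section Generic

variable {N : ℕ} [NeZero N] (ψ : (ZMod N)ˣ →* Qbˣ)

set_option quotPrecheck false in
local notation "FB1" => ↥(laurentBaseChange Qb (F1 N))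

/-- principal divisors on `X_1(N)` -/
theorem hasPrincipalDivisors_FB1 : HasPrincipalDivisors Qb FB1 :=
  (isQModel_F1 (M := N)).hasPrincipalDivisors

attribute [local instance] hasPrincipalDivisors_FB1

theorem jq_mem_FH0 (hN : 1 < N) : jq ∈ FH0 ψ.ker :=
  full_le_FH0 ψ.ker hN (isQModel_full N).jq_mem

theorem inclH_jBq (hN : 1 < N) :
    inclH ψ.ker (jBq (FH0 ψ.ker) (jq_mem_FH0 ψ hN)) = jBq (F1 N) (jq_mem_F1 N) :=
  Subtype.ext rfl

theorem finite_inclH (hN : 1 < N) :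
    letI := algebraAlong (inclH ψ.ker); Module.Finite (FBH ψ) FB1 := by
  haveI := (isQModel_F1 (M := N)).finite
  exact finite_along (inclH ψ.ker) (jBq (FH0 ψ.ker) (jq_mem_FH0 ψ hN)) _ (inclH_jBq ψ hN)

theorem finiteAlong_inclH (hN : 1 < N) : FiniteAlong Qb (inclH ψ.ker) := finite_inclH ψ hN

theorem inclH_isIntegral (hN : 1 < N) : (inclH ψ.ker).toRingHom.IsIntegral :=
  isIntegral_toRingHom_of_finite _ (finite_inclH ψ hN)

theorem isSeparable_inclH (hN : 1 < N) :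
    letI := algebraAlong (inclH ψ.ker); Algebra.IsSeparable (FBH ψ) FB1 :=
  isSeparable_along _ (finite_inclH ψ hN)

theorem fundamentalIdentityAlong_inclH (hN : 1 < N) :
    FundamentalIdentityAlong Qb (inclH ψ.ker) (inclH_isIntegral ψ hN) := by
  letI := algebraAlong (inclH ψ.ker)
  haveI := isScalarTower_along (inclH ψ.ker)
  haveI : FiniteDimensional (FBH ψ) FB1 := finite_inclH ψ hN
  haveI : Algebra.IsSeparable (FBH ψ) FB1 := isSeparable_inclH ψ hN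
  exact Fermat.Agent.S37lib.Tower.fundamentalIdentity ((isQModel_F1 (M := N)).deg_eq_one)

theorem normFormulaAlong_inclH (hN : 1 < N) :
    NormFormulaAlong Qb (inclH ψ.ker) (finiteAlong_inclH ψ hN) := by
  letI := algebraAlong (inclH ψ.ker)
  haveI := isScalarTower_along (inclH ψ.ker)
  haveI : FiniteDimensional (FBH ψ) FB1 := finite_inclH ψ hN
  haveI : Algebra.IsSeparable (FBH ψ) FB1 := isSeparable_inclH ψ hN
  exact Fermat.Agent.S37lib.Tower.pushforwardNormFormula ((isQModel_F1 (M := N)).deg_eq_one)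

/-- **the pull-back `π^* : Pic⁰(F_H) → J_1(N)`** -/
def pullH (hN : 1 < N) : Pic0 Qb (FBH ψ) →+ Pic0 Qb FB1 :=
  Xfer.pic0PullbackAlong (inclH ψ.ker) (inclH_isIntegral ψ hN) (fundamentalIdentityAlong_inclH ψ hN)

/-- the diamond `⟨u⟩` as a semilinear automorphism of `F_1(N)` -/
def diaSA (u : (ZMod N)ˣ) : SemilinearAut Qb FB1 := SemilinearAut.ofAlgAut (diaU u)

theorem diaSA_smul (u : (ZMod N)ˣ) (f : FB1) : diaSA u • f = diaU u f := rfl

theorem diaJ_eq_diaSA {δ : SL(2, ℤ)} (hδ : (N : ℤ) ∣ δ 1 0) (u : (ZMod N)ˣ)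
    (h : ((δ 1 1 : ℤ) : ZMod N) = (u : ZMod N)) : diaJ δ hδ = diaSA u := by
  unfold diaJ diaSA
  rw [diaF1_eq_diaU hδ u h]

theorem diaJ_dMat (u : (ZMod N)ˣ) : diaJ (dMat u) (dvd_dMat u) = diaSA u :=
  diaJ_eq_diaSA _ u (cast_dMat_one_one u)

theorem diamJ_eq (u : (ZMod N)ˣ) (x : Pic0 Qb FB1) : diamJ u x = diaSA u • x := by
  rw [diamJ_apply, diaJ_dMat]

/-! ### equivariance of the pull-back -/

/-- the diamond `⟨v⟩` as a semilinear automorphism of `F_H` -/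
def diaSH (hN : 1 < N) (v : (ZMod N)ˣ) : SemilinearAut Qb (FBH ψ) :=
  letI := algebraFH ψ hN
  haveI := isScalarTower_FH ψ hN
  SemilinearAut.ofAlgAut ((diaH ψ hN v).restrictScalars Qb)

theorem diaSH_smul (hN : 1 < N) (v : (ZMod N)ˣ) (y : FBH ψ) :
    diaSH ψ hN v • y = diaHHom ψ v y := rfl

theorem intertwines_inclH_gal (σ : Qb ≃ₐ[ℚ] Qb) :
    IntertwinesAlong (inclH ψ.ker).toRingHom (arithmeticGalois (FH0 ψ.ker) σ)
      (arithmeticGalois (F1 N) σ) := fun y => (inclH_galois ψ.ker σ y).symm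

theorem intertwines_inclH_dia (hN : 1 < N) (v : (ZMod N)ˣ) :
    IntertwinesAlong (inclH ψ.ker).toRingHom (diaSH ψ hN v) (diaSA v) := fun y => by
  show diaU v (inclH ψ.ker y) = inclH ψ.ker (diaHHom ψ v y)
  exact (inclH_diaHHom ψ v y).symm

theorem pullH_gal (hN : 1 < N) (σ : Qb ≃ₐ[ℚ] Qb) (x : Pic0 Qb (FBH ψ)) :
    pullH ψ hN (arithmeticGalois (FH0 ψ.ker) σ • x) =
      arithmeticGalois (F1 N) σ • pullH ψ hN x :=
  Xfer.pic0PullbackAlong_smul _ _ _ (intertwines_inclH_gal ψ σ) x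

theorem pullH_dia (hN : 1 < N) (v : (ZMod N)ˣ) (x : Pic0 Qb (FBH ψ)) :
    pullH ψ hN (diaSH ψ hN v • x) = diaSA v • pullH ψ hN x :=
  Xfer.pic0PullbackAlong_smul _ _ _ (intertwines_inclH_dia ψ hN v) x

/-! ### the norm `Nm_H = ∑_{u ∈ H} ⟨u⟩` on `J_1(N)` -/

open Classical in
/-- `Nm_H = ∑_{u ∈ ker ψ} ⟨u⟩` on `J_1(N)` -/
def nmH : Pic0 Qb FB1 →+ Pic0 Qb FB1 :=
  ∑ u : (ZMod N)ˣ, if ψ u = 1 then diamJ u else 0

open Classical in
theorem nmH_apply (y : Pic0 Qb FB1) :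
    nmH ψ y = ∑ u : (ZMod N)ˣ, if ψ u = 1 then diaSA u • y else 0 := by
  unfold nmH
  rw [AddMonoidHom.finsetSum_apply]
  refine Finset.sum_congr rfl fun u _ => ?_
  split_ifs
  · exact diamJ_eq u y
  · rfl

/-- **`Nm_H y ∈ π^* Pic⁰(F_H)[n]`** for `y ∈ J_1(N)[n]`. -/
theorem exists_pullH_eq_nmH (hN : 1 < N) {n : ℕ} (hn : n ≠ 0) (y : Pic0 Qb FB1)
    (hy : n • y = 0) : ∃ x : Pic0 Qb (FBH ψ), n • x = 0 ∧ pullH ψ hN x = nmH ψ y := by
  classical
  haveI : Fintype ψ.ker := Fintype.ofFinite _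
  have hy' : (n : ℤ) • y = 0 := by rw [natCast_zsmul]; exact hy
  obtain ⟨x, hx, hpull⟩ := exists_pullback_eq_sum (inclH ψ.ker) (inclH_isIntegral ψ hN)
    (fundamentalIdentityAlong_inclH ψ hN) (finiteAlong_inclH ψ hN) (normFormulaAlong_inclH ψ hN)
    ((diaU (N := N)).comp ψ.ker.subtype)
    (fun g z => diaU_inclH ψ.ker g.2 z)
    (fun z hz => by
      have h1 : ∀ u ∈ ψ.ker, diaU u z = z := fun u hu => hz ⟨u, hu⟩
      have h2 : (z : LaurentSeries Qb) ∈ laurentBaseChange Qb (FH0 ψ.ker) := by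
        rw [laurentBaseChange_FH0]
        exact (coe_mem_FH_iff ψ.ker z).2 h1
      exact ⟨⟨(z : LaurentSeries Qb), h2⟩, Subtype.ext rfl⟩)
    hn y hy'
  refine ⟨x, by rw [← natCast_zsmul]; exact hx, ?_⟩
  show Xfer.pic0PullbackAlong _ _ _ x = _
  rw [hpull, nmH_apply]
  rw [← Finset.sum_filter]
  have h3 : ∀ u : (ZMod N)ˣ, u ∈ Finset.univ.filter (fun u : (ZMod N)ˣ => ψ u = 1) ↔ u ∈ ψ.ker :=
    fun u => by rw [Finset.mem_filter, MonoidHom.mem_ker]; simp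
  rw [Finset.sum_subtype (Finset.univ.filter (fun u : (ZMod N)ˣ => ψ u = 1)) h3
    (fun u => diaSA u • y)]
  refine Finset.sum_congr rfl fun g _ => ?_
  rfl

end Generic

/-! ### the words on `J_1(M q)` -/

section Main

open Fermat.Agent.S43lib.LGC.KCM

variable {M q : ℕ} [NeZero M] [NeZero q] [hq : Fact q.Prime]

set_option maxHeartbeats 2000000 in
/-- **The words of LGC-C on `Nm_H J_1(M q)[n]`**, `H = ker ψ`: for `t t'` in the inertia group of
`A ∣ q`, `γ` in the inertia group or a diamond, `y ∈ J_1(M q)[n]` and `z = Nm_H y`: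
`(γ - 1)(t' - 1)(t - ⟨cyc t⟩) z = 0` and `(γ - 1)(t - ⟨cyc t⟩)(t' - 1) z = 0`. -/
def LGCTors₁ (M q : ℕ) [NeZero M] [NeZero q] [Fact q.Prime] (ψ : MulChar (ZMod q) Qb)
    (A : ValuationSubring (AlgebraicClosure ℚ)) (n : ℕ) : Prop :=
  ∀ t ∈ A.inertiaSubgroupIn ℚ, ∀ t' ∈ A.inertiaSubgroupIn ℚ,
    ∀ γ : SemilinearAut Qb ↥(laurentBaseChange Qb (F1 (M * q))),
      ((∃ t'' ∈ A.inertiaSubgroupIn ℚ, γ = arithmeticGalois (F1 (M * q)) t'') ∨
        ∃ d' : (ZMod (M * q))ˣ, γ = diaSA d') →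
    ∀ y : Pic0 Qb ↥(laurentBaseChange Qb (F1 (M * q))), n • y = 0 →
      γ • (arithmeticGalois (F1 (M * q)) t' • (arithmeticGalois (F1 (M * q)) t • nmH (psiU M q ψ) y -
            diaSA (cycU (M * q) t) • nmH (psiU M q ψ) y) -
          (arithmeticGalois (F1 (M * q)) t • nmH (psiU M q ψ) y -
            diaSA (cycU (M * q) t) • nmH (psiU M q ψ) y)) =
        arithmeticGalois (F1 (M * q)) t' • (arithmeticGalois (F1 (M * q)) t • nmH (psiU M q ψ) y -
            diaSA (cycU (M * q) t) • nmH (psiU M q ψ) y) -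
          (arithmeticGalois (F1 (M * q)) t • nmH (psiU M q ψ) y -
            diaSA (cycU (M * q) t) • nmH (psiU M q ψ) y) ∧
      γ • (arithmeticGalois (F1 (M * q)) t •
            (arithmeticGalois (F1 (M * q)) t' • nmH (psiU M q ψ) y - nmH (psiU M q ψ) y) -
          diaSA (cycU (M * q) t) •
            (arithmeticGalois (F1 (M * q)) t' • nmH (psiU M q ψ) y - nmH (psiU M q ψ) y)) =
        arithmeticGalois (F1 (M * q)) t •
            (arithmeticGalois (F1 (M * q)) t' • nmH (psiU M q ψ) y - nmH (psiU M q ψ) y) -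
          diaSA (cycU (M * q) t) •
            (arithmeticGalois (F1 (M * q)) t' • nmH (psiU M q ψ) y - nmH (psiU M q ψ) y)

theorem diaS_eq_diaSH (ψ : (ZMod (M * q))ˣ →* Qbˣ) (hN : 1 < M * q) (v : (ZMod (M * q))ˣ) :
    diaS ψ hN v = diaSH ψ hN v := rfl

/-- **LGC-D, step 1**: the words on `Pic⁰(F_H)[n]` give the words on `Nm_H J_1(M q)[n]`. -/
theorem lgcTors₁_of_lgcTors {ψ : MulChar (ZMod q) Qb} {A : ValuationSubring (AlgebraicClosure ℚ)}
    [HasPrincipalDivisors (AlgebraicClosure ℚ) (FBH (psiU M q ψ))] {n : ℕ} (hn : n ≠ 0)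
    (hL : LGCTors M q ψ A n) : LGCTors₁ M q ψ A n := by
  intro t ht t' ht' γ hγ y hy
  obtain ⟨x, hx, hpull⟩ := exists_pullH_eq_nmH (psiU M q ψ) (one_lt_level M q) hn y hy
  have key : ∀ γH : SemilinearAut Qb (FBH (psiU M q ψ)),
      ((∃ t'' ∈ A.inertiaSubgroupIn ℚ, γH = galH (psiU M q ψ) t'') ∨
        ∃ d' : (ZMod (M * q))ˣ, γH = diaS (psiU M q ψ) (one_lt_level M q) d') →
      (∀ w : Pic0 Qb (FBH (psiU M q ψ)), pullH (psiU M q ψ) (one_lt_level M q) (γH • w) =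
        γ • pullH (psiU M q ψ) (one_lt_level M q) w) → _ := fun γH hγH hcompat => by
    obtain ⟨E1, E2⟩ := hL t ht t' ht' γH hγH x hx
    have F1 := congrArg (pullH (psiU M q ψ) (one_lt_level M q)) E1
    have F2 := congrArg (pullH (psiU M q ψ) (one_lt_level M q)) E2
    simp only [hcompat, map_sub, pullH_gal, diaS_eq_diaSH, pullH_dia, hpull] at F1 F2
    exact And.intro F1 F2
  rcases hγ with ⟨t'', ht'', rfl⟩ | ⟨d', rfl⟩
  · exact key (galH (psiU M q ψ) t'') (Or.inl ⟨t'', ht'', rfl⟩)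
      (fun w => pullH_gal (psiU M q ψ) (one_lt_level M q) t'' w)
  · exact key (diaS (psiU M q ψ) (one_lt_level M q) d') (Or.inr ⟨d', rfl⟩)
      (fun w => by rw [diaS_eq_diaSH]; exact pullH_dia (psiU M q ψ) (one_lt_level M q) d' w)

/-! ### the same words in `End (J_1(M q)[n])` (the vocabulary of `S48lib/X1/Gal/Producer`) -/

open Classical in
/-- `Nm_H = ∑_{u ∈ ker ψ} ⟨u⟩` on `J_1(N)[n]` -/
def nmEnd {N : ℕ} [NeZero N] (ψ : (ZMod N)ˣ →* Qbˣ) (n : ℕ) :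
    Module.End (ZMod n) (Pic0.torsion Qb ↥(laurentBaseChange Qb (F1 N)) n) :=
  ∑ u : (ZMod N)ˣ, if ψ u = 1 then diamEnd n u else 0

theorem coe_nmEnd {N : ℕ} [NeZero N] (ψ : (ZMod N)ˣ →* Qbˣ) (n : ℕ)
    (x : Pic0.torsion Qb ↥(laurentBaseChange Qb (F1 N)) n) :
    ((nmEnd ψ n x : Pic0.torsion Qb ↥(laurentBaseChange Qb (F1 N)) n) : J1 N) =
      nmH ψ (x : J1 N) := by
  classical
  unfold nmEnd nmH
  rw [LinearMap.sum_apply, AddSubgroup.val_finsetSum, AddMonoidHom.finsetSum_apply]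
  refine Finset.sum_congr rfl fun u _ => ?_
  split_ifs
  · rfl
  · rfl

theorem coe_diamEnd {N : ℕ} [NeZero N] (n : ℕ) (d : (ZMod N)ˣ)
    (x : Pic0.torsion Qb ↥(laurentBaseChange Qb (F1 N)) n) :
    ((diamEnd n d x : Pic0.torsion Qb ↥(laurentBaseChange Qb (F1 N)) n) : J1 N) =
      diaSA d • (x : J1 N) :=
  diamJ_eq d (x : J1 N)

theorem coe_rho1' {N : ℕ} [NeZero N] (n : ℕ) (σ : Qb ≃ₐ[ℚ] Qb)
    (x : Pic0.torsion Qb ↥(laurentBaseChange Qb (F1 N)) n) :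
    ((rho1 N n σ x : Pic0.torsion Qb ↥(laurentBaseChange Qb (F1 N)) n) : J1 N) =
      arithmeticGalois (F1 N) σ • (x : J1 N) := rfl

/-- words in an endomorphism ring, elementwise -/
theorem end_word_eq_zero {R V : Type*} [Ring R] [AddCommGroup V] [Module R V]
    (γ a b d c : Module.End R V)
    (h : ∀ x : V, γ (a (b (c x) - d (c x)) - (b (c x) - d (c x))) =
      a (b (c x) - d (c x)) - (b (c x) - d (c x))) :
    (γ - 1) * (a - 1) * (b - d) * c = 0 := by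
  apply LinearMap.ext
  intro x
  simp only [Module.End.mul_apply, LinearMap.sub_apply, Module.End.one_apply,
    LinearMap.zero_apply]
  rw [sub_eq_zero]
  exact h x

theorem end_word_eq_zero' {R V : Type*} [Ring R] [AddCommGroup V] [Module R V]
    (γ a b d c : Module.End R V)
    (h : ∀ x : V, γ (b (a (c x) - c x) - d (a (c x) - c x)) =
      b (a (c x) - c x) - d (a (c x) - c x)) :
    (γ - 1) * (b - d) * (a - 1) * c = 0 := by
  apply LinearMap.ext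
  intro x
  simp only [Module.End.mul_apply, LinearMap.sub_apply, Module.End.one_apply,
    LinearMap.zero_apply]
  rw [sub_eq_zero]
  exact h x

set_option maxHeartbeats 4000000 in
/-- **LGC-D, step 1, operator form**: in `End (J_1(M q)[n])`, with `ρ = rho1`, `⟨d⟩ = diamEnd`,
`Nm = nmEnd`: `(γ - 1)(ρ t' - 1)(ρ t - ⟨cyc t⟩) Nm = 0 = (γ - 1)(ρ t - ⟨cyc t⟩)(ρ t' - 1) Nm`
for `t t'` in the inertia group of `A ∣ q` and `γ = ρ t''` (`t''` in the inertia group) or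
`γ = ⟨d'⟩`. -/
theorem lgcTors₁_end {ψ : MulChar (ZMod q) Qb} {A : ValuationSubring (AlgebraicClosure ℚ)} {n : ℕ}
    (hL : LGCTors₁ M q ψ A n) {t t' : Qb ≃ₐ[ℚ] Qb} (ht : t ∈ A.inertiaSubgroupIn ℚ)
    (ht' : t' ∈ A.inertiaSubgroupIn ℚ)
    (γ : Module.End (ZMod n) (Pic0.torsion Qb ↥(laurentBaseChange Qb (F1 (M * q))) n))
    (hγ : (∃ t'' ∈ A.inertiaSubgroupIn ℚ, γ = rho1 (M * q) n t'') ∨
      ∃ d' : (ZMod (M * q))ˣ, γ = diamEnd n d') :
    (γ - 1) * (rho1 (M * q) n t' - 1) * (rho1 (M * q) n t - diamEnd n (cycU (M * q) t)) *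
        nmEnd (psiU M q ψ) n = 0 ∧
      (γ - 1) * (rho1 (M * q) n t - diamEnd n (cycU (M * q) t)) * (rho1 (M * q) n t' - 1) *
        nmEnd (psiU M q ψ) n = 0 := by
  have hx : ∀ x : Pic0.torsion Qb ↥(laurentBaseChange Qb (F1 (M * q))) n,
      n • (x : J1 (M * q)) = 0 := fun x => by
    have := Pic0.mem_torsion.1 x.2
    rwa [natCast_zsmul] at this
  obtain ⟨γS, hγS, hγx⟩ : ∃ γS : SemilinearAut Qb ↥(laurentBaseChange Qb (F1 (M * q))),
      ((∃ t'' ∈ A.inertiaSubgroupIn ℚ, γS = arithmeticGalois (F1 (M * q)) t'') ∨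
        ∃ d' : (ZMod (M * q))ˣ, γS = diaSA d') ∧
      ∀ x : Pic0.torsion Qb ↥(laurentBaseChange Qb (F1 (M * q))) n,
        ((γ x : Pic0.torsion Qb ↥(laurentBaseChange Qb (F1 (M * q))) n) : J1 (M * q)) =
          γS • (x : J1 (M * q)) := by
    rcases hγ with ⟨t'', ht'', rfl⟩ | ⟨d', rfl⟩
    · exact ⟨_, Or.inl ⟨t'', ht'', rfl⟩, fun x => rfl⟩
    · exact ⟨_, Or.inr ⟨d', rfl⟩, fun x => coe_diamEnd n d' x⟩
  constructor
  · apply end_word_eq_zero
    intro x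
    obtain ⟨E1, -⟩ := hL t ht t' ht' γS hγS (x : J1 (M * q)) (hx x)
    apply Subtype.ext
    rw [hγx, AddSubgroup.coe_sub, AddSubgroup.coe_sub, coe_rho1', AddSubgroup.coe_sub, coe_rho1',
      coe_diamEnd, coe_nmEnd]
    exact E1
  · apply end_word_eq_zero'
    intro x
    obtain ⟨-, E2⟩ := hL t ht t' ht' γS hγS (x : J1 (M * q)) (hx x)
    apply Subtype.ext
    rw [hγx, AddSubgroup.coe_sub, coe_rho1', coe_diamEnd, AddSubgroup.coe_sub,
      coe_rho1', coe_nmEnd]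
    exact E2

end Main

end Fermat.Agent.S43lib.LGC.D
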