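/-
Project H (S43) / LGC / D / KGDWords   (helper9)

**LGC-D, brick (A), final form**: the words of LGC on the Kummer--Galois data of `J_1(M q)[p^k]`.

`N = M q`, `q ≥ 5` prime, `q ∤ M`, `4 ∣ N` or `9 ∣ N`; `ψ` an even character of `(ℤ/q)ˣ` of exact
order `p^t` (`p ≥ 5`, `p ≠ q`); `A` a valuation subring of `ℚ̄` over `q`; `D = kgd (p^k) h49 hN`
(`D.ρ = rho1 N (p^k)`, `D.diam = diamEnd (p^k)`), `Nm = ∑_{u, ψ u = 1} D.diam u`.  For `τ τ' τ''` in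
the inertia group of `A` (and for `γ` a diamond in place of `D.ρ τ''`):

`(D.ρ τ'' - 1)(D.ρ τ' - 1)(D.ρ τ - D.diam (cyc τ)) Nm = 0`,
`(D.ρ τ'' - 1)(D.ρ τ - D.diam (cyc τ))(D.ρ τ' - 1) Nm = 0`.
-/
import Mathlib
import Fermat.Agent.S43lib.LGC.D.ToJ1
import Fermat.Agent.S43lib.LGC.D.KGD
import Fermat.Agent.S43lib.LGC.KCM.ExistsPsi

set_option autoImplicit false
set_option linter.unusedSectionVars false
set_option linter.style.haveILetI false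

noncomputable section

namespace Fermat.Agent.S43lib.LGC.D

open AlgebraicCurve ModularCurve
open Fermat.Agent.S48lib.X1 Fermat.Agent.S48lib.X1.Wp Fermat.Agent.S48lib.X1.Gal
open Fermat.Agent.S43lib.Igusa Fermat.Agent.S43lib.LGC.KCM
open scoped MatrixGroups

local notation "Qb" => AlgebraicClosure ℚ
local notation "GQ" => (AlgebraicClosure ℚ ≃ₐ[ℚ] AlgebraicClosure ℚ)

variable {M q : ℕ} [NeZero M] [NeZero q] [hq : Fact q.Prime]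
variable {A : ValuationSubring (AlgebraicClosure ℚ)}

open Classical in
/-- `Nm_H = ∑_{u ∈ ker ψ} ⟨u⟩` in the vocabulary of a `KummerGalData` -/
def kgdNm {Γ : Subgroup SL(2, ℤ)} {N n : ℕ} [NeZero N] (D : KummerGalData Γ N n) (ψ : (ZMod N)ˣ →* Qbˣ) :
    Module.End (ZMod n) D.V :=
  ∑ u : (ZMod N)ˣ, if ψ u = 1 then D.diam u else 0

theorem kgdNm_kgd {N : ℕ} [NeZero N] (n : ℕ) [NeZero n] (h49 : 4 ∣ N ∨ 9 ∣ N) (hN : 4 ≤ N)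
    (ψ : (ZMod N)ˣ →* Qbˣ) : kgdNm (kgd n h49 hN) ψ = nmEnd ψ n := rfl

set_option maxHeartbeats 4000000 in
/-- **the words on the Kummer--Galois data of `J_1(M q)[n]`** from `LGCTors₁`. -/
theorem kgd_words_of_lgcTors₁ {ψ : MulChar (ZMod q) Qb} {n : ℕ} [NeZero n]
    (h49 : 4 ∣ M * q ∨ 9 ∣ M * q) (hN : 4 ≤ M * q) (hL : LGCTors₁ M q ψ A n)
    {τ τ' : GQ} (hτ : τ ∈ A.inertiaSubgroupIn ℚ) (hτ' : τ' ∈ A.inertiaSubgroupIn ℚ)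
    (γ : Module.End (ZMod n) (kgd n h49 hN).V)
    (hγ : (∃ τ'' ∈ A.inertiaSubgroupIn ℚ, γ = (kgd n h49 hN).ρ τ'') ∨
      ∃ d' : (ZMod (M * q))ˣ, γ = (kgd n h49 hN).diam d') :
    (γ - 1) * ((kgd n h49 hN).ρ τ' - 1) *
        ((kgd n h49 hN).ρ τ - (kgd n h49 hN).diam (cycU (M * q) τ)) *
        kgdNm (kgd n h49 hN) (psiU M q ψ) = 0 ∧
      (γ - 1) * ((kgd n h49 hN).ρ τ - (kgd n h49 hN).diam (cycU (M * q) τ)) *
        ((kgd n h49 hN).ρ τ' - 1) * kgdNm (kgd n h49 hN) (psiU M q ψ) = 0 :=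
  lgcTors₁_end hL hτ hτ' γ hγ

set_option maxHeartbeats 4000000 in
/-- **LGC-D (A)**: the words on the Kummer--Galois data of `J_1(M q)[p^k]`, unconditionally. -/
theorem kgd_words {ψ : MulChar (ZMod q) Qb} {p t : ℕ} [NeZero p] (h5 : 5 ≤ q) (hqM : ¬ q ∣ M)
    (hA : A.LiesOverPrime q) (hp : p.Prime) (hp5 : 5 ≤ p) (hpq : p ≠ q) (ht : t ≠ 0)
    (H : IsOrd ψ (p ^ t)) (hψ : ψ ≠ 1) (heven : ψ (-1) = 1)
    (h49 : 4 ∣ M * q ∨ 9 ∣ M * q) (hN : 4 ≤ M * q) (k : ℕ)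
    {τ τ' : GQ} (hτ : τ ∈ A.inertiaSubgroupIn ℚ) (hτ' : τ' ∈ A.inertiaSubgroupIn ℚ)
    (γ : Module.End (ZMod (p ^ k)) (kgd (p ^ k) h49 hN).V)
    (hγ : (∃ τ'' ∈ A.inertiaSubgroupIn ℚ, γ = (kgd (p ^ k) h49 hN).ρ τ'') ∨
      ∃ d' : (ZMod (M * q))ˣ, γ = (kgd (p ^ k) h49 hN).diam d') :
    (γ - 1) * ((kgd (p ^ k) h49 hN).ρ τ' - 1) *
        ((kgd (p ^ k) h49 hN).ρ τ - (kgd (p ^ k) h49 hN).diam (cycU (M * q) τ)) *
        kgdNm (kgd (p ^ k) h49 hN) (psiU M q ψ) = 0 ∧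
      (γ - 1) * ((kgd (p ^ k) h49 hN).ρ τ - (kgd (p ^ k) h49 hN).diam (cycU (M * q) τ)) *
        ((kgd (p ^ k) h49 hN).ρ τ' - 1) * kgdNm (kgd (p ^ k) h49 hN) (psiU M q ψ) = 0 := by
  obtain ⟨hPD, hL⟩ := lgcTors_pow (M := M) (A := A) h5 hqM hA hp hp5 hpq ht H hψ heven k
  haveI := hPD
  exact kgd_words_of_lgcTors₁ h49 hN (lgcTors₁_of_lgcTors (NeZero.ne (p ^ k)) hL) hτ hτ' γ hγ

end Fermat.Agent.S43lib.LGC.D
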