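/-
Project H (S43) / LGC / D / WordsVKgd   (helper9)

**LGC-D, brick (A), in the shape consumed by `LGC/D/Main` (helper8)**: the hypothesis
`hw k : WordsV (D k) I (cycU N) H` for `D k = kgd (p^k) h49 hN` (the Kummer--Galois data of
`J_1(N)[p^k]`, `N = M q`), `I` the inertia group of a place over `q` and
`H = {u ∈ (ℤ/N)ˣ | κ (u mod q) = 1}`, `κ` ANY character of `(ℤ/q)ˣ` of exact order `p^t`, `t ≠ 0`
(values in any commutative group, e.g. the units of the `p`-adic coefficient ring).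
-/
import Mathlib
import Fermat.Agent.S43lib.LGC.D.KGDWords
import Fermat.Agent.S43lib.LGC.D.TransferLvl

set_option autoImplicit false
set_option linter.unusedSectionVars false
set_option linter.style.haveILetI false

noncomputable section

namespace Fermat.Agent.S43lib.LGC.D

open AlgebraicCurve ModularCurve
open Fermat.Agent.S48lib.X1 Fermat.Agent.S48lib.X1.Wp Fermat.Agent.S48lib.X1.Gal
open Fermat.Agent.S43lib.Igusa Fermat.Agent.S43lib.LGC.KCM
open scoped MatrixGroups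

local notation "Qb" => AlgebraicClosure ℚ
local notation "GQ" => (AlgebraicClosure ℚ ≃ₐ[ℚ] AlgebraicClosure ℚ)

variable {M q : ℕ} [NeZero M] [NeZero q] [hq : Fact q.Prime]
variable {A : ValuationSubring (AlgebraicClosure ℚ)}

open Classical in
/-- the kernel of a character of `(ℤ/N)ˣ`, as a finite set -/
def kerFin {N : ℕ} [NeZero N] {C : Type*} [Monoid C] (χ : (ZMod N)ˣ →* C) : Finset (ZMod N)ˣ :=
  Finset.univ.filter fun u => χ u = 1

theorem mem_kerFin {N : ℕ} [NeZero N] {C : Type*} [Monoid C] (χ : (ZMod N)ˣ →* C)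
    (u : (ZMod N)ˣ) : u ∈ kerFin χ ↔ χ u = 1 := by
  classical
  unfold kerFin
  rw [Finset.mem_filter]
  exact ⟨fun h => h.2, fun h => ⟨Finset.mem_univ _, h⟩⟩

theorem kerFin_nonempty {N : ℕ} [NeZero N] {C : Type*} [Monoid C] (χ : (ZMod N)ˣ →* C) :
    (kerFin χ).Nonempty := ⟨1, (mem_kerFin χ 1).mpr (map_one χ)⟩

theorem kerFin_congr {N : ℕ} [NeZero N] {C C' : Type*} [Monoid C] [Monoid C']
    (χ : (ZMod N)ˣ →* C) (χ' : (ZMod N)ˣ →* C') (h : ∀ u, χ u = 1 ↔ χ' u = 1) :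
    kerFin χ = kerFin χ' := by
  ext u
  rw [mem_kerFin, mem_kerFin, h]

/-- the norm element of a `KummerGalData` is the sum over `kerFin` -/
theorem kgdNm_apply {Γ : Subgroup SL(2, ℤ)} {N n : ℕ} [NeZero N] (D : KummerGalData Γ N n)
    (ψ : (ZMod N)ˣ →* Qbˣ) (y : D.V) : kgdNm D ψ y = ∑ h ∈ kerFin ψ, D.diam h y := by
  classical
  unfold kgdNm kerFin
  rw [Finset.sum_filter, LinearMap.sum_apply]
  refine Finset.sum_congr rfl fun u _ => ?_
  split_ifs
  · rfl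
  · rfl

set_option maxHeartbeats 4000000 in
/-- **`WordsV` for `kgd`**, `H = ker (ψ ∘ mod q)`, `ψ : MulChar (ZMod q) ℚ̄` of exact order `p^t`. -/
theorem wordsV_kgd_psi {ψ : MulChar (ZMod q) Qb} {p t : ℕ} [NeZero p] (h5 : 5 ≤ q) (hqM : ¬ q ∣ M)
    (hA : A.LiesOverPrime q) (hp : p.Prime) (hp5 : 5 ≤ p) (hpq : p ≠ q) (ht : t ≠ 0)
    (H : IsOrd ψ (p ^ t)) (hψ : ψ ≠ 1) (heven : ψ (-1) = 1)
    (h49 : 4 ∣ M * q ∨ 9 ∣ M * q) (hN : 4 ≤ M * q) (k : ℕ) :
    WordsV (kgd (p ^ k) h49 hN) (A.inertiaSubgroupIn ℚ : Set GQ) (cycU (M * q))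
      (kerFin (psiU M q ψ)) := by
  intro τ hτ τ' hτ' τ'' hτ'' y
  obtain ⟨h1, h2⟩ := kgd_words (M := M) (A := A) h5 hqM hA hp hp5 hpq ht H hψ heven h49 hN k
    hτ hτ' ((kgd (p ^ k) h49 hN).ρ τ'') (Or.inl ⟨τ'', hτ'', rfl⟩)
  rw [← kgdNm_apply]
  constructor
  · have := congrArg (fun f : Module.End (ZMod (p ^ k)) (kgd (p ^ k) h49 hN).V => f y) h1
    simpa only [wordA, Module.End.mul_apply, LinearMap.zero_apply, mul_assoc] using this
  · have := congrArg (fun f : Module.End (ZMod (p ^ k)) (kgd (p ^ k) h49 hN).V => f y) h2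
    simpa only [wordB, Module.End.mul_apply, LinearMap.zero_apply, mul_assoc] using this

/-- the character `κ ∘ (mod q)` of `(ℤ/Mq)ˣ` -/
def kappaU {C : Type*} [CommGroup C] (κ : (ZMod q)ˣ →* C) : (ZMod (M * q))ˣ →* C :=
  κ.comp (ZMod.unitsMap (dvd_level M q))

theorem kappaU_apply {C : Type*} [CommGroup C] (κ : (ZMod q)ˣ →* C) (u : (ZMod (M * q))ˣ) :
    kappaU (M := M) κ u = κ (ZMod.unitsMap (dvd_level M q) u) := rfl

set_option maxHeartbeats 4000000 in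
/-- **LGC-D (A), final**: `WordsV` for `kgd` and `H = ker (κ ∘ mod q)`, `κ` any character of
`(ℤ/q)ˣ` of exact order `p^t`, `t ≠ 0`. -/
theorem wordsV_kgd_kappa {C : Type*} [CommGroup C] (κ : (ZMod q)ˣ →* C) {p t : ℕ} [NeZero p]
    (h5 : 5 ≤ q) (hqM : ¬ q ∣ M) (hA : A.LiesOverPrime q) (hp : p.Prime) (hp5 : 5 ≤ p)
    (hpq : p ≠ q) (ht : t ≠ 0) (hκ : ∀ a, κ a ^ (p ^ t) = 1) (hprim : ∃ a, orderOf (κ a) = p ^ t)
    (h49 : 4 ∣ M * q ∨ 9 ∣ M * q) (hN : 4 ≤ M * q) (k : ℕ) :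
    WordsV (kgd (p ^ k) h49 hN) (A.inertiaSubgroupIn ℚ : Set GQ) (cycU (M * q))
      (kerFin (kappaU (M := M) κ)) := by
  obtain ⟨ψ, H, hker⟩ := exists_isOrd_of_orderOf κ (pow_pos hp.pos t) hκ hprim
  have h1 : 1 < p ^ t := Nat.one_lt_pow ht hp.one_lt
  have hψ : ψ ≠ 1 := H.ne_one h1
  have hodd : Odd (p ^ t) := by
    apply Odd.pow
    rcases hp.eq_two_or_odd' with h | h
    · omega
    · exact h
  have heven : ψ (-1) = 1 := even_of_isOrd_odd H hodd
  have hH : kerFin (kappaU (M := M) κ) = kerFin (psiU M q ψ) := by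
    apply kerFin_congr
    intro u
    rw [kappaU_apply, ← hker, ← Units.val_eq_one]
    rfl
  rw [hH]
  exact wordsV_kgd_psi h5 hqM hA hp hp5 hpq ht H hψ heven h49 hN k

end Fermat.Agent.S43lib.LGC.D
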