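/-
S43lib / LGC / D / KGDMain  (helper8)  — Project H, block LGC-D.

`trace_inertia_of_words` (`Main.lean`) on helper9's concrete data: `D k = kgd (p^k) h49 hN`
(`J₁(M q)[p^k]`, `KGD.lean`), the words discharged by helper9's `wordsV_kgd_kappa` (`WordsVKgd.lean`, i.e.
`lgcTors`), `H = kerFin (kappaU χq)`.

**`trace_inertia_kgd`**: level `M q`, `q ≥ 5` prime, `q ∤ M`, `4 ∣ M q` or `9 ∣ M q`; `p ≥ 5`, `p ≠ q`;
`χq ≠ 1` a character of `(ℤ/q)ˣ` of `p`-power order with square root `ηq`; `φ : Γ₁^±(M q) → Frac 𝒪`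
nonzero, parabolic, `cTFun`-eigen with `b ℓ = ηq(ℓ) τ ℓ`, `cdFun`-eigen with `χq ∘ (mod q)`;
`ρ` with `charpoly ρ(Frob_ℓ) = X² - τ ℓ X + ℓ` and full span.  Then for `t` in an inertia group at `q`
acting on `μ_q` through `c`:  `tr ρ(t) = ηq c + (ηq c)⁻¹`.
-/
import Mathlib
import Fermat.Agent.S43lib.LGC.D.Main
import Fermat.Agent.S43lib.LGC.D.WordsVKgd

set_option autoImplicit false
set_option linter.unusedSectionVars false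
set_option linter.unusedVariables false
set_option linter.style.haveILetI false

noncomputable section

namespace Fermat.Agent.S43lib.LGC.D

open Matrix Polynomial IsLocalRing Fermat.Agent.S48lib.X1.Gal Fermat.Agent.S48lib.X1.Wp
  Fermat.Agent.S43lib.B0.EndBlock
  Fermat.Agent.S16lib.LG Fermat.Agent.S43lib.Igusa Fermat.Agent.S43lib.LGC.KCM
open scoped MatrixGroups

local notation "Qb" => AlgebraicClosure ℚ
local notation "GQ" => (AlgebraicClosure ℚ ≃ₐ[ℚ] AlgebraicClosure ℚ)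

section Char

variable {q : ℕ} [NeZero q] [hq : Fact q.Prime]

/-- a nontrivial character of `(ℤ/q)ˣ` killed by `p^s` has exact order `p^t`, `t ≠ 0`, attained
on a generator -/
theorem exists_exact_order {C : Type*} [CommGroup C] (κ : (ZMod q)ˣ →* C) {p s : ℕ} (hp : p.Prime)
    (hκ1 : κ ≠ 1) (hpow : ∀ a, κ a ^ p ^ s = 1) :
    ∃ t : ℕ, t ≠ 0 ∧ (∀ a, κ a ^ p ^ t = 1) ∧ ∃ a, orderOf (κ a) = p ^ t := by
  obtain ⟨g, hg⟩ := IsCyclic.exists_generator (α := (ZMod q)ˣ)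
  have hdvd : orderOf (κ g) ∣ p ^ s := orderOf_dvd_of_pow_eq_one (hpow g)
  obtain ⟨t, _, ht⟩ := (Nat.dvd_prime_pow hp).1 hdvd
  refine ⟨t, ?_, ?_, ⟨g, ht⟩⟩
  · rintro rfl
    rw [pow_zero, orderOf_eq_one_iff] at ht
    apply hκ1
    ext a
    obtain ⟨m, rfl⟩ := Subgroup.mem_zpowers_iff.mp (hg a)
    rw [map_zpow, ht, _root_.one_zpow, MonoidHom.one_apply]
  · intro a
    obtain ⟨m, rfl⟩ := Subgroup.mem_zpowers_iff.mp (hg a)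
    rw [map_zpow, ← zpow_natCast, ← _root_.zpow_mul, mul_comm, _root_.zpow_mul, zpow_natCast,
      ← ht, pow_orderOf_eq_one, _root_.one_zpow]

end Char

section Main

variable {𝒪 : Type} [CommRing 𝒪] [IsDomain 𝒪] [IsDiscreteValuationRing 𝒪] [CharZero 𝒪]
  [IsAdicComplete (maximalIdeal 𝒪) 𝒪]
variable {K : Type*} [Field K] [Algebra 𝒪 K] [IsFractionRing 𝒪 K]
variable {M q : ℕ} [NeZero M] [NeZero q] [hq : Fact q.Prime]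

/-- **LGC-D on helper9's concrete data.** -/
theorem trace_inertia_kgd {p : ℕ} [hpf : Fact p.Prime] (hp5 : 5 ≤ p)
    (hp𝒪 : (p : 𝒪) ∈ maximalIdeal 𝒪) (h5 : 5 ≤ q) (hqM : ¬ q ∣ M) (hpq : p ≠ q)
    (h49 : 4 ∣ M * q ∨ 9 ∣ M * q) (hN : 4 ≤ M * q)
    (S₀ : Finset ℕ) (hS₀ : ∀ ℓ : ℕ, ℓ.Prime → ℓ ∉ S₀ → ¬ ℓ ∣ M * q ∧ ℓ ≠ p)
    (ρ : GaloisRepAdic 𝒪) (hspan : Submodule.span 𝒪 (Set.range ρ.ρ) = ⊤) (τ : ℕ → 𝒪)
    (hρ : ∀ ℓ : ℕ, ℓ.Prime → ℓ ∉ S₀ → ∀ A : ValuationSubring Qb, A.LiesOverPrime ℓ →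
      ∀ φ : GQ, A.IsFrobeniusAt φ ℓ →
        LinearMap.charpoly (ρ.ρ φ) = X ^ 2 - C (τ ℓ) * X + C (ℓ : 𝒪))
    (χq ηq : (ZMod q)ˣ →* 𝒪ˣ) (hη : ∀ d, ηq d * ηq d = χq d) (hχ1 : χq ≠ 1) {s : ℕ}
    (hχpow : ∀ d, χq d ^ p ^ s = 1)
    (b : ℕ → 𝒪)
    (hb : ∀ ℓ : ℕ, ℓ.Prime → ℓ ∉ S₀ → ∀ d : (ZMod q)ˣ, (d : ZMod q) = (ℓ : ZMod q) →
      b ℓ = ((ηq d : 𝒪ˣ) : 𝒪) * τ ℓ)
    (φ : Additive (pmGamma1 (M * q)) →+ K) (hφ : φ ≠ 0)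
    (hpar : ∀ γ : pmGamma1 (M * q), IsParTor (γ : SL(2, ℤ)) → φ (Additive.ofMul γ) = 0)
    (hT : ∀ ℓ : ℕ, ℓ.Prime → ℓ ∉ S₀ → ∀ γ : pmGamma1 (M * q),
      ∑ i, φ (Additive.ofMul (cTFun ℓ γ i)) = algebraMap 𝒪 K (b ℓ) * φ (Additive.ofMul γ))
    (hd : ∀ (d : (ZMod (M * q))ˣ) (γ : pmGamma1 (M * q)),
      φ (Additive.ofMul (cdFun d γ)) =
        algebraMap 𝒪 K ((χq (ZMod.unitsMap (dvd_level M q) d) : 𝒪ˣ) : 𝒪) * φ (Additive.ofMul γ))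
    {A : ValuationSubring Qb} (hA : A.LiesOverPrime q) {t : GQ} (ht : t ∈ A.inertiaSubgroupIn ℚ)
    (c : (ZMod q)ˣ) (hc : ∀ μ : Qb, μ ^ q = 1 → t μ = μ ^ (c : ZMod q).val) :
    ρ.trace t = ((ηq c : 𝒪ˣ) : 𝒪) + (((ηq c)⁻¹ : 𝒪ˣ) : 𝒪) := by
  classical
  have hp : p.Prime := hpf.out
  haveI : NeZero p := ⟨hp.ne_zero⟩
  have hp2 : p ≠ 2 := by omega
  -- the exact order of `χq`
  obtain ⟨e, he0, hpow, hprim⟩ := exists_exact_order χq hp hχ1 hχpow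
  -- the characters of level `M q`
  set χ : (ZMod (M * q))ˣ →* 𝒪ˣ := kappaU (M := M) χq with hχ
  set ηc : (ZMod (M * q))ˣ →* 𝒪ˣ := kappaU (M := M) ηq with hηc
  have hη' : ∀ d, ηc d * ηc d = χ d := fun d => hη _
  have hb' : ∀ ℓ : ℕ, ℓ.Prime → ℓ ∉ S₀ → ∀ d : (ZMod (M * q))ˣ,
      (d : ZMod (M * q)) = (ℓ : ZMod (M * q)) → b ℓ = ((ηc d : 𝒪ˣ) : 𝒪) * τ ℓ := by
    intro ℓ hℓ hℓS d hd
    refine hb ℓ hℓ hℓS _ ?_
    rw [ZMod.unitsMap_def, Units.coe_map]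
    show ZMod.castHom (dvd_level M q) (ZMod q) (d : ZMod (M * q)) = _
    rw [hd, map_natCast]
  -- the set `H`
  set H : Finset (ZMod (M * q))ˣ := kerFin χ with hH
  have hHne : H.Nonempty := kerFin_nonempty χ
  have hHχ : ∀ h ∈ H, χ h = 1 := fun h hh => (mem_kerFin χ h).1 hh
  have hw : ∀ k : ℕ, WordsV (kgd (p ^ k) h49 hN) (A.inertiaSubgroupIn ℚ : Set GQ)
      (cycU (M * q)) H := fun k =>
    wordsV_kgd_kappa χq h5 hqM hA hp hp5 hpq he0 hpow hprim h49 hN k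
  have hfg : Group.FG (pmGamma1 (M * q)) :=
    Fermat.Agent.S48lib.X1.Forms.groupFG_of_finiteIndex (pmGamma1 (M * q))
  have key := trace_inertia_of_words (K := K) hp2 hp𝒪 hfg (fun k => kgd (p ^ k) h49 hN) S₀ hS₀ ρ
    hspan τ hρ χ ηc hη' b hb' φ hφ hpar (fun k ℓ hℓ hℓS γ => hT ℓ hℓ hℓS γ)
    (fun k d γ => hd d γ) hq.out hpq.symm hA H hHne hHχ hw ht
  have hcyc : ZMod.unitsMap (dvd_level M q) (cycU (M * q) t) = c :=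
    unitsMap_cycU_eq (M * q) (dvd_level M q) t c hc
  have hηt : ηc (cycU (M * q) t) = ηq c := by
    rw [hηc, kappaU_apply, hcyc]
  rw [key, hηt]

end Main

end Fermat.Agent.S43lib.LGC.D
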