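/-
S43lib / LGC / D / FinalAux  (helper8)  — Project H, block LGC-D.

Small lemmas for the final assembly:
* `exists_pow_prime_pow_eq_one` : a residually trivial character of finite order with values in the
  units of a local ring of residue characteristic `p` has `p`-power order;
* `trace_inertia_kgd_W` : `trace_inertia_kgd` for a homomorphism with values in a `Frac 𝒪`-vector
  space `W` (composition with a linear functional).
-/
import Mathlib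
import Fermat.Agent.S43lib.LGC.D.KGDMain

set_option autoImplicit false
set_option linter.unusedSectionVars false
set_option linter.unusedVariables false
set_option linter.style.haveILetI false

noncomputable section

namespace Fermat.Agent.S43lib.LGC.D

open Matrix Polynomial IsLocalRing Fermat.Agent.S48lib.X1.Gal Fermat.Agent.S48lib.X1.Wp
  Fermat.Agent.S43lib.B0.EndBlock
  Fermat.Agent.S16lib.LG Fermat.Agent.S43lib.Igusa Fermat.Agent.S43lib.LGC.KCM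
open scoped MatrixGroups

local notation "Qb" => AlgebraicClosure ℚ
local notation "GQ" => (AlgebraicClosure ℚ ≃ₐ[ℚ] AlgebraicClosure ℚ)

section PPow

variable {𝒪 : Type} [CommRing 𝒪] [IsLocalRing 𝒪] [CharZero 𝒪]

/-- a root of unity of order prime to `p`, congruent to `1`, is `1` -/
theorem eq_one_of_pow_eq_one_of_residue {p : ℕ} (hp : p.Prime) (hp𝒪 : (p : 𝒪) ∈ maximalIdeal 𝒪)
    {m : ℕ} (hm : ¬ p ∣ m) {w : 𝒪} (hw : w ^ m = 1) (hres : residue 𝒪 w = 1) : w = 1 := by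
  have hgeom := Commute.geom_sum₂_mul (Commute.all w 1) m
  rw [hw, one_pow, sub_self] at hgeom
  have hunit : IsUnit (∑ i ∈ Finset.range m, w ^ i * 1 ^ (m - 1 - i)) := by
    have h1 : residue 𝒪 (∑ i ∈ Finset.range m, w ^ i * 1 ^ (m - 1 - i)) =
        residue 𝒪 ((m : ℕ) : 𝒪) := by
      rw [map_sum]
      simp only [map_pow, hres, one_pow, mul_one, Finset.sum_const, Finset.card_range,
        nsmul_eq_mul, map_natCast]
    have h2 : IsUnit ((m : ℕ) : 𝒪) := isUnit_natCast_of_not_dvd hp hp𝒪 m hm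
    have h3 : residue 𝒪 ((m : ℕ) : 𝒪) ≠ 0 := by
      rw [Ne, residue_eq_zero_iff]
      exact fun h => (IsLocalRing.mem_maximalIdeal _).1 h h2
    by_contra hnu
    have : (∑ i ∈ Finset.range m, w ^ i * 1 ^ (m - 1 - i)) ∈ maximalIdeal 𝒪 :=
      (IsLocalRing.mem_maximalIdeal _).2 hnu
    rw [← residue_eq_zero_iff, h1] at this
    exact h3 this
  have := hunit.mul_right_eq_zero.mp hgeom
  exact sub_eq_zero.1 this

/-- **`p`-power order**: a residually trivial family of roots of unity of order dividing `n` has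
order dividing a power of `p` -/
theorem exists_pow_prime_pow_eq_one {p : ℕ} (hp : p.Prime) (hp𝒪 : (p : 𝒪) ∈ maximalIdeal 𝒪)
    {n : ℕ} (hn : n ≠ 0) : ∃ s : ℕ, ∀ u : 𝒪ˣ, u ^ n = 1 → residue 𝒪 (u : 𝒪) = 1 → u ^ p ^ s = 1 := by
  obtain ⟨s, m, hm, rfl⟩ := Nat.exists_eq_pow_mul_and_not_dvd hn p hp.ne_one
  refine ⟨s, fun u hu hres => ?_⟩
  apply Units.ext
  rw [Units.val_pow_eq_pow_val, Units.val_one]
  apply eq_one_of_pow_eq_one_of_residue hp hp𝒪 hm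
  · rw [← pow_mul, ← Units.val_pow_eq_pow_val, hu, Units.val_one]
  · rw [map_pow, hres, one_pow]

end PPow

section W

variable {𝒪 : Type} [CommRing 𝒪] [IsDomain 𝒪] [IsDiscreteValuationRing 𝒪] [CharZero 𝒪]
  [IsAdicComplete (maximalIdeal 𝒪) 𝒪]
variable {K : Type*} [Field K] [Algebra 𝒪 K] [IsFractionRing 𝒪 K]
variable {M q : ℕ} [NeZero M] [NeZero q] [hq : Fact q.Prime]

/-- **LGC-D on helper9's concrete data, vector valued homomorphism.** -/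
theorem trace_inertia_kgd_W {p : ℕ} [hpf : Fact p.Prime] (hp5 : 5 ≤ p)
    (hp𝒪 : (p : 𝒪) ∈ maximalIdeal 𝒪) (h5 : 5 ≤ q) (hqM : ¬ q ∣ M) (hpq : p ≠ q)
    (h49 : 4 ∣ M * q ∨ 9 ∣ M * q) (hN : 4 ≤ M * q)
    (S₀ : Finset ℕ) (hS₀ : ∀ ℓ : ℕ, ℓ.Prime → ℓ ∉ S₀ → ¬ ℓ ∣ M * q ∧ ℓ ≠ p)
    (ρ : GaloisRepAdic 𝒪) (hspan : Submodule.span 𝒪 (Set.range ρ.ρ) = ⊤) (τ : ℕ → 𝒪)
    (hρ : ∀ ℓ : ℕ, ℓ.Prime → ℓ ∉ S₀ → ∀ A : ValuationSubring Qb, A.LiesOverPrime ℓ →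
      ∀ φ : GQ, A.IsFrobeniusAt φ ℓ →
        LinearMap.charpoly (ρ.ρ φ) = X ^ 2 - C (τ ℓ) * X + C (ℓ : 𝒪))
    (χq ηq : (ZMod q)ˣ →* 𝒪ˣ) (hη : ∀ d, ηq d * ηq d = χq d) (hχ1 : χq ≠ 1) {s : ℕ}
    (hχpow : ∀ d, χq d ^ p ^ s = 1)
    (b : ℕ → 𝒪)
    (hb : ∀ ℓ : ℕ, ℓ.Prime → ℓ ∉ S₀ → ∀ d : (ZMod q)ˣ, (d : ZMod q) = (ℓ : ZMod q) →
      b ℓ = ((ηq d : 𝒪ˣ) : 𝒪) * τ ℓ)
    {W : Type*} [AddCommGroup W] [Module K W]
    (φ : Additive (pmGamma1 (M * q)) →+ W) (hφ : φ ≠ 0)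
    (hpar : ∀ γ : pmGamma1 (M * q), IsParTor (γ : SL(2, ℤ)) → φ (Additive.ofMul γ) = 0)
    (hT : ∀ ℓ : ℕ, ℓ.Prime → ℓ ∉ S₀ → ∀ γ : pmGamma1 (M * q),
      ∑ i, φ (Additive.ofMul (cTFun ℓ γ i)) = algebraMap 𝒪 K (b ℓ) • φ (Additive.ofMul γ))
    (hd : ∀ (d : (ZMod (M * q))ˣ) (γ : pmGamma1 (M * q)),
      φ (Additive.ofMul (cdFun d γ)) =
        algebraMap 𝒪 K ((χq (ZMod.unitsMap (dvd_level M q) d) : 𝒪ˣ) : 𝒪) • φ (Additive.ofMul γ))
    {A : ValuationSubring Qb} (hA : A.LiesOverPrime q) {t : GQ} (ht : t ∈ A.inertiaSubgroupIn ℚ)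
    (c : (ZMod q)ˣ) (hc : ∀ μ : Qb, μ ^ q = 1 → t μ = μ ^ (c : ZMod q).val) :
    ρ.trace t = ((ηq c : 𝒪ˣ) : 𝒪) + (((ηq c)⁻¹ : 𝒪ˣ) : 𝒪) := by
  classical
  -- a functional not vanishing on some value of `φ`
  obtain ⟨γ₁, hγ₁⟩ : ∃ γ₁, φ γ₁ ≠ 0 := by
    by_contra h
    exact hφ (AddMonoidHom.ext fun a => not_not.1 (not_exists.1 h a))
  obtain ⟨lam, hlam⟩ : ∃ lam : Module.Dual K W, lam (φ γ₁) ≠ 0 := by
    by_contra h
    exact hγ₁ ((Module.forall_dual_apply_eq_zero_iff K (φ γ₁)).1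
      fun f => not_not.1 (not_exists.1 h f))
  set φK : Additive (pmGamma1 (M * q)) →+ K := (lam : W →+ K).comp φ with hφK
  have hφK_app : ∀ a, φK a = lam (φ a) := fun a => rfl
  have hφK0 : φK ≠ 0 := fun h => hlam (by rw [← hφK_app, h, AddMonoidHom.zero_apply])
  refine trace_inertia_kgd (K := K) hp5 hp𝒪 h5 hqM hpq h49 hN S₀ hS₀ ρ hspan τ hρ χq ηq hη hχ1
    hχpow b hb φK hφK0 ?_ ?_ ?_ hA ht c hc
  · intro γ hγ
    rw [hφK_app, hpar γ hγ, map_zero]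
  · intro ℓ hℓ hℓS γ
    simp only [hφK_app]
    rw [← map_sum, hT ℓ hℓ hℓS γ, map_smul, smul_eq_mul]
  · intro d γ
    rw [hφK_app, hd d γ, map_smul, smul_eq_mul, hφK_app]

end W

end Fermat.Agent.S43lib.LGC.D
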