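/-
Project H (S43) / LGC / D / Translate   (helper9)

**Translation of the Hecke / conjugation vocabulary of `GammaD M X` (helper5, `B2/Bridge`, `B2/Tw`)
into the cocycles `cTFun`, `cdFun` of the Kummer--Galois data on `±Γ₁(M)` (S48lib).**

`X ≤ (ℤ/M)ˣ` a subgroup containing `-1`, so that `±Γ₁(M) ≤ GammaD M X`; `Φ : GammaD M X → W` a
homomorphism and `φ = Φ|±Γ₁(M)`.

* `sum_cTFun_eq_heckeD` : `∑ i, φ (cTFun ℓ γ i) = (T_ℓ Φ)(γ)` (`ℓ ∤ M` prime; `T_ℓ = heckeD`, the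
  normalised Hecke operator);
* `cdFun_eq_cjD` : `φ (cdFun d γ) = (cjD δ_d Φ)(γ)`;
* `exists_kgd_eigenhom` : the package consumed by `LGC/D/Main`.
-/
import Mathlib
import Fermat.Agent.S43lib.B2.Tw.ExtY
import Fermat.Agent.S48lib.X1.Gal.Producer

set_option autoImplicit false
set_option linter.unusedSectionVars false
set_option linter.style.haveILetI false

noncomputable section

namespace Fermat.Agent.S43lib.LGC.D

open CongruenceSubgroup Matrix.SpecialLinearGroup ModularCurve.Period ModularForm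
open Fermat.Agent.S41lib.HC Fermat.Agent.S16lib.LH Fermat.Agent.S16lib.LG Fermat.Agent.S29lib.H
open Fermat.Agent.S43lib.B2.Bridge Fermat.Agent.S43lib.B2.Tw
open Fermat.Agent.S48lib.X1.Wp Fermat.Agent.S48lib.X1.HeckeJ Fermat.Agent.S48lib.X1.Gal
open P2MW.S_ModularForm_heckeT_slash_eq_self_of_mem_Gamma0.ModularForm.HeckeSlashInvariance
open scoped MatrixGroups

/-! ### `±Γ₁(M) ≤ GammaD M X` -/

section Incl

variable {M : ℕ} {X : Subgroup (ZMod M)ˣ}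

theorem pm_le_Gamma0 (M : ℕ) : pmGamma1 M ≤ Gamma0 M := fun _ hγ =>
  Gamma0_mem.mpr (mem_pmGamma1.mp hγ).1

/-- the lower right entry of an element of `±Γ₁(M)` is `±1` -/
theorem dUnit_of_mem_pmGamma1 {γ : SL(2, ℤ)} (hγ : γ ∈ pmGamma1 M) :
    dUnit M ⟨γ, pm_le_Gamma0 M hγ⟩ = 1 ∨ dUnit M ⟨γ, pm_le_Gamma0 M hγ⟩ = -1 := by
  rcases (mem_pmGamma1.mp hγ).2 with h | h
  · left
    apply Units.ext
    rw [coe_dUnit', Units.val_one]
    exact h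
  · right
    apply Units.ext
    rw [coe_dUnit', Units.val_neg, Units.val_one]
    exact h

theorem pmGamma1_le_GammaD (hX : (-1 : (ZMod M)ˣ) ∈ X) : pmGamma1 M ≤ GammaD M X := by
  intro γ hγ
  refine mem_GammaD.mpr ⟨pm_le_Gamma0 M hγ, ?_⟩
  rcases dUnit_of_mem_pmGamma1 hγ with h | h
  · rw [h]
    exact X.one_mem
  · rw [h]
    exact hX

/-- an element of `Γ₀(M)` with lower right entry `±1` lies in `±Γ₁(M)` -/
theorem mem_pmGamma1_of_dUnit (g : ↥(Gamma0 M)) (hg : dUnit M g = 1 ∨ dUnit M g = -1) :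
    (g : SL(2, ℤ)) ∈ pmGamma1 M := by
  refine mem_pmGamma1.mpr ⟨Gamma0_mem.mp g.2, ?_⟩
  rcases hg with h | h
  · left
    have := congrArg (fun u : (ZMod M)ˣ => (u : ZMod M)) h
    simpa only [coe_dUnit', Units.val_one] using this
  · right
    have := congrArg (fun u : (ZMod M)ˣ => (u : ZMod M)) h
    simpa only [coe_dUnit', Units.val_neg, Units.val_one] using this

end Incl

/-! ### The Hecke cocycles -/

section Hecke

variable {M ℓ : ℕ} [NeZero M] [Fact ℓ.Prime] (hℓM : ¬ ℓ ∣ M) (X : Subgroup (ZMod M)ˣ)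

include hℓM in
theorem coprime_of_not_dvd' : ℓ.Coprime M :=
  (Nat.Prime.coprime_iff_not_dvd Fact.out).mpr hℓM

/-- the unit `ℓ mod M` -/
def unitL : (ZMod M)ˣ := ZMod.unitOfCoprime ℓ (coprime_of_not_dvd' hℓM)

theorem coe_unitL : ((unitL hℓM : (ZMod M)ˣ) : ZMod M) = (ℓ : ZMod M) :=
  ZMod.coe_unitOfCoprime ℓ _

/-- `δ_ℓ ∈ Γ₀(M)`, lower right entry `≡ ℓ` -/
def deltaL : ↥(Gamma0 M) := ⟨dMat (unitL hℓM), dMat_mem_Gamma0 _⟩

theorem gamma0Map_deltaL : Gamma0Map M (deltaL hℓM) = (ℓ : ZMod M) := by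
  show (((dMat (unitL hℓM) 1 1 : ℤ)) : ZMod M) = (ℓ : ZMod M)
  rw [cast_dMat_one_one, coe_unitL]

/-- the representatives `g_x ∈ ±Γ₁(M)` of the standard Hecke transversal -/
def repX (x : OnePoint (ZMod ℓ)) : ↥(pmGamma1 M) := (pLevel_pmGamma1 (p := ℓ) hℓM).rep x

/-- `g_x δ_ℓ ∈ Γ₀(M)` -/
def gDelta (x : OnePoint (ZMod ℓ)) : ↥(Gamma0 M) :=
  ⟨((repX hℓM x : ↥(pmGamma1 M)) : SL(2, ℤ)), pm_le_Gamma0 M (repX hℓM x).2⟩ * deltaL hℓM

theorem coe_gDelta (x : OnePoint (ZMod ℓ)) :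
    ((gDelta hℓM x : ↥(Gamma0 M)) : SL(2, ℤ)) =
      ((repX hℓM x : ↥(pmGamma1 M)) : SL(2, ℤ)) * dMat (unitL hℓM) := rfl

/-- the bijection `x ↦ x · δ_ℓ` of `ℙ¹(𝔽_ℓ)` -/
def eL : Equiv.Perm (OnePoint (ZMod ℓ)) := permS ℓ (dMat (unitL hℓM))

theorem tPerm_eq_permS (g : ↥(Gamma0 M)) (x : OnePoint (ZMod ℓ)) :
    tPerm ℓ g x = permS ℓ (g : SL(2, ℤ)) x := rfl

theorem tPerm_gDelta (x : OnePoint (ZMod ℓ)) :
    tPerm ℓ (gDelta hℓM x) OnePoint.infty = eL hℓM x := by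
  rw [tPerm_eq_permS, coe_gDelta, permS_mul]
  unfold repX eL
  rw [(pLevel_pmGamma1 (p := ℓ) hℓM).permS_rep]

/-- the correcting elements -/
def ddG (x : OnePoint (ZMod ℓ)) : ↥(Gamma0 M) :=
  sN hℓM (eL hℓM x) * (tCoc hℓM (gDelta hℓM x) OnePoint.infty)⁻¹

theorem dUnit_ddG (x : OnePoint (ZMod ℓ)) :
    dUnit M (ddG hℓM x) =
      (dUnit M ⟨((repX hℓM x : ↥(pmGamma1 M)) : SL(2, ℤ)),
        pm_le_Gamma0 M (repX hℓM x).2⟩)⁻¹ := by
  set S := dUnit M (sN hℓM (eL hℓM x)) with hS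
  set T := dUnit M (tCoc hℓM (gDelta hℓM x) OnePoint.infty) with hT
  set A := dUnit M ⟨((repX hℓM x : ↥(pmGamma1 M)) : SL(2, ℤ)),
    pm_le_Gamma0 M (repX hℓM x).2⟩ with hA
  have hL : IsUnit ((ℓ : ℕ) : ZMod M) := isUnit_natCast_of_not_dvd hℓM
  have h1 : (S : ZMod M) * (repD ℓ (eL hℓM x) : ZMod M) = (ℓ : ZMod M) := gamma0Map_sN hℓM _
  have h2 : (T : ZMod M) * (repD ℓ (eL hℓM x) : ZMod M) = (A : ZMod M) * (ℓ : ZMod M) := by
    have h := gamma0Map_tCoc hℓM (gDelta hℓM x) OnePoint.infty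
    rw [tPerm_gDelta, repD_infty, Nat.cast_one, one_mul] at h
    rw [hT, coe_dUnit, h]
    unfold gDelta
    rw [map_mul, gamma0Map_deltaL]
    rfl
  have hr : IsUnit (repD ℓ (eL hℓM x) : ZMod M) := by
    have : IsUnit ((S : ZMod M) * (repD ℓ (eL hℓM x) : ZMod M)) := by rw [h1]; exact hL
    exact isUnit_of_mul_isUnit_right this
  have h3 : A * S = T := by
    apply Units.ext
    rw [Units.val_mul]
    apply hr.mul_left_injective
    show (A : ZMod M) * (S : ZMod M) * (repD ℓ (eL hℓM x) : ZMod M) =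
      (T : ZMod M) * (repD ℓ (eL hℓM x) : ZMod M)
    rw [mul_assoc, h1, h2]
  show dUnit M (sN hℓM (eL hℓM x) * (tCoc hℓM (gDelta hℓM x) OnePoint.infty)⁻¹) = A⁻¹
  rw [map_mul, map_inv, ← hS, ← hT, ← h3, mul_inv_rev, mul_inv_cancel_left]

theorem ddG_mem_pmGamma1 (x : OnePoint (ZMod ℓ)) :
    ((ddG hℓM x : ↥(Gamma0 M)) : SL(2, ℤ)) ∈ pmGamma1 M := by
  apply mem_pmGamma1_of_dUnit
  rw [dUnit_ddG]
  rcases dUnit_of_mem_pmGamma1 (repX hℓM x).2 with h | h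
  · left
    rw [h, inv_one]
  · right
    rw [h, inv_neg, inv_one]

/-- the representatives of the standard transversal, moved by `δ_ℓ` -/
def repS (x : OnePoint (ZMod ℓ)) : GL (Fin 2) ℝ :=
  heckeDiagMatrix ℓ * (mapGL ℝ ((repX hℓM x : ↥(pmGamma1 M)) : SL(2, ℤ)) : GL (Fin 2) ℝ) *
    (mapGL ℝ (dMat (unitL hℓM)) : GL (Fin 2) ℝ)

theorem repS_eq (x : OnePoint (ZMod ℓ)) :
    repS hℓM x =
      (mapGL ℝ ((tCoc hℓM (gDelta hℓM x) OnePoint.infty : ↥(Gamma0 M)) : SL(2, ℤ)) :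
        GL (Fin 2) ℝ) * heckeRep ℓ (eL hℓM x) := by
  have h := tCoc_rel hℓM (gDelta hℓM x) OnePoint.infty
  rw [tPerm_gDelta, coe_gDelta, map_mul, ← mul_assoc] at h
  exact h

theorem repN_eL (x : OnePoint (ZMod ℓ)) :
    repN hℓM (eL hℓM x) =
      (mapGL ℝ ((ddG hℓM x : ↥(Gamma0 M)) : SL(2, ℤ)) : GL (Fin 2) ℝ) * repS hℓM x := by
  rw [repS_eq]
  unfold repN ddG
  rw [Subgroup.coe_mul, Subgroup.coe_inv, map_mul, map_inv, mul_assoc, inv_mul_cancel_left]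

/-- the relation of the standard transversal, moved by `δ_ℓ` -/
theorem repS_rel (γ : ↥(pmGamma1 M)) (x : OnePoint (ZMod ℓ)) :
    repS hℓM x * (mapGL ℝ (γ : SL(2, ℤ)) : GL (Fin 2) ℝ) =
      (mapGL ℝ (((pLevel_pmGamma1 (p := ℓ) hℓM).stdTransversal.c (cdFun (unitL hℓM) γ) x :
        ↥(pmGamma1 M)) : SL(2, ℤ)) : GL (Fin 2) ℝ) *
        repS hℓM (permS ℓ ((cdFun (unitL hℓM) γ : ↥(pmGamma1 M)) : SL(2, ℤ)) x) := by
  have h := (pLevel_pmGamma1 (p := ℓ) hℓM).stdTransversal.rel (cdFun (unitL hℓM) γ) x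
  have hc : ((cdFun (unitL hℓM) γ : ↥(pmGamma1 M)) : SL(2, ℤ)) =
      dMat (unitL hℓM) * (γ : SL(2, ℤ)) * (dMat (unitL hℓM))⁻¹ := rfl
  have h2 : (mapGL ℝ (dMat (unitL hℓM)) : GL (Fin 2) ℝ) * (mapGL ℝ (γ : SL(2, ℤ)) : GL (Fin 2) ℝ) =
      (mapGL ℝ ((cdFun (unitL hℓM) γ : ↥(pmGamma1 M)) : SL(2, ℤ)) : GL (Fin 2) ℝ) *
        (mapGL ℝ (dMat (unitL hℓM)) : GL (Fin 2) ℝ) := by
    rw [hc, map_mul, map_mul, map_inv, inv_mul_cancel_right]
  unfold repS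
  rw [mul_assoc, h2, ← mul_assoc]
  have h3 : (pLevel_pmGamma1 (p := ℓ) hℓM).stdTransversal.A x =
      heckeDiagMatrix ℓ * (mapGL ℝ ((repX hℓM x : ↥(pmGamma1 M)) : SL(2, ℤ)) : GL (Fin 2) ℝ) := rfl
  rw [← h3, h, mul_assoc]
  rfl

theorem eL_permS (γ : ↥(pmGamma1 M)) (x : OnePoint (ZMod ℓ)) :
    permS ℓ (γ : SL(2, ℤ)) (eL hℓM x) =
      eL hℓM (permS ℓ ((cdFun (unitL hℓM) γ : ↥(pmGamma1 M)) : SL(2, ℤ)) x) := by
  have hc : ((cdFun (unitL hℓM) γ : ↥(pmGamma1 M)) : SL(2, ℤ)) =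
      dMat (unitL hℓM) * (γ : SL(2, ℤ)) * (dMat (unitL hℓM))⁻¹ := rfl
  unfold eL
  rw [← permS_mul, ← permS_mul, hc, inv_mul_cancel_right]

variable {X}

/-- **the key relation**: the cocycle of `tDataD` at `e x` is conjugate to the standard cocycle -/
theorem tDataD_c_eq (hX : (-1 : (ZMod M)ˣ) ∈ X) (γ : ↥(pmGamma1 M)) (x : OnePoint (ZMod ℓ)) :
    (tDataD hℓM X).c (Subgroup.inclusion (pmGamma1_le_GammaD hX) γ) (eL hℓM x) =
      (⟨_, pmGamma1_le_GammaD hX (ddG_mem_pmGamma1 hℓM x)⟩ : ↥(GammaD M X)) *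
        Subgroup.inclusion (pmGamma1_le_GammaD hX)
          ((pLevel_pmGamma1 (p := ℓ) hℓM).stdTransversal.c (cdFun (unitL hℓM) γ) x) *
        (⟨_, pmGamma1_le_GammaD hX (ddG_mem_pmGamma1 hℓM
          (permS ℓ ((cdFun (unitL hℓM) γ : ↥(pmGamma1 M)) : SL(2, ℤ)) x))⟩ : ↥(GammaD M X))⁻¹ := by
  apply Subtype.ext
  apply mapGL_injective (S := ℝ)
  have h1 := tDataD_hasReps hℓM X (Subgroup.inclusion (pmGamma1_le_GammaD hX) γ) (eL hℓM x)
  have hσ : (tDataD hℓM X).σ (Subgroup.inclusion (pmGamma1_le_GammaD hX) γ) (eL hℓM x) =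
      eL hℓM (permS ℓ ((cdFun (unitL hℓM) γ : ↥(pmGamma1 M)) : SL(2, ℤ)) x) := by
    rw [tDataD_σ, tPerm_eq_permS]
    exact eL_permS hℓM γ x
  rw [hσ, repN_eL, repN_eL, mul_assoc] at h1
  have h2 : (mapGL ℝ ((Subgroup.inclusion (pmGamma1_le_GammaD hX) γ : ↥(GammaD M X)) : SL(2, ℤ)) :
      GL (Fin 2) ℝ) = mapGL ℝ (γ : SL(2, ℤ)) := rfl
  rw [h2, repS_rel, ← mul_assoc, ← mul_assoc] at h1
  have h4 := mul_right_cancel h1
  rw [Subgroup.coe_mul, Subgroup.coe_mul, Subgroup.coe_inv, map_mul, map_mul, map_inv,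
    eq_mul_inv_iff_mul_eq]
  exact h4.symm

/-- **(T)**: the sum of `φ = Φ|±Γ₁(M)` over the Hecke cocycles `cTFun ℓ γ ·` is `(T_ℓ Φ)(γ)`. -/
theorem sum_cTFun_eq_heckeD (hX : (-1 : (ZMod M)ˣ) ∈ X) {W : Type*} [AddCommGroup W]
    (Φ : H (GammaD M X) W) (γ : ↥(pmGamma1 M)) :
    ∑ i : Option (Fin ℓ), resOp (pmGamma1_le_GammaD hX) W Φ (Additive.ofMul (cTFun ℓ γ i)) =
      resOp (pmGamma1_le_GammaD hX) W (heckeD hℓM X W Φ) (Additive.ofMul γ) := by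
  classical
  rw [sum_cTFun ℓ (coprime_of_not_dvd' hℓM) γ
    (fun c => resOp (pmGamma1_le_GammaD hX) W Φ (Additive.ofMul c))]
  rw [resOp_apply]
  show _ = (tDataD hℓM X).op W Φ (Additive.ofMul (Subgroup.inclusion (pmGamma1_le_GammaD hX) γ))
  rw [CosetData.op_apply, ← Equiv.sum_comp (eL hℓM) (fun y => Φ (Additive.ofMul
    ((tDataD hℓM X).c (Subgroup.inclusion (pmGamma1_le_GammaD hX) γ) y)))]
  simp_rw [tDataD_c_eq hℓM hX γ, ofMul_mul, ofMul_inv, map_add, map_neg]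
  rw [Finset.sum_add_distrib, Finset.sum_add_distrib, Finset.sum_neg_distrib]
  have hperm := Equiv.sum_comp (permS ℓ ((cdFun (unitL hℓM) γ : ↥(pmGamma1 M)) : SL(2, ℤ)))
    (fun x => Φ (Additive.ofMul
      (⟨_, pmGamma1_le_GammaD hX (ddG_mem_pmGamma1 hℓM x)⟩ : ↥(GammaD M X))))
  rw [hperm]
  have hstd : ∀ x, (pLevel_pmGamma1 (p := ℓ) (not_dvd_of_prime_coprime Fact.out
      (coprime_of_not_dvd' hℓM))).stdDatum.c (cdFun (ZMod.unitOfCoprime ℓ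
        (coprime_of_not_dvd' hℓM)) γ) x =
      (pLevel_pmGamma1 (p := ℓ) hℓM).stdTransversal.c (cdFun (unitL hℓM) γ) x := fun x => rfl
  simp only [hstd, resOp_apply]
  abel

end Hecke

/-! ### The diamond cocycles -/

section Diamond

variable {M : ℕ} [NeZero M] {X : Subgroup (ZMod M)ˣ}

/-- `δ_d ∈ Γ₀(M)` -/
def deltaD (d : (ZMod M)ˣ) : ↥(Gamma0 M) := ⟨dMat d, dMat_mem_Gamma0 d⟩

theorem dUnit_deltaD (d : (ZMod M)ˣ) : dUnit M (deltaD d) = d := by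
  apply Units.ext
  rw [coe_dUnit']
  exact cast_dMat_one_one d

theorem inclusion_cdFun (hX : (-1 : (ZMod M)ˣ) ∈ X) (d : (ZMod M)ˣ) (γ : ↥(pmGamma1 M)) :
    Subgroup.inclusion (pmGamma1_le_GammaD hX) (cdFun d γ) =
      conjD X (deltaD d) (Subgroup.inclusion (pmGamma1_le_GammaD hX) γ) := by
  apply Subtype.ext
  rw [coe_conjD]
  rfl

/-- **(D)**: `φ (cdFun d γ) = (cjD δ_d Φ)(γ)`. -/
theorem cdFun_eq_cjD (hX : (-1 : (ZMod M)ˣ) ∈ X) {W : Type*} [AddCommGroup W]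
    (Φ : H (GammaD M X) W) (d : (ZMod M)ˣ) (γ : ↥(pmGamma1 M)) :
    resOp (pmGamma1_le_GammaD hX) W Φ (Additive.ofMul (cdFun d γ)) =
      resOp (pmGamma1_le_GammaD hX) W (cjD X (deltaD d) W Φ) (Additive.ofMul γ) := by
  rw [resOp_apply, resOp_apply, cjD_apply, inclusion_cdFun hX]

end Diamond

/-! ### The package -/

section Package

variable {M : ℕ} [NeZero M] {X : Subgroup (ZMod M)ˣ}

instance pmGamma1_finiteIndex : (pmGamma1 M).FiniteIndex :=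
  Subgroup.finiteIndex_of_le (Gamma_le_pmGamma1 M)

/-- parabolic + torsion-free coefficients: `φ` kills `IsParTor` elements -/
theorem eq_zero_of_isParTor {Γ : Subgroup SL(2, ℤ)} {W : Type*} [AddCommGroup W]
    [IsAddTorsionFree W] {φ : H Γ W} (hφ : IsParabolicHom Γ φ) (γ : ↥Γ)
    (hγ : IsParTor (γ : SL(2, ℤ))) : φ (Additive.ofMul γ) = 0 := by
  rcases hγ with h | h
  · exact hφ γ h
  · have h1 : γ ^ 12 = 1 := Subtype.ext (by rw [Subgroup.coe_pow, h]; rfl)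
    have h2 : (12 : ℕ) • φ (Additive.ofMul γ) = 0 := by
      rw [← map_nsmul, ← ofMul_pow, h1, ofMul_one, map_zero]
    exact (nsmul_eq_zero_iff_right (by norm_num)).mp h2

/-- **the translation package**: a nonzero parabolic eigen-homomorphism `Φ` on `GammaD M X`
(`-1 ∈ X`) restricts to a nonzero homomorphism `φ` on `±Γ₁(M)`, vanishing on parabolic and torsion
elements, which is an eigenvector of the Hecke cocycles `cTFun` (same eigenvalues as `heckeD`) and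
of the diamond cocycles `cdFun` (eigenvalues those of `cjD δ_d`). -/
theorem exists_kgd_eigenhom (hX : (-1 : (ZMod M)ˣ) ∈ X) {K : Type*} [Semiring K]
    {W : Type*} [AddCommGroup W] [Module K W] [IsAddTorsionFree W]
    (Φ : H (GammaD M X) W) (hΦ : Φ ≠ 0) (hpar : IsParabolicHom (GammaD M X) Φ) :
    ∃ φ : Additive ↥(pmGamma1 M) →+ W, φ ≠ 0 ∧
      (∀ γ : ↥(pmGamma1 M), IsParTor (γ : SL(2, ℤ)) → φ (Additive.ofMul γ) = 0) ∧
      (∀ (ℓ : ℕ) [Fact ℓ.Prime] (hℓM : ¬ ℓ ∣ M) (c : K), heckeD hℓM X W Φ = c • Φ →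
        ∀ γ : ↥(pmGamma1 M),
          ∑ i : Option (Fin ℓ), φ (Additive.ofMul (cTFun ℓ γ i)) = c • φ (Additive.ofMul γ)) ∧
      (∀ (d : (ZMod M)ˣ) (c : K), cjD X (deltaD d) W Φ = c • Φ →
        ∀ γ : ↥(pmGamma1 M), φ (Additive.ofMul (cdFun d γ)) = c • φ (Additive.ofMul γ)) := by
  refine ⟨resOp (pmGamma1_le_GammaD hX) W Φ, ?_, ?_, ?_, ?_⟩
  · intro h0
    apply hΦ
    apply resOp_injective (pmGamma1_le_GammaD hX)
    rw [h0, map_zero]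
  · intro γ hγ
    exact eq_zero_of_isParTor (resOp_isParabolicHom _ hpar) γ hγ
  · intro ℓ _ hℓM c hc γ
    rw [sum_cTFun_eq_heckeD hℓM hX Φ γ, hc, resOp_smul]
    rfl
  · intro d c hc γ
    rw [cdFun_eq_cjD hX Φ d γ, hc, resOp_smul]
    rfl

end Package

end Fermat.Agent.S43lib.LGC.D
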