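/-
S43lib / LGC / D / Final  (helper8)  — Project H, block LGC-D, THE END OF THE CHAIN.

**`trace_inertia_nontrivial`**: the inertia traces at a prime `v` where the nebentypus of a point of
the Hecke algebra has a NONTRIVIAL `v`-component, in the hypothesis shape of helper4's (D₀)
(`B3/TrivCompChar.lean`).  Chain:

  eigenclass in `H¹(Γ₀(M), W)`  —helper4/helper5/helper1 `exists_partial_twist_char` (one-prime partial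
  twist, level `L = (4 N₀ T'²) v`, `X = {±1}`)→  `Φ` on `GammaD L X`  —helper9 `exists_kgd_eigenhom`→
  `φ` on `±Γ₁(L)` eigen for `cTFun`, `cdFun`  —`trace_inertia_kgd_W` (TRANSFER + helper9's `kgd`,
  `wordsV_kgd` = `lgcTors`)→  `tr ρ(σ) = Ψ(c)^{(n+1)/2} + Ψ(c)^{-(n+1)/2}`.
-/
import Mathlib
import Fermat.Agent.S43lib.LGC.D.FinalAux
import Fermat.Agent.S43lib.LGC.D.Translate
import Fermat.Agent.S43lib.B3.TwistChar

set_option autoImplicit false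
set_option linter.unusedSectionVars false
set_option linter.unusedVariables false
set_option linter.style.haveILetI false

noncomputable section

namespace Fermat.Agent.S43lib.LGC.D

open Matrix Polynomial IsLocalRing CongruenceSubgroup
  Fermat.Agent.S48lib.X1.Gal Fermat.Agent.S48lib.X1.Wp
  Fermat.Agent.S43lib.B0.EndBlock Fermat.Agent.S43lib.B3
  Fermat.Agent.S16lib.LG Fermat.Agent.S43lib.Igusa Fermat.Agent.S43lib.LGC.KCM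
  Fermat.Agent.S43lib.B2.Bridge Fermat.Agent.S43lib.B2.Tw Fermat.Agent.S41lib.HC
  ModularCurve.Period
open scoped MatrixGroups

local notation "Qb" => AlgebraicClosure ℚ
local notation "GQ" => (AlgebraicClosure ℚ ≃ₐ[ℚ] AlgebraicClosure ℚ)

/-! ### the subgroup `{±1}` -/

section PmX

variable (L : ℕ)

/-- the subgroup `{±1}` of `(ℤ/L)ˣ` -/
def pmX : Subgroup (ZMod L)ˣ where
  carrier := {u | u = 1 ∨ u = -1}
  one_mem' := Or.inl rfl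
  mul_mem' := by
    rintro a b (rfl | rfl) (rfl | rfl)
    · exact Or.inl (one_mul 1)
    · exact Or.inr (one_mul _)
    · exact Or.inr (mul_one _)
    · exact Or.inl (by rw [neg_mul_neg, one_mul])
  inv_mem' := by
    rintro a (rfl | rfl)
    · exact Or.inl inv_one
    · exact Or.inr (by rw [inv_neg, inv_one])

theorem mem_pmX {u : (ZMod L)ˣ} : u ∈ pmX L ↔ u = 1 ∨ u = -1 := Iff.rfl

theorem neg_one_mem_pmX : (-1 : (ZMod L)ˣ) ∈ pmX L := Or.inr rfl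

end PmX

/-! ### elementary lemmas -/

section Elem

/-- in a commutative group: `x² = 1` and `x^n = 1`, `n` odd, give `x = 1` -/
theorem eq_one_of_sq_of_odd_pow {C : Type*} [CommGroup C] {x : C} {n : ℕ} (hn : Odd n)
    (h2 : x * x = 1) (hxn : x ^ n = 1) : x = 1 := by
  obtain ⟨k, rfl⟩ := hn
  rw [pow_succ, pow_mul, pow_two, h2, one_pow, one_mul] at hxn
  exact hxn

/-- a nontrivial character of `(ℤ/v)ˣ` of `p`-power order forces `p ∣ v - 1` -/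
theorem dvd_sub_one_of_char {v : ℕ} [Fact v.Prime] {C : Type*} [CommGroup C]
    (κ : (ZMod v)ˣ →* C) {p s : ℕ} (hp : p.Prime) (hκ1 : κ ≠ 1) (hpow : ∀ a, κ a ^ p ^ s = 1) :
    p ∣ v - 1 := by
  obtain ⟨d, hd⟩ : ∃ d, κ d ≠ 1 := by
    by_contra h
    apply hκ1
    refine MonoidHom.ext fun a => ?_
    rw [MonoidHom.one_apply]
    exact not_not.1 (fun h' => h ⟨a, h'⟩)
  have h1 : orderOf (κ d) ∣ p ^ s := orderOf_dvd_of_pow_eq_one (hpow d)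
  obtain ⟨k, _, hk⟩ := (Nat.dvd_prime_pow hp).1 h1
  have hk0 : k ≠ 0 := by
    rintro rfl
    rw [pow_zero, orderOf_eq_one_iff] at hk
    exact hd hk
  have h2 : p ∣ orderOf (κ d) := by
    rw [hk]
    exact dvd_pow_self p hk0
  have h3 : orderOf (κ d) ∣ orderOf d := orderOf_map_dvd κ d
  have h4 : orderOf d ∣ Fintype.card (ZMod v)ˣ := orderOf_dvd_card
  rw [ZMod.card_units v] at h4
  exact h2.trans (h3.trans h4)

end Elem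

/-! ### the nontrivial component -/

section Nontrivial

variable {p : ℕ} [hpf : Fact p.Prime]
  {𝒪 : Type} [CommRing 𝒪] [IsDomain 𝒪] [IsDiscreteValuationRing 𝒪]
  [IsAdicComplete (maximalIdeal 𝒪) 𝒪] [CharZero 𝒪]

set_option maxHeartbeats 1600000 in
/-- **LGC-D, final form, nontrivial `v`-component.** -/
theorem trace_inertia_nontrivial (hp5 : 5 ≤ p) (hp𝒪 : (p : 𝒪) ∈ maximalIdeal 𝒪)
    {K : Type*} [Field K] [Algebra 𝒪 K] [IsFractionRing 𝒪 K]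
    {M N₀ T : ℕ} [NeZero M] (hM : M = N₀ * T) (hsq : Squarefree T) (hcop : N₀.Coprime T)
    (hTM : T ∣ M)
    {S : Finset ℕ} (hpS : p ∈ S) (hNS : ∀ q : ℕ, q.Prime → q ∣ M → q ∈ S)
    (ρ₀ : ResidualGaloisRep (ZMod p)) (a : ℕ → ℤ) (S₀ : Finset ℕ)
    (h₀ : ∀ ℓ : ℕ, ℓ.Prime → ℓ ∉ S₀ → ∀ A : ValuationSubring Qb, A.LiesOverPrime ℓ →
      ∀ φ : GQ, A.IsFrobeniusAt φ ℓ →
        LinearMap.charpoly (ρ₀.ρ φ) =
          X ^ 2 - C ((a ℓ : ℤ) : ZMod p) * X + C ((ℓ : ℕ) : ZMod p))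
    (hnE : ∀ m : ℕ, 0 < m → ∀ S₁ : Finset ℕ,
      ∃ (ℓ₀ : ℕ) (A : ValuationSubring Qb) (φ : GQ), ℓ₀.Prime ∧ ℓ₀ ∉ S₁ ∧
        m ∣ ℓ₀ - 1 ∧ A.LiesOverPrime ℓ₀ ∧ A.IsFrobeniusAt φ ℓ₀ ∧
        (LinearMap.charpoly (ρ₀.ρ φ)).eval 1 ≠ 0)
    {G : Type*} [Group G] (χ : (ZMod M)ˣ →* G)
    (W : Type*) [AddCommGroup W] [Module K W] [DistribMulAction G W] [SMulCommClass G K W]
    [IsAddTorsionFree W]
    (Ψ : (ZMod M)ˣ →* 𝒪ˣ) {n : ℕ} (hn : Odd n) (hpow : ∀ u, Ψ u ^ n = 1)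
    (hΨ1 : ∀ u, residue 𝒪 ((Ψ u : 𝒪ˣ) : 𝒪) = 1)
    (hΨT : ∀ u, ZMod.unitsMap hTM u = 1 → Ψ u = 1)
    (hW : ∀ (u : (ZMod M)ˣ) (w : W), χ u • w = algebraMap 𝒪 K ((Ψ u : 𝒪ˣ) : 𝒪) • w)
    (x : B1.H1 (B1.levelPi χ) K W) (hx : x ≠ 0) (t : ℕ → 𝒪)
    (hxt : ∀ (ℓ : ℕ) [Fact ℓ.Prime] (hℓ : ¬ ℓ ∣ M), ℓ ∉ S →
      B1.heckeH K W (B1.isEquivariant_levelPi χ (B1.nData_equivariant hℓ)) x =
        algebraMap 𝒪 K (t ℓ) • x)
    (ht : ∀ ℓ : ℕ, ℓ.Prime → ℓ ∉ S → ℓ ∉ S₀ →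
      residue 𝒪 (t ℓ) = ((a ℓ : ℤ) : ResidueField 𝒪))
    (ρ : GaloisRepAdic 𝒪)
    (hρ : ∀ ℓ : ℕ, ℓ.Prime → ℓ ∉ S → ∀ u : (ZMod M)ˣ, (u : ZMod M) = (ℓ : ZMod M) →
      ∀ A : ValuationSubring Qb, A.LiesOverPrime ℓ → ∀ σ : GQ, A.IsFrobeniusAt σ ℓ →
        LinearMap.charpoly (ρ.ρ σ) =
          X ^ 2 - C (((((Ψ u) ^ ((n + 1) / 2))⁻¹ : 𝒪ˣ) : 𝒪) * t ℓ) * X + C ((ℓ : 𝒪)))
    (hspan : Submodule.span 𝒪 (Set.range ρ.ρ) = ⊤)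
    (v : ℕ) (hv : v.Prime) (hvp : v ≠ p) (hvT : v ∣ T) (hvM : v ∣ M) (hMv : M / v ∣ M)
    (hΨv : ¬ ∀ u : (ZMod M)ˣ, ZMod.unitsMap hMv u = 1 → Ψ u = 1)
    {A : ValuationSubring Qb} (hA : A.LiesOverPrime v) {σ : GQ}
    (hσ : σ ∈ A.inertiaSubgroupIn ℚ)
    (c : (ZMod M)ˣ) (hc1 : ZMod.unitsMap hMv c = 1)
    (hcμ : ∀ μ : Qb, μ ^ v = 1 →
      σ μ = μ ^ ((ZMod.unitsMap hvM c : (ZMod v)ˣ) : ZMod v).val) :
    ρ.trace σ = (((Ψ c) ^ ((n + 1) / 2) : 𝒪ˣ) : 𝒪) + ((((Ψ c) ^ ((n + 1) / 2))⁻¹ : 𝒪ˣ) : 𝒪) := by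
  classical
  have hp : p.Prime := hpf.out
  haveI : NeZero v := ⟨hv.ne_zero⟩
  haveI : Fact v.Prime := ⟨hv⟩
  have hM0 : M ≠ 0 := NeZero.ne M
  have hinj : Function.Injective (algebraMap 𝒪 K) := IsFractionRing.injective 𝒪 K
  haveI : CharZero K := charZero_of_injective_algebraMap hinj
  obtain ⟨T', rfl⟩ := hvT
  -- arithmetic of the level
  have hvT' : v.Coprime T' := Nat.coprime_of_squarefree_mul hsq
  have hdiv : M / v = N₀ * T' := by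
    rw [hM, show N₀ * (v * T') = v * (N₀ * T') by ring, Nat.mul_div_cancel_left _ hv.pos]
  have hMsplit : M = v * (M / v) := (Nat.mul_div_cancel' hvM).symm
  have hcopv : v.Coprime (M / v) := by
    rw [hdiv]
    exact Nat.Coprime.mul_right
      (Nat.Coprime.coprime_dvd_right (Dvd.intro T' rfl) hcop).symm hvT'
  have hN₀0 : N₀ ≠ 0 := fun h => hM0 (by rw [hM, h, zero_mul])
  have hT'0 : T' ≠ 0 := fun h => hM0 (by rw [hM, h, mul_zero, mul_zero])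
  -- the splitting `Ψ = ψ_v Ψ'`
  obtain ⟨ψv, Ψ', hsplit⟩ := exists_char_split hMsplit hcopv hvM hMv Ψ
  have hlift : ∀ (d : (ZMod v)ˣ) (e : (ZMod (M / v))ˣ), ∃ u : (ZMod M)ˣ,
      ZMod.unitsMap hvM u = d ∧ ZMod.unitsMap hMv u = e :=
    fun d e => exists_unit_crt hMsplit hcopv hvM hMv d e
  have hΨ_of_Mv : ∀ u, ZMod.unitsMap hMv u = 1 → Ψ u = ψv (ZMod.unitsMap hvM u) := by
    intro u hu
    rw [hsplit, hu, map_one, mul_one]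
  have hΨ_of_v : ∀ u, ZMod.unitsMap hvM u = 1 → Ψ u = Ψ' (ZMod.unitsMap hMv u) := by
    intro u hu
    rw [hsplit, hu, map_one, one_mul]
  -- properties of `ψ_v`
  have hψv1 : ψv ≠ 1 := by
    intro h
    apply hΨv
    intro u hu
    rw [hΨ_of_Mv u hu, h, MonoidHom.one_apply]
  have hψv_eq : ∀ d : (ZMod v)ˣ, ∃ u, Ψ u = ψv d := by
    intro d
    obtain ⟨u, hu1, hu2⟩ := hlift d 1
    exact ⟨u, by rw [hΨ_of_Mv u hu2, hu1]⟩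
  have hψvn : ∀ d, ψv d ^ n = 1 := by
    intro d
    obtain ⟨u, hu⟩ := hψv_eq d
    rw [← hu, hpow]
  have hψvres : ∀ d, residue 𝒪 ((ψv d : 𝒪ˣ) : 𝒪) = 1 := by
    intro d
    obtain ⟨u, hu⟩ := hψv_eq d
    rw [← hu, hΨ1]
  have hn0 : n ≠ 0 := by
    rintro rfl
    exact absurd hn (by decide)
  obtain ⟨s, hs⟩ := exists_pow_prime_pow_eq_one (𝒪 := 𝒪) hp hp𝒪 hn0
  have hψvpow : ∀ d, ψv d ^ p ^ s = 1 := fun d => hs _ (hψvn d) (hψvres d)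
  have hpv : p ∣ v - 1 := dvd_sub_one_of_char ψv hp hψv1 hψvpow
  have hv5 : 5 ≤ v := by
    have := Nat.le_of_dvd (Nat.sub_pos_of_lt hv.one_lt) hpv
    omega
  set ηq : (ZMod v)ˣ →* 𝒪ˣ := ψv ^ ((n + 1) / 2) with hηq
  have hη : ∀ d, ηq d * ηq d = ψv d := exists_sqrt_char ψv hn hψvn
  -- the level `L = M'' v`
  set M'' : ℕ := 4 * N₀ * T' * T' with hM''
  have hM''0 : M'' ≠ 0 :=
    mul_ne_zero (mul_ne_zero (mul_ne_zero (by norm_num) hN₀0) hT'0) hT'0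
  haveI : NeZero M'' := ⟨hM''0⟩
  have hvN₀ : ¬ v ∣ N₀ := fun h' => by
    have := Nat.eq_one_of_dvd_coprimes hcop h' (Dvd.intro T' rfl)
    exact hv.one_lt.ne' this
  have hvT'' : ¬ v ∣ T' := fun h' => by
    have := Nat.eq_one_of_dvd_coprimes hvT' (dvd_refl v) h'
    exact hv.one_lt.ne' this
  have hvM'' : ¬ v ∣ M'' := by
    intro h
    have h4 : ¬ v ∣ 4 := fun h4 => by
      have := Nat.le_of_dvd (by norm_num) h4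
      omega
    rcases (Nat.Prime.dvd_mul hv).1 h with h | h
    · rcases (Nat.Prime.dvd_mul hv).1 h with h | h
      · rcases (Nat.Prime.dvd_mul hv).1 h with h | h
        · exact h4 h
        · exact hvN₀ h
      · exact hvT'' h
    · exact hvT'' h
  have h4L : 4 ∣ M'' * v := ⟨N₀ * T' * T' * v, by rw [hM'']; ring⟩
  have h49 : 4 ∣ M'' * v ∨ 9 ∣ M'' * v := Or.inl h4L
  have hL0 : M'' * v ≠ 0 := mul_ne_zero hM''0 hv.ne_zero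
  have hN4 : 4 ≤ M'' * v := Nat.le_of_dvd (Nat.pos_of_ne_zero hL0) h4L
  have hL : N₀ * (v * T') * (v * T' / v) ∣ M'' * v := by
    rw [Nat.mul_div_cancel_left T' hv.pos]
    exact ⟨4, by rw [hM'']; ring⟩
  have hvL : v ∣ M'' * v := dvd_level M'' v
  -- the `K`-valued character
  set ΨK : (ZMod M)ˣ →* Kˣ := (Units.map ((algebraMap 𝒪 K : 𝒪 →+* K) : 𝒪 →* K)).comp Ψ with hΨK
  have hΨK_val : ∀ u, ((ΨK u : Kˣ) : K) = algebraMap 𝒪 K ((Ψ u : 𝒪ˣ) : 𝒪) := fun u => rfl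
  have hΨK_one : ∀ u, Ψ u = 1 → ΨK u = 1 := by
    intro u hu
    rw [hΨK, MonoidHom.comp_apply, hu, map_one]
  have hpowK : ∀ u, ΨK u ^ n = 1 := by
    intro u
    rw [hΨK, MonoidHom.comp_apply, ← map_pow, hpow, map_one]
  have hΨTK : ∀ u, ZMod.unitsMap hTM u = 1 → ΨK u = 1 := fun u hu => hΨK_one u (hΨT u hu)
  have hWK : ∀ (u : (ZMod M)ˣ) (w : W), χ u • w = ((ΨK u : Kˣ) : K) • w := fun u w => hW u w
  have hX : ∀ y ∈ pmX (M'' * v), ∀ u : (ZMod M)ˣ, ZMod.unitsMap hMv u = 1 →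
      ZMod.unitsMap hvM u = ZMod.unitsMap hvL y → ΨK u = 1 := by
    intro y hy u hu1 hu2
    have hyy : y * y = 1 := by
      rcases hy with rfl | rfl
      · exact one_mul 1
      · rw [neg_mul_neg, one_mul]
    have huu : u * u = 1 := by
      apply unit_eq_one_of_crt hMsplit hcopv hvM hMv
      · rw [map_mul, hu2, ← map_mul, hyy, map_one]
      · rw [map_mul, hu1, one_mul]
    have h1 : Ψ u * Ψ u = 1 := by rw [← map_mul, huu, map_one]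
    exact hΨK_one u (eq_one_of_sq_of_odd_pow hn h1 (hpow u))
  -- the non-Eisenstein prime
  obtain ⟨ℓ₀, A₀, φ₀, hℓ₀, hℓ₀S, hdvd, hA₀, hφ₀, hev⟩ :=
    hnE (M'' * v) (Nat.pos_of_ne_zero hL0) (S ∪ S₀)
  rw [Finset.mem_union, not_or] at hℓ₀S
  haveI : Fact ℓ₀.Prime := ⟨hℓ₀⟩
  have hℓ₀L : ¬ ℓ₀ ∣ M'' * v := by
    intro h
    have h1 : ℓ₀ ∣ ℓ₀ - 1 := h.trans hdvd
    have h2 := Nat.le_of_dvd (Nat.sub_pos_of_lt hℓ₀.one_lt) h1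
    have h3 := hℓ₀.one_lt
    omega
  have h1 : ((M'' * v : ℕ) : ℤ) ∣ (ℓ₀ : ℤ) - 1 := by
    have := Int.natCast_dvd_natCast.2 hdvd
    rwa [Nat.cast_sub hℓ₀.one_lt.le, Nat.cast_one] at this
  have hne : algebraMap 𝒪 K (t ℓ₀) ≠ 1 + (ℓ₀ : K) := by
    intro heqK
    have heq : t ℓ₀ = 1 + (ℓ₀ : 𝒪) := by
      apply hinj
      rw [heqK, map_add, map_one, map_natCast]
    apply hev
    haveI : CharP (ResidueField 𝒪) p := by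
      have h0 : ((p : ℕ) : ResidueField 𝒪) = 0 := by
        have h1 : residue 𝒪 (p : 𝒪) = 0 := (residue_eq_zero_iff _).2 hp𝒪
        rwa [map_natCast] at h1
      exact (CharP.charP_iff_prime_eq_zero hp).2 h0
    have h2 := ht ℓ₀ hℓ₀ hℓ₀S.1 hℓ₀S.2
    rw [heq, map_add, map_one, map_natCast] at h2
    have h3 : (((a ℓ₀ - (1 + (ℓ₀ : ℤ)) : ℤ)) : ResidueField 𝒪) = 0 := by
      push_cast
      rw [← h2]
      ring
    have h4 : (p : ℤ) ∣ a ℓ₀ - (1 + (ℓ₀ : ℤ)) :=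
      (CharP.intCast_eq_zero_iff (ResidueField 𝒪) p _).mp h3
    have h5 : (((a ℓ₀ - (1 + (ℓ₀ : ℤ)) : ℤ)) : ZMod p) = 0 :=
      (ZMod.intCast_zmod_eq_zero_iff_dvd _ p).mpr h4
    rw [h₀ ℓ₀ hℓ₀ hℓ₀S.2 A₀ hA₀ φ₀ hφ₀]
    simp only [eval_add, eval_sub, eval_mul, eval_pow, eval_X, eval_C, one_pow, mul_one]
    push_cast at h5
    linear_combination -h5
  -- (C): the one-prime partial twist
  have hxa : ∀ (ℓ : ℕ) [Fact ℓ.Prime] (hℓ : ¬ ℓ ∣ M), ℓ ∉ (↑S : Set ℕ) →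
      B1.heckeH K W (B1.isEquivariant_levelPi χ (B1.nData_equivariant hℓ)) x =
        algebraMap 𝒪 K (t ℓ) • x := fun ℓ _ hℓ hℓS => hxt ℓ hℓ (fun h => hℓS (Finset.mem_coe.2 h))
  obtain ⟨Φ, hΦ0, hΦpar, hΦT, hΦcj⟩ := exists_partial_twist_char (K := K) hM hsq hcop hTM χ W ΨK hn
    hpowK hΨTK hWK x hx (↑S : Set ℕ) (fun ℓ => algebraMap 𝒪 K (t ℓ)) hxa v hv (Dvd.intro T' rfl)
    hvM hMv (M'' * v) hL hvL (pmX (M'' * v)) hX hℓ₀L (fun h => hℓ₀S.1 (Finset.mem_coe.1 h)) h1 hne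
  -- TRANSLATE
  obtain ⟨φ, hφ0, hφpar, hφT, hφd⟩ := exists_kgd_eigenhom (M := M'' * v) (X := pmX (M'' * v))
    (neg_one_mem_pmX _) (K := K) Φ hΦ0 hΦpar
  -- the data for `trace_inertia_kgd_W`
  set S₀' : Finset ℕ := S ∪ S₀ ∪ (M'' * v).primeFactors with hS₀'
  have hS₀'S : ∀ ℓ : ℕ, ℓ ∉ S₀' → ℓ ∉ S := fun ℓ h hS =>
    h (Finset.mem_union_left _ (Finset.mem_union_left _ hS))
  have hS₀'L : ∀ ℓ : ℕ, ℓ.Prime → ℓ ∉ S₀' → ¬ ℓ ∣ M'' * v := fun ℓ hℓ h hd =>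
    h (Finset.mem_union_right _ (Nat.mem_primeFactors.2 ⟨hℓ, hd, hL0⟩))
  have hS₀'p : ∀ ℓ : ℕ, ℓ.Prime → ℓ ∉ S₀' → ¬ ℓ ∣ M'' * v ∧ ℓ ≠ p := fun ℓ hℓ h =>
    ⟨hS₀'L ℓ hℓ h, fun hp' => hS₀'S ℓ h (hp' ▸ hpS)⟩
  have hcopM : ∀ ℓ : ℕ, ℓ.Prime → ℓ ∉ S₀' → ℓ.Coprime M := fun ℓ hℓ h =>
    (Nat.Prime.coprime_iff_not_dvd hℓ).2 (fun hd => hS₀'S ℓ h (hNS ℓ hℓ hd))
  set τ : ℕ → 𝒪 := fun ℓ => if h : ℓ.Coprime M then
    ((((Ψ (ZMod.unitOfCoprime ℓ h)) ^ ((n + 1) / 2))⁻¹ : 𝒪ˣ) : 𝒪) * t ℓ else 0 with hτ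
  set b : ℕ → 𝒪 := fun ℓ => if h : ℓ.Coprime M then
    ((((Ψ' (ZMod.unitsMap hMv (ZMod.unitOfCoprime ℓ h))) ^ ((n + 1) / 2))⁻¹ : 𝒪ˣ) : 𝒪) * t ℓ
    else 0 with hb
  have hρ' : ∀ ℓ : ℕ, ℓ.Prime → ℓ ∉ S₀' → ∀ A : ValuationSubring Qb, A.LiesOverPrime ℓ →
      ∀ φ : GQ, A.IsFrobeniusAt φ ℓ →
        LinearMap.charpoly (ρ.ρ φ) = X ^ 2 - C (τ ℓ) * X + C (ℓ : 𝒪) := by
    intro ℓ hℓ hℓS B hB φ' hφ'
    have hc := hcopM ℓ hℓ hℓS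
    rw [hτ]
    simp only [dif_pos hc]
    exact hρ ℓ hℓ (hS₀'S ℓ hℓS) (ZMod.unitOfCoprime ℓ hc) (ZMod.coe_unitOfCoprime ℓ hc) B hB φ' hφ'
  -- the unit attached to `ℓ` modulo `v`
  have hunit_v : ∀ (ℓ : ℕ) (hc : ℓ.Coprime M) (d : (ZMod v)ˣ), (d : ZMod v) = (ℓ : ZMod v) →
      ZMod.unitsMap hvM (ZMod.unitOfCoprime ℓ hc) = d := by
    intro ℓ hc d hd
    apply Units.ext
    rw [ZMod.unitsMap_def, Units.coe_map, ZMod.coe_unitOfCoprime, hd]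
    exact map_natCast (ZMod.castHom hvM (ZMod v)) ℓ
  have hbη : ∀ ℓ : ℕ, ℓ.Prime → ℓ ∉ S₀' → ∀ d : (ZMod v)ˣ, (d : ZMod v) = (ℓ : ZMod v) →
      b ℓ = ((ηq d : 𝒪ˣ) : 𝒪) * τ ℓ := by
    intro ℓ hℓ hℓS d hd
    have hc := hcopM ℓ hℓ hℓS
    rw [hb, hτ]
    simp only [dif_pos hc]
    have key : ((Ψ' (ZMod.unitsMap hMv (ZMod.unitOfCoprime ℓ hc))) ^ ((n + 1) / 2))⁻¹ =
        ηq d * ((Ψ (ZMod.unitOfCoprime ℓ hc)) ^ ((n + 1) / 2))⁻¹ := by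
      rw [hsplit (ZMod.unitOfCoprime ℓ hc), hunit_v ℓ hc d hd, hηq, MonoidHom.pow_apply, mul_pow,
        mul_inv, ← mul_assoc, mul_inv_cancel, one_mul]
    rw [key, Units.val_mul, mul_assoc]
  have hΨK_inv : ∀ u : (ZMod M)ˣ, ((((ΨK u) ^ ((n + 1) / 2))⁻¹ : Kˣ) : K) =
      algebraMap 𝒪 K ((((Ψ u) ^ ((n + 1) / 2))⁻¹ : 𝒪ˣ) : 𝒪) := by
    intro u
    rw [hΨK, MonoidHom.comp_apply, ← map_pow, ← map_inv]
    rfl
  have hT' : ∀ ℓ : ℕ, ℓ.Prime → ℓ ∉ S₀' → ∀ γ : pmGamma1 (M'' * v),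
      ∑ i, φ (Additive.ofMul (cTFun ℓ γ i)) = algebraMap 𝒪 K (b ℓ) • φ (Additive.ofMul γ) := by
    intro ℓ hℓ hℓS γ
    haveI : Fact ℓ.Prime := ⟨hℓ⟩
    have hc := hcopM ℓ hℓ hℓS
    obtain ⟨u, hu1, hu2⟩ := hlift 1 (ZMod.unitsMap hMv (ZMod.unitOfCoprime ℓ hc))
    have hu2' : ((ZMod.unitsMap hMv u : (ZMod (M / v))ˣ) : ZMod (M / v)) = (ℓ : ZMod (M / v)) := by
      rw [hu2, ZMod.unitsMap_def, Units.coe_map, ZMod.coe_unitOfCoprime]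
      exact map_natCast (ZMod.castHom hMv (ZMod (M / v))) ℓ
    have h2 := hΦT ℓ (hS₀'L ℓ hℓ hℓS) (fun h => hS₀'S ℓ hℓS (Finset.mem_coe.1 h)) u hu1 hu2'
    have h3 := hφT ℓ (hS₀'L ℓ hℓ hℓS) _ h2 γ
    rw [h3]
    congr 1
    rw [hΨK_inv, hb]
    simp only [dif_pos hc]
    rw [map_mul, hΨ_of_v u hu1, hu2]
  have hd' : ∀ (d : (ZMod (M'' * v))ˣ) (γ : pmGamma1 (M'' * v)),
      φ (Additive.ofMul (cdFun d γ)) =
        algebraMap 𝒪 K ((ψv (ZMod.unitsMap (dvd_level M'' v) d) : 𝒪ˣ) : 𝒪) •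
          φ (Additive.ofMul γ) := by
    intro d γ
    obtain ⟨u, hu1, hu2⟩ := hlift (ZMod.unitsMap hvL d) 1
    have hb11 : ((ZMod.unitsMap hvM u : (ZMod v)ˣ) : ZMod v) =
        ((((deltaD d : ↥(Gamma0 (M'' * v))) : SL(2, ℤ)) 1 1 : ℤ) : ZMod v) := by
      rw [hu1, ZMod.unitsMap_def, Units.coe_map]
      show ZMod.castHom hvL (ZMod v) ((d : (ZMod (M'' * v))ˣ) : ZMod (M'' * v)) = _
      rw [← cast_dMat_one_one d, map_intCast]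
      rfl
    have h2 := hΦcj (deltaD d) u hu2 hb11
    have h3 := hφd d _ h2 γ
    rw [h3, hΨK_val, hΨ_of_Mv u hu2, hu1]
  -- the main theorem
  have key := trace_inertia_kgd_W (K := K) (M := M'') (q := v) hp5 hp𝒪 hv5 hvM'' (Ne.symm hvp) h49
    hN4 S₀' hS₀'p ρ hspan τ hρ' ψv ηq hη hψv1 hψvpow b hbη φ hφ0 hφpar hT' hd' hA hσ
    (ZMod.unitsMap hvM c) hcμ
  rw [key, hηq, MonoidHom.pow_apply, ← hΨ_of_Mv c hc1]

end Nontrivial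

end Fermat.Agent.S43lib.LGC.D
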