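/-
S43lib / LGC / D / PointStmt  (helper8)  — Project H, block LGC: THE STATEMENT CONSUMED BY THE HUB.

**`lgcPointStmt : Mod4.LGCPointStmt`** (helper7's `Mod4/LGCIface.lean`): local–global compatibility
at a point of the Hecke algebra, `tr ρ(σ) = ψ(g) + ψ(g)⁻¹` on the inertia groups at `v ∣ M`.
Case split on the `v`-component of the nebentypus `Ψ = ψ ∘ χ`:
* trivial: helper4's (D₀) `isUnipotentOnInertiaAt_of_trivial_component` (`tr = 2`);
* nontrivial: `trace_inertia_nontrivial` (`Final.lean`, LGC-A..D).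
-/
import Mathlib
import Fermat.Agent.S43lib.LGC.D.Final
import Fermat.Agent.S43lib.B3.TrivCompChar
import Fermat.Agent.S43lib.Mod4.LGCIface

set_option autoImplicit false
set_option linter.unusedSectionVars false
set_option linter.unusedVariables false
set_option linter.style.haveILetI false

noncomputable section

namespace Fermat.Agent.S43lib.LGC.D

open Polynomial IsLocalRing Fermat.Agent.S43lib.B3 Fermat.Agent.S43lib.B2.Bridge
  Fermat.Agent.S56lib.TW ExtCitation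

local notation "Qb" => AlgebraicClosure ℚ
local notation "GQ" => (AlgebraicClosure ℚ ≃ₐ[ℚ] AlgebraicClosure ℚ)

set_option maxHeartbeats 1600000 in
/-- **Block LGC, per point** — the statement consumed by the hub. -/
theorem lgcPointStmt : Fermat.Agent.S43lib.Mod4.LGCPointStmt := by
  intro p hpf hp5 𝒪' _ _ _ _ _ _ hp𝒪 K' _ _ _ M _ hsqM hpM G _ _ hG χ ψ W _ _ _ _ _ hW S hpS hNS c
    hc a hca ρ₀ hirr a₀ S₀ h₀ hcong hnE ρ hρ hspan v hvf hvM hv2 hvp A hA σ hσ u hu1 hu2 g hg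
  classical
  have hp : p.Prime := hpf.out
  have hv : v.Prime := hvf.out
  have hp2 : p ≠ 2 := by omega
  have hinj : Function.Injective (algebraMap 𝒪' K') := IsFractionRing.injective 𝒪' K'
  haveI : CharZero K' := charZero_of_injective_algebraMap hinj
  -- the order of `G`
  obtain ⟨k, hk⟩ := IsPGroup.iff_card.1 hG
  rw [Nat.card_eq_fintype_card] at hk
  set n : ℕ := Fintype.card G with hn
  have hnodd : Odd n := by
    rw [hk]
    exact (hp.odd_of_ne_two hp2).pow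
  have hGn : ∀ y : G, y ^ n = 1 := fun y => pow_card_eq_one
  -- the nebentypus
  set Ψ : (ZMod M)ˣ →* 𝒪'ˣ := ψ.comp χ with hΨ
  have hpow : ∀ u', Ψ u' ^ n = 1 := by
    intro u'
    rw [hΨ, MonoidHom.comp_apply, ← map_pow, hGn, map_one]
  have hΨ1 : ∀ u', residue 𝒪' ((Ψ u' : 𝒪'ˣ) : 𝒪') = 1 := by
    intro u'
    refine residue_eq_one_of_pow_eq_one hp𝒪 (Ψ u') k ?_
    rw [← hk]
    exact hpow u'
  have hM : M = 1 * M := (one_mul M).symm
  have hcop : Nat.Coprime 1 M := Nat.coprime_one_left M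
  have hTM : M ∣ M := dvd_refl M
  have hΨT : ∀ u', ZMod.unitsMap hTM u' = 1 → Ψ u' = 1 := by
    intro u' hu'
    rw [ZMod.unitsMap_self] at hu'
    rw [show u' = 1 from hu', map_one]
  have hW' : ∀ (u' : (ZMod M)ˣ) (w : W),
      χ u' • w = algebraMap 𝒪' K' ((Ψ u' : 𝒪'ˣ) : 𝒪') • w := fun u' w => hW (χ u') w
  -- the square root in `G`
  have hsqrtG : ∀ y : G, y ^ ((n + 1) / 2) * y ^ ((n + 1) / 2) = y := fun y =>
    exists_sqrt_char (MonoidHom.id G) hnodd hGn y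
  have hρ' : ∀ ℓ : ℕ, ℓ.Prime → ℓ ∉ S → ∀ u' : (ZMod M)ˣ, (u' : ZMod M) = (ℓ : ZMod M) →
      ∀ B : ValuationSubring Qb, B.LiesOverPrime ℓ → ∀ φ : GQ, B.IsFrobeniusAt φ ℓ →
        LinearMap.charpoly (ρ.ρ φ) =
          X ^ 2 - C (((((Ψ u') ^ ((n + 1) / 2))⁻¹ : 𝒪'ˣ) : 𝒪') * a ℓ) * X + C ((ℓ : 𝒪')) := by
    intro ℓ hℓ hℓS u' hu' B hB φ hφ
    have hℓM : ℓ.Coprime M :=
      (Nat.Prime.coprime_iff_not_dvd hℓ).2 (fun hd => hℓS (hNS ℓ hℓ hd))
    have hu'' : ZMod.unitOfCoprime ℓ hℓM = u' := by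
      apply Units.ext
      rw [ZMod.coe_unitOfCoprime, hu']
    have hg' : ((χ u') ^ ((n + 1) / 2))⁻¹ * ((χ u') ^ ((n + 1) / 2))⁻¹ *
        χ (ZMod.unitOfCoprime ℓ hℓM) = 1 := by
      rw [hu'', ← mul_inv, hsqrtG, inv_mul_cancel]
    have h1 := hρ ℓ hℓ hℓM hℓS _ hg' B hB φ hφ
    rw [h1, map_inv, map_pow]
    rfl
  have hvT : v ∣ M := hvM
  have hMv : M / v ∣ M := Nat.div_dvd_of_dvd hvM
  have hψg : ψ g * ψ g = Ψ u := by
    rw [← map_mul, hg]
    rfl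
  have hψgn : ψ g ^ n = 1 := by rw [← map_pow, hGn, map_one]
  by_cases hΨv : ∀ u' : (ZMod M)ˣ, ZMod.unitsMap hMv u' = 1 → Ψ u' = 1
  · -- the trivial component: (D₀)
    have hunip := isUnipotentOnInertiaAt_of_trivial_component hp2 hp𝒪 hinj hM hsqM hcop hTM hpS hNS ρ₀
      hirr a₀ S₀ h₀ hnE χ W Ψ hnodd hpow hΨ1 hΨT hW' c hc a hca hcong ρ hρ' v hv hvp hvT hΨv
    have htr := trace_eq_two_of_isUnipotentOnInertiaAt ρ hunip A hA σ hσ
    have hψg1 : ψ g = 1 := by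
      refine eq_one_of_sq_of_odd_pow hnodd ?_ hψgn
      rw [hψg, hΨv u hu2]
    rw [htr, hψg1, inv_one, Units.val_one]
    norm_num
  · -- the nontrivial component: LGC-A..D
    have hcμ : ∀ μ : Qb, μ ^ v = 1 →
        σ μ = μ ^ ((ZMod.unitsMap hvM u : (ZMod v)ˣ) : ZMod v).val := by
      intro μ hμ
      rw [hu1]
      exact cycloChar_spec v σ μ hμ
    have key := trace_inertia_nontrivial hp5 hp𝒪 hM hsqM hcop hTM hpS hNS ρ₀ a₀ S₀ h₀ hnE χ W Ψ hnodd
      hpow hΨ1 hΨT hW' c hc a hca hcong ρ hρ' hspan v hv hvp hvT hvM hMv hΨv hA hσ u hu2 hcμ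
    have hψg' : (Ψ u) ^ ((n + 1) / 2) = ψ g := by
      obtain ⟨m, hm⟩ := hnodd
      have h1 : (n + 1) / 2 = m + 1 := by omega
      rw [← hψg, h1, ← pow_two, ← pow_mul]
      have h2 : 2 * (m + 1) = n + 1 := by omega
      rw [h2, pow_succ, hψgn, one_mul]
    rw [key, hψg']

end Fermat.Agent.S43lib.LGC.D
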